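import Fermat.Agent.CurveTorsion.PlaneModel
import Mathlib.LinearAlgebra.Dimension.Free
import Mathlib.LinearAlgebra.Basis.VectorSpace

/-!
# Every separably generated function field comes from valid curve data
-/

set_option autoImplicit false

noncomputable section

open scoped Classical

open Polynomial AlgebraicCurve IntermediateField
open scoped Polynomial.Bivariate

namespace Fermat.Agent.CurveTorsion

open FF

set_option linter.unusedSectionVars false

variable {K F : Type*} [Field K] [Field F] [Algebra K F] [IsFunctionField K F] [IsAlgClosed K]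
  {n : ℕ}

/-- An affine chart: a free basis of the ring of functions regular where `x` is regular. -/
structure Chart (x : F) (u : Fin n → F) (T : Fin n → Fin n → Fin n → K[X]) (i0 : Fin n) :
    Prop where
  trans : Transcendental K x
  one : u i0 = 1
  table : ∀ a b, u a * u b = comb x u (T a b)
  inj : Function.Injective (comb x u : (Fin n → K[X]) →ₗ[K] F)
  reg : ∀ i (v : Place K F), 0 ≤ v.ord x → u i ∈ ordGe v 0
  range : ∀ y : F, (∀ v : Place K F, 0 ≤ v.ord x → y ∈ ordGe v 0) →
    ∃ w, y = comb (k := K) x u w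

/-- The constant vector. -/
def cvec {R : Type*} [CommRing R] (v : Fin n → R) : Fin n → R[X] := fun i => C (v i)

variable {x : F} {u : Fin n → F} {T : Fin n → Fin n → Fin n → K[X]} {i0 : Fin n}

theorem Chart.comb_mem (h : Chart x u T i0) (w : Fin n → K[X]) {v : Place K F}
    (hv : 0 ≤ v.ord x) : comb x u w ∈ ordGe v 0 := by
  rw [comb_apply]
  refine sum_mem fun i _ => ?_
  simpa using mul_mem_ordGe v ((mem_ordGe_zero v).mpr
    (aeval_mem_valuationSubring v ((mem_iff v).mpr (Or.inr hv)) (w i))) (h.reg i v hv)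

theorem ord_nonneg_of_sub_pos {v : Place K F} {c : K} (hx : Transcendental K x)
    (hv : 0 < v.ord (x - algebraMap K F c)) : 0 ≤ v.ord x := by
  have hne : x - algebraMap K F c ≠ 0 := fun h0 => hx (by
    rw [sub_eq_zero.mp h0]; exact isAlgebraic_algebraMap c)
  exact ord_nonneg v (mem_of_sub_mem v (t := c) (j := 1)
    (mem_ordGe_of_le v (show ((1 : ℕ) : ℤ) ≤ _ by omega)))

theorem Chart.sub_res_mem (h : Chart x u T i0) {c : K} {v : Place K F}
    (hv : 0 < v.ord (x - algebraMap K F c)) {χ : Fin n → K}
    (hχ : ∀ l, u l - algebraMap K F (χ l) ∈ ordGe v 1) (w : Fin n → K[X]) :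
    comb x u w - algebraMap K F (∑ l, (w l).eval c * χ l) ∈ ordGe v 1 := by
  have hx0 := ord_nonneg_of_sub_pos h.trans hv
  have hxv : x ∈ v.toValuationSubring := (mem_iff v).mpr (Or.inr hx0)
  rw [comb_apply, map_sum, ← Finset.sum_sub_distrib]
  refine sum_mem fun l _ => ?_
  have h1 : aeval x (w l) - algebraMap K F ((w l).eval c) ∈ ordGe v 1 := by
    have := evalB_sub_mem_ordGe v hxv hxv (j := 1) (x' := algebraMap K F c) (θ' := x)
      (mem_ordGe_of_le v (by omega)) (by simp) (C (w l))
    rwa [evalB_C, evalB_C, aeval_algebraMap_apply, coe_aeval_eq_eval] at this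
  have h2 : aeval x (w l) * u l - algebraMap K F ((w l).eval c * χ l)
      = (aeval x (w l) - algebraMap K F ((w l).eval c)) * u l
        + algebraMap K F ((w l).eval c) * (u l - algebraMap K F (χ l)) := by
    rw [map_mul]; ring
  rw [h2]
  exact add_mem (by simpa using mul_mem_ordGe v h1 (h.reg l v hx0))
    (by simpa using mul_mem_ordGe v ((mem_ordGe_zero v).mpr (v.algebraMap_mem' _)) (hχ l))

theorem Chart.comb_single_one (h : Chart x u T i0) :
    comb x u (cvec fun i => if i = i0 then (1 : K) else 0) = 1 := by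
  rw [comb_apply, Finset.sum_eq_single i0 (fun i _ hi => by simp [cvec, hi]) (by simp)]
  simp [cvec, h.one]

theorem Chart.comb_tablePow (h : Chart x u T i0) (w : Fin n → K[X]) (N : ℕ) :
    comb x u (tablePow T (cvec fun i => if i = i0 then (1 : K) else 0) w N)
      = comb x u w ^ N := by
  induction N with
  | zero => simpa [tablePow] using h.comb_single_one
  | succ N ih => rw [tablePow, ← comb_mul_comb h.table, ih, pow_succ]

theorem Chart.exists_cert (h : Chart x u T i0) (c : K) : Nonempty (Cert T i0 c) := by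
  set π := x - algebraMap K F c
  have hπ0 : π ≠ 0 := fun h0 => h.trans (by
    rw [sub_eq_zero.mp h0]; exact isAlgebraic_algebraMap c)
  have hπ : aeval x (X - C c) = π := by simp [π]
  set Fb := (finite_zeros (K := K) π).toFinset
  let e := Fb.card
  let pt : Fin e → Place K F := fun j => (Fb.equivFin.symm j : Place K F)
  have hpt : ∀ j, 0 < (pt j).ord π := fun j => by
    have := (Fb.equivFin.symm j).2
    exact (Set.Finite.mem_toFinset (finite_zeros (K := K) π)).mp this
  have hall : ∀ v : Place K F, 0 < v.ord π → ∃ j, pt j = v := fun v hv =>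
    ⟨Fb.equivFin ⟨v, by simpa [Fb] using hv⟩, by simp [pt]⟩
  have hx0 : ∀ j, 0 ≤ (pt j).ord x := fun j => ord_nonneg_of_sub_pos h.trans (hpt j)
  have hres := fun j l => FF.exists_sub_mem_ordGe_one (pt j) ((mem_ordGe_zero _).mp (h.reg l _ (hx0 j)))
  choose χ hχ using hres
  let Φ : (Fin n → K) →ₗ[K] (Fin e → K) :=
    { toFun := fun v j => ∑ l, v l * χ j l
      map_add' := fun v w => by ext j; simp [add_mul, Finset.sum_add_distrib]
      map_smul' := fun a v => by ext j; simp [Finset.mul_sum, mul_assoc] }
  have hΦ : ∀ (w : Fin n → K[X]) j, comb x u w ∈ ordGe (pt j) 1 ↔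
      Φ (fun l => (w l).eval c) j = 0 := fun w j => by
    have h1 := h.sub_res_mem (hpt j) (hχ j) w
    rw [← algebraMap_mem_ordGe_one_iff (pt j)]
    exact ⟨fun h2 => by simpa [Φ] using sub_mem h2 h1, fun h2 => by
      simpa [Φ] using add_mem h1 h2⟩
  have hΦc : ∀ v : Fin n → K, Φ (fun l => (cvec v l).eval c) = Φ v := fun v => by simp [cvec]
  let s := Module.finrank K (LinearMap.ker Φ)
  let bk : Module.Basis (Fin s) K (LinearMap.ker Φ) := Module.finBasis K _
  let r : Fin s → Fin n → K := fun a => bk a
  have hr : ∀ a j, comb x u (cvec (r a)) ∈ ordGe (pt j) 1 := fun a j => by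
    rw [hΦ, hΦc, show Φ (r a) = 0 from (bk a).2, Pi.zero_apply]
  -- the regular functions vanishing on the fibre
  let InI : F → Prop := fun y =>
    (∀ v : Place K F, 0 ≤ v.ord x → y ∈ ordGe v 0) ∧ ∀ j, y ∈ ordGe (pt j) 1
  obtain ⟨P, hP⟩ := LinearMap.exists_rightInverse_of_surjective Φ.rangeRestrict
    Φ.range_rangeRestrict
  obtain ⟨ψ, hψ⟩ := LinearMap.exists_extend P
  have hψΦ : ∀ v, Φ (ψ (Φ v)) = Φ v := fun v => by
    have h1 := LinearMap.congr_fun hψ ⟨Φ v, LinearMap.mem_range_self Φ v⟩
    have h2 := LinearMap.congr_fun hP ⟨Φ v, LinearMap.mem_range_self Φ v⟩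
    simp only [LinearMap.comp_apply, Submodule.coe_subtype] at h1 h2
    rw [h1]
    exact congrArg Subtype.val h2
  let proj : (Fin n → K) →ₗ[K] LinearMap.ker Φ :=
    (LinearMap.id - ψ.comp Φ).codRestrict _ fun v => by simp [hψΦ]
  -- the injectivity of the first order products
  let P2 : Fin s → Fin s → Fin n → K[X] := fun a' b => prodPoly T (r a') (r b)
  let Ψ : (Fin s → K) →ₗ[K] ((Fin s × Fin n) ⊕ (Fin s × Fin e) → K) :=
    { toFun := fun a => Sum.elim (fun p => ∑ a', a a' * (P2 a' p.1 p.2).eval c)
        (fun p => ∑ a', a a' * ∑ l, χ p.2 l * (derivative (P2 a' p.1 l)).eval c)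
      map_add' := fun a b => by
        ext (p | p) <;> simp [add_mul, Finset.sum_add_distrib]
      map_smul' := fun m a => by
        ext (p | p) <;> simp [Finset.mul_sum, mul_assoc] }
  have hinj : LinearMap.ker Ψ = ⊥ := by
    rw [LinearMap.ker_eq_bot']
    intro a ha
    set v : Fin n → K := fun i => ∑ a', a a' * r a' i
    set z := comb x u (cvec v)
    have hz1 : ∀ j, z ∈ ordGe (pt j) 1 := fun j => by
      rw [hΦ, hΦc]
      have : v = ∑ a', a a' • r a' := by ext i; simp [v]
      rw [this, map_sum]
      simp [map_smul, show ∀ a', Φ (r a') = 0 from fun a' => (bk a').2]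
    have hQ : ∀ b, ∃ Q : Fin n → K[X], z / π * comb x u (cvec (r b)) = comb x u Q ∧
        ∀ j, comb x u Q ∈ ordGe (pt j) 1 := by
      intro b
      set W := tableMul T (cvec v) (cvec (r b))
      have hW : ∀ l, W l = ∑ a', C (a a') * P2 a' b l := fun l =>
        prodPoly_sum_left Finset.univ T a r (r b) l
      have hWc : ∀ l, (W l).IsRoot c := fun l => by
        have := congrFun ha (Sum.inl (b, l))
        simpa [IsRoot, hW, eval_finsetSum, Ψ] using this
      choose Q hQ using fun l => dvd_iff_isRoot.mpr (hWc l)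
      refine ⟨Q, ?_, fun j => ?_⟩
      · rw [div_mul_eq_mul_div, comb_mul_comb h.table, div_eq_iff hπ0, mul_comm, ← hπ,
          aeval_mul_comb]
        exact congrArg _ (funext hQ)
      · rw [hΦ]
        have h1 : ∀ l, (derivative (W l)).eval c = (Q l).eval c := fun l => by
          simp [hQ, derivative_mul]
        have := congrFun ha (Sum.inr (b, j))
        simp only [Ψ, LinearMap.coe_mk, AddHom.coe_mk, Sum.elim_inr, Pi.zero_apply,
          Finset.mul_sum] at this
        rw [Finset.sum_comm] at this
        show ∑ l, (Q l).eval c * χ j l = 0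
        rw [← this]
        refine Finset.sum_congr rfl fun l _ => ?_
        rw [← h1, hW, map_sum, eval_finsetSum, Finset.sum_mul]
        exact Finset.sum_congr rfl fun a' _ => by simp; ring
    -- the multiplier property
    have hmul : ∀ y, InI y → InI (z / π * y) := by
      intro y hy
      obtain ⟨w, rfl⟩ := h.range y hy.1
      have hw : (fun l => (w l).eval c) ∈ LinearMap.ker Φ :=
        LinearMap.mem_ker.mpr (funext fun j => (hΦ w j).mp (hy.2 j))
      choose w' hw' using fun l => dvd_iff_isRoot.mpr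
        (show (w l - C ((w l).eval c)).IsRoot c by simp)
      obtain ⟨co, hco⟩ : ∃ co : Fin s → K, ∀ l, (w l).eval c = ∑ b, co b * r b l := by
        refine ⟨fun b => bk.repr ⟨_, hw⟩ b, fun l => ?_⟩
        have h2 := congrFun (congrArg Subtype.val (bk.sum_repr ⟨_, hw⟩)) l
        simp only [Submodule.coe_sum, Submodule.coe_smul, Finset.sum_apply, Pi.smul_apply,
          smul_eq_mul] at h2
        exact h2.symm
      choose Q hQ1 hQ2 using hQ
      have heq : z / π * comb x u w
          = ∑ b, algebraMap K F (co b) * comb x u (Q b) + z * comb x u w' := by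
        have h1 : comb x u w
            = ∑ b, algebraMap K F (co b) * comb x u (cvec (r b)) + π * comb x u w' := by
          rw [← hπ, aeval_mul_comb]
          simp only [comb_apply, Finset.mul_sum]
          rw [Finset.sum_comm, ← Finset.sum_add_distrib]
          refine Finset.sum_congr rfl fun l _ => ?_
          rw [← hw' l, map_sub, aeval_C, hco, map_sum, sub_mul, Finset.sum_mul]
          simp only [cvec, aeval_C, map_mul, mul_assoc]
          ring
        rw [h1, mul_add, Finset.mul_sum, ← mul_assoc, div_mul_cancel₀ _ hπ0]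
        congr 1
        exact Finset.sum_congr rfl fun b _ => by rw [← hQ1]; ring
      refine ⟨fun v hv => ?_, fun j => ?_⟩
      · rw [heq]
        refine add_mem (sum_mem fun b _ => ?_) ?_
        · simpa using mul_mem_ordGe v ((mem_ordGe_zero v).mpr (v.algebraMap_mem' (co b)))
            (h.comb_mem (Q b) hv)
        · simpa using mul_mem_ordGe v (h.comb_mem (cvec _) hv) (h.comb_mem w' hv)
      · rw [heq]
        refine add_mem (sum_mem fun b _ => ?_) ?_
        · simpa using mul_mem_ordGe (pt j)
            ((mem_ordGe_zero _).mpr ((pt j).algebraMap_mem' (co b))) (hQ2 b j)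
        · simpa using mul_mem_ordGe (pt j) (hz1 j) (h.comb_mem w' (hx0 j))
    -- so the multiplier is regular
    have hreg : ∀ v : Place K F, 0 ≤ v.ord x → z / π ∈ ordGe v 0 := by
      intro v hv
      rcases eq_or_ne z 0 with hz0 | hz0
      · simp [hz0]
      have hπv : 0 ≤ v.ord π := le_ord_of_mem_ordGe v hπ0
        (sub_mem (mem_ordGe_of_le v hv) ((mem_ordGe_zero v).mpr (v.algebraMap_mem' c)))
      refine mem_ordGe_of_le v ?_
      rcases eq_or_lt_of_le hπv with h0 | h0
      · rw [FF.ord_div v hz0 hπ0, ← h0, sub_zero]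
        exact le_ord_of_mem_ordGe v hz0 (h.comb_mem (cvec _) hv)
      obtain ⟨j, rfl⟩ := hall v h0
      have hIπ : InI π := ⟨fun w hw => sub_mem (mem_ordGe_of_le w hw)
          ((mem_ordGe_zero w).mpr (w.algebraMap_mem' c)),
        fun i => mem_ordGe_of_le _ (by have := hpt i; omega)⟩
      have hex : ∃ m : ℕ, ∃ y, InI y ∧ y ≠ 0 ∧ (pt j).ord y = m :=
        ⟨((pt j).ord π).toNat, π, hIπ, hπ0, by omega⟩
      obtain ⟨y, hy, hy0, hym⟩ := Nat.find_spec hex
      have h1 := hmul y hy
      have hq0 : z / π * y ≠ 0 := mul_ne_zero (div_ne_zero hz0 hπ0) hy0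
      have h2 : 0 ≤ (pt j).ord (z / π * y) := le_ord_of_mem_ordGe _ hq0 (h1.1 _ hv)
      have h3 := Nat.find_min' hex (m := ((pt j).ord (z / π * y)).toNat)
        ⟨_, h1, hq0, by omega⟩
      rw [(pt j).ord_mul (div_ne_zero hz0 hπ0) hy0] at h2 h3
      omega
    obtain ⟨W, hW⟩ := h.range _ hreg
    have hzW : comb x u (cvec v) = comb x u (fun i => (X - C c) * W i) := by
      rw [← aeval_mul_comb, hπ, ← hW, mul_div_cancel₀ _ hπ0]
    have hv0 : v = 0 := funext fun i => by
      have := congrArg (Polynomial.eval c) (congrFun (h.inj hzW) i)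
      simpa [cvec] using this
    have : ∑ a', a a' • bk a' = 0 := by
      refine Subtype.ext (funext fun i => ?_)
      simpa [v, r, Finset.sum_apply] using congrFun hv0 i
    exact funext (Fintype.linearIndependent_iff.mp bk.linearIndependent a this)
  obtain ⟨Li, hLi⟩ := LinearMap.exists_leftInverse_of_injective Ψ hinj
  refine ⟨⟨e, s, χ, r, fun l a => bk.repr (proj (Pi.single l 1)) a,
    fun i j => ψ (Pi.single j 1) i,
    fun a b l => Li (Pi.single (Sum.inl (b, l)) 1) a,
    fun a b j => Li (Pi.single (Sum.inr (b, j)) 1) a, ?_, ?_, ?_, ?_, ?_, ?_⟩⟩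
  · intro j
    have h1 := hχ j i0
    rw [h.one, ← map_one (algebraMap K F), ← map_sub, algebraMap_mem_ordGe_one_iff,
      sub_eq_zero] at h1
    exact h1.symm
  · intro j a b
    have h1 := h.sub_res_mem (hpt j) (hχ j) (T a b)
    rw [← h.table] at h1
    have h2 : u a * u b - algebraMap K F (χ j a * χ j b) ∈ ordGe (pt j) 1 := by
      rw [show u a * u b - algebraMap K F (χ j a * χ j b)
          = (u a - algebraMap K F (χ j a)) * u b
            + algebraMap K F (χ j a) * (u b - algebraMap K F (χ j b)) by rw [map_mul]; ring]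
      have ha := (mem_ordGe_zero _).mpr ((pt j).algebraMap_mem' (χ j a))
      exact add_mem (by simpa using mul_mem_ordGe (pt j) (hχ j a) (h.reg b _ (hx0 j)))
        (by simpa using mul_mem_ordGe (pt j) ha (hχ j b))
    have h3 := sub_mem h2 h1
    rw [sub_sub_sub_cancel_left, ← map_sub, algebraMap_mem_ordGe_one_iff, sub_eq_zero] at h3
    rw [← h3]
    exact Finset.sum_congr rfl fun l _ => mul_comm _ _
  · intro j a
    have : Φ (r a) j = 0 := by rw [show Φ (r a) = 0 from (bk a).2, Pi.zero_apply]
    rw [← this]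
    exact Finset.sum_congr rfl fun l _ => mul_comm _ _
  · intro i l
    have h1 := congrArg (fun y : LinearMap.ker Φ => (y : Fin n → K) i)
      (bk.sum_repr (proj (Pi.single l 1)))
    have h2 : ψ (Φ (Pi.single l 1)) = ∑ j, χ j l • ψ (Pi.single j 1) := by
      conv_lhs => rw [pi_eq_sum_univ' (Φ (Pi.single l 1))]
      rw [map_sum]
      refine Finset.sum_congr rfl fun j _ => ?_
      rw [map_smul]
      congr 1
      simp [Φ, Pi.single_apply]
    simp only [proj, LinearMap.codRestrict_apply, LinearMap.sub_apply, LinearMap.id_coe, id_eq,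
      LinearMap.comp_apply, Pi.sub_apply, h2, Finset.sum_apply, Pi.smul_apply, smul_eq_mul,
      Submodule.coe_sum, Submodule.coe_smul, Pi.single_apply] at h1
    simp only [r]
    rw [h1]
    ring
  · intro a
    set z := comb x u (cvec (r a))
    let N : ℕ := (∑ j, ((pt j).ord π).toNat) + 1
    refine ⟨N, by omega, ?_⟩
    obtain ⟨W, hW⟩ := h.range (z ^ N / π) fun v hv => by
      rcases eq_or_ne z 0 with hz0 | hz0
      · simp [hz0, N]
      refine mem_ordGe_of_le v ?_
      rw [FF.ord_div v (pow_ne_zero _ hz0) hπ0, FF.ord_pow]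
      have h1 := le_ord_of_mem_ordGe v hz0 (h.comb_mem (cvec (r a)) hv)
      by_cases hvπ : 0 < v.ord π
      · obtain ⟨j, rfl⟩ := hall v hvπ
        have h2 := le_ord_of_mem_ordGe _ hz0 (hr a j)
        have h3 : ((pt j).ord π).toNat ≤ N := (Finset.single_le_sum
          (f := fun i => ((pt i).ord π).toNat) (fun _ _ => Nat.zero_le _) (Finset.mem_univ j)).trans
          (Nat.le_succ _)
        have h4 : (pt j).ord π ≤ N := by omega
        nlinarith
      · nlinarith
    rw [eq_comm, eq_div_iff hπ0, mul_comm, ← hπ, aeval_mul_comb, ← h.comb_tablePow] at hW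
    funext l
    have h1 := congrArg (Polynomial.eval c) (congrFun (h.inj hW) l)
    rw [← coe_evalRingHom, map_tablePow] at h1
    simpa [cvec] using h1.symm
  · intro a a'
    have h1 := congrFun (LinearMap.congr_fun hLi (Pi.single a' 1)) a
    rw [LinearMap.comp_apply, pi_eq_sum_univ' (Ψ (Pi.single a' 1)), map_sum] at h1
    simp only [map_smul, Finset.sum_apply, Pi.smul_apply, smul_eq_mul, LinearMap.id_coe, id_eq,
      Fintype.sum_sum_type, Fintype.sum_prod_type] at h1
    rw [Pi.single_apply] at h1
    rw [← h1]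
    have hl : ∀ b l, Ψ (Pi.single a' 1) (Sum.inl (b, l)) = (P2 a' b l).eval c := fun b l => by
      simp [Ψ, Pi.single_apply]
    have hr' : ∀ b j, Ψ (Pi.single a' 1) (Sum.inr (b, j))
        = ∑ l, χ j l * (derivative (P2 a' b l)).eval c := fun b j => by
      simp [Ψ, Pi.single_apply]
    simp only [hl, hr']
    congr 1
    · exact Finset.sum_congr rfl fun b _ => Finset.sum_congr rfl fun l _ => mul_comm _ _
    · exact Finset.sum_congr rfl fun b _ => Finset.sum_congr rfl fun j _ => mul_comm _ _

end Fermat.Agent.CurveTorsion
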