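import Fermat.Agent.CurveTorsion.WeilDiff
import Fermat.Agent.FF.Along
import Fermat.Prelude.Def_AlgebraicCurve_BaseChangeGalois
import Mathlib.LinearAlgebra.LinearIndependent.Defs
import Mathlib.GroupTheory.GroupAction.Period

/-!
# Function fields over an algebraic closure of a finite field with a Frobenius
-/

set_option autoImplicit false

noncomputable section

open scoped Classical

open AlgebraicCurve Polynomial

namespace Fermat.Agent.CurveTorsion

open FF

set_option linter.unusedSectionVars false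

variable {K F : Type*} [Field K] [Field F] [Algebra K F]

/-- A semilinear automorphism behaving as a `q`-power Frobenius. -/
structure IsFrob (φ : SemilinearAut K F) (q : ℕ) : Prop where
  two_le : 2 ≤ q
  base : ∀ a : K, SemilinearAut.baseAut φ a = a ^ q
  finite_field : ∀ a : K, ∃ r, 0 < r ∧ a ^ (q ^ r) = a
  card_fixed : ∀ r, 0 < r → Nat.card {a : K // a ^ (q ^ r) = a} = q ^ r
  orbit : ∀ z : F, ∃ r, 0 < r ∧ φ ^ r • z = z
  fixed_transcendental : ∃ x : F, Transcendental K x ∧ φ • x = x

variable {φ : SemilinearAut K F} {q : ℕ}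

theorem IsFrob.base_pow (h : IsFrob φ q) (r : ℕ) (a : K) :
    SemilinearAut.baseAut (φ ^ r) a = a ^ (q ^ r) := by
  induction r generalizing a with
  | zero => simp
  | succ r ih =>
    rw [pow_succ φ r, SemilinearAut.baseAut_mul, RingAut.mul_apply, ih, h.base, ← pow_mul,
      ← pow_succ']

theorem IsFrob.smul_algebraMap (h : IsFrob φ q) (r : ℕ) (a : K) :
    φ ^ r • algebraMap K F a = algebraMap K F (a ^ (q ^ r)) := by
  rw [SemilinearAut.smul_algebraMap, h.base_pow]

theorem smul_smul_elem (g : SemilinearAut K F) (a : K) (z : F) :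
    g • (a • z) = SemilinearAut.baseAut g a • (g • z) := by
  rw [Algebra.smul_def, smul_mul', SemilinearAut.smul_algebraMap, ← Algebra.smul_def]

theorem IsFrob.smul_smul_pow (h : IsFrob φ q) (r : ℕ) (a : K) (z : F) :
    φ ^ r • (a • z) = a ^ (q ^ r) • (φ ^ r • z) := by
  rw [smul_smul_elem, h.base_pow]

theorem pow_smul_fixed {M α : Type*} [Monoid M] [MulAction M α] {g : M} {x : α} {r : ℕ}
    (hr : g ^ r • x = x) {s : ℕ} (hs : r ∣ s) : g ^ s • x = x := by
  obtain ⟨d, rfl⟩ := hs
  induction d with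
  | zero => simp
  | succ d ih => rw [mul_add, mul_one, pow_add, mul_smul, hr, ih]

theorem IsFrob.pow (h : IsFrob φ q) {r : ℕ} (hr : 0 < r) : IsFrob (φ ^ r) (q ^ r) where
  two_le := h.two_le.trans (Nat.le_self_pow hr.ne' q)
  base a := h.base_pow r a
  finite_field a := by
    obtain ⟨s, hs, hs'⟩ := h.finite_field a
    refine ⟨s, hs, ?_⟩
    rw [← pow_mul]
    have : ∀ d, a ^ (q ^ (s * d)) = a := fun d => by
      induction d with
      | zero => simp
      | succ d ih => rw [mul_add, mul_one, pow_add, pow_mul, ih, hs']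
    rw [mul_comm]
    exact this r
  card_fixed s hs := by rw [← pow_mul]; exact h.card_fixed (r * s) (Nat.mul_pos hr hs)
  orbit z := by
    obtain ⟨s, hs, hs'⟩ := h.orbit z
    exact ⟨s, hs, by rw [← pow_mul]; exact pow_smul_fixed hs' (dvd_mul_left _ _)⟩
  fixed_transcendental := by
    obtain ⟨x, hx, hx'⟩ := h.fixed_transcendental
    exact ⟨x, hx, pow_smul_fixed (r := 1) (by rw [pow_one]; exact hx') (one_dvd r)⟩

variable [IsAlgClosed K] [IsFunctionField K F]

/-- Every place has a finite orbit. -/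
theorem IsFrob.orbit_place (h : IsFrob φ q) (P : Place K F) :
    ∃ r, 0 < r ∧ φ ^ r • P = P := by
  obtain ⟨z, hz, hzu⟩ := exists_single_pole P
  obtain ⟨r, hr, hr'⟩ := h.orbit z
  refine ⟨r, hr, ?_⟩
  by_contra hne
  have h1 := SemilinearAut.ord_smul (φ ^ r) P z
  rw [hr'] at h1
  have := hzu _ hne
  omega

theorem IsFrob.finite_fixed_field (h : IsFrob φ q) {r : ℕ} (hr : 0 < r) :
    {a : K | a ^ (q ^ r) = a}.Finite := by
  have h1 : Nat.card {a : K // a ^ (q ^ r) = a} ≠ 0 := by
    rw [h.card_fixed r hr]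
    exact pow_ne_zero _ (by have := h.two_le; omega)
  have := Nat.finite_of_card_ne_zero h1
  exact Set.finite_coe_iff.mp this

/-- Finitely many places are fixed by a power of Frobenius. -/
theorem IsFrob.finite_fixed_places (h : IsFrob φ q) {r : ℕ} (hr : 0 < r) :
    {P : Place K F | φ ^ r • P = P}.Finite := by
  obtain ⟨x, hx, hx'⟩ := h.fixed_transcendental
  have hxr : φ ^ r • x = x := pow_smul_fixed (r := 1) (by rw [pow_one]; exact hx') (one_dvd r)
  refine ((finite_poles x).union
    ((h.finite_fixed_field hr).biUnion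
      fun a _ => finite_zeros (K := K) (x - algebraMap K F a))).subset ?_
  intro P hP
  by_cases hneg : P.ord x < 0
  · exact Or.inl hneg
  refine Or.inr ?_
  obtain ⟨c, hc⟩ : ∃ c : K, x - algebraMap K F c ∈ ordGe P 1 := by
    have := finite_residueField P
    have hbij : Function.Bijective (algebraMap K P.ResidueField) :=
      IsAlgClosed.algebraMap_bijective_of_isIntegral
    obtain ⟨c, hc⟩ := hbij.2 (IsLocalRing.residue _ ⟨x, (mem_iff P).mpr (Or.inr (not_lt.mp hneg))⟩)
    refine ⟨c, (residue_eq_zero_iff P (a := ⟨x, (mem_iff P).mpr (Or.inr (not_lt.mp hneg))⟩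
      - algebraMap K P.toValuationSubring c)).mp ?_⟩
    rw [map_sub, ← hc]
    exact sub_self _
  have hne : ∀ b : K, x - algebraMap K F b ≠ 0 := fun b h0 =>
    hx (sub_eq_zero.mp h0 ▸ isAlgebraic_algebraMap b)
  have hpos : 0 < P.ord (x - algebraMap K F c) := by
    have := le_ord_of_mem_ordGe P (hne c) hc
    omega
  simp only [Set.mem_iUnion, exists_prop]
  refine ⟨c, ?_, hpos⟩
  have h2 : 0 < P.ord (x - algebraMap K F (c ^ (q ^ r))) := by
    have h1 := SemilinearAut.ord_smul (φ ^ r) P (x - algebraMap K F c)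
    rw [smul_sub, hxr, h.smul_algebraMap] at h1
    have hP' : φ ^ r • P = P := hP
    rw [hP'] at h1
    omega
  by_contra hcc
  have h3 : x - algebraMap K F (c ^ (q ^ r)) - (x - algebraMap K F c) ∈ ordGe P 1 :=
    sub_mem (mem_ordGe_of_le P (by omega)) (mem_ordGe_of_le P (by omega))
  rw [sub_sub_sub_cancel_left, ← map_sub] at h3
  have hsub : c - c ^ (q ^ r) ≠ 0 := fun h0 => hcc (sub_eq_zero.mp h0).symm
  have := le_ord_of_mem_ordGe P ((_root_.map_ne_zero _).mpr hsub) h3
  rw [ord_algebraMap] at this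
  omega

/-- A divisor invariant under Frobenius. -/
def Inv (φ : SemilinearAut K F) (D : Divisor K F) : Prop := φ • D = D

theorem inv_iff {D : Divisor K F} : Inv φ D ↔ ∀ P, D (φ • P) = D P := by
  refine ⟨fun hD P => ?_, fun hD => ?_⟩
  · conv_lhs => rw [← hD]
    rw [SemilinearAut.divisor_smul_apply_smul]
  · refine Finsupp.ext fun P => ?_
    rw [SemilinearAut.divisor_smul_apply, ← hD (φ⁻¹ • P), smul_inv_smul]

theorem Inv.apply_pow {D : Divisor K F} (h : Inv φ D) (r : ℕ) (P : Place K F) :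
    D (φ ^ r • P) = D P := by
  induction r generalizing P with
  | zero => simp
  | succ r ih => rw [pow_succ φ r, mul_smul, ih, inv_iff.mp h]

theorem smul_div (f : F) : φ • div K f = div K (φ • f) := by
  refine Finsupp.ext fun P => ?_
  rw [SemilinearAut.divisor_smul_apply, div_apply, div_apply]
  have := SemilinearAut.ord_smul φ (φ⁻¹ • P) f
  rw [smul_inv_smul] at this
  exact this.symm

theorem eq_smul_of_div_eq {f g : F} (hf : f ≠ 0) (hg : g ≠ 0) (h : div K f = div K g) :
    ∃ a : K, a ≠ 0 ∧ f = a • g := by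
  obtain ⟨a, ha⟩ := eq_algebraMap_of_ord_nonneg (K := K) (f := f / g) fun v => by
    have := DFunLike.congr_fun h v
    simp only [div_apply] at this
    rw [ord_div v hf hg, this, sub_self]
  refine ⟨a, ?_, ?_⟩
  · rintro rfl
    rw [map_zero] at ha
    exact div_ne_zero hf hg ha
  · rw [Algebra.smul_def, ← ha, div_mul_cancel₀ f hg]

theorem IsFrob.q_pos (h : IsFrob φ q) : 0 < q := by have := h.two_le; omega

theorem IsFrob.exists_frob_root (h : IsFrob φ q) {c : K} (hc : c ≠ 0) :
    ∃ d : K, d ≠ 0 ∧ d ^ q * c = d := by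
  obtain ⟨d, hd⟩ := IsAlgClosed.exists_pow_nat_eq (k := K) c⁻¹
    (show 0 < q - 1 by have := h.two_le; omega)
  have hd0 : d ≠ 0 := fun h0 => by
    rw [h0, zero_pow (by have := h.two_le; omega)] at hd
    exact inv_ne_zero hc hd.symm
  refine ⟨d, hd0, ?_⟩
  rw [show q = (q - 1) + 1 by have := h.two_le; omega, pow_succ, hd]
  field_simp

/-- If `div f` is invariant then a constant multiple of `f` is fixed. -/
theorem IsFrob.exists_fixed_multiple (h : IsFrob φ q) {f : F} (hf : f ≠ 0)
    (hD : Inv φ (div K f)) : ∃ d : K, d ≠ 0 ∧ φ • (d • f) = d • f := by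
  have hf' : φ • f ≠ 0 := fun h0 => hf ((MulAction.injective φ) (h0.trans (smul_zero φ).symm))
  rw [Inv, smul_div] at hD
  obtain ⟨c, hc, hc'⟩ := eq_smul_of_div_eq hf' hf hD
  obtain ⟨d, hd, hd'⟩ := h.exists_frob_root hc
  refine ⟨d, hd, ?_⟩
  rw [smul_smul_elem, h.base, hc', smul_smul, hd']

/-- The trace trick: orbit sums of multiples span. -/
theorem IsFrob.sum_eq_zero_imp (h : IsFrob φ q) {R : ℕ} (a : Fin R → K)
    (ha : ∀ c : K, c ^ (q ^ R) = c → ∑ i, a i * c ^ (q ^ (i : ℕ)) = 0) : ∀ i, a i = 0 := by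
  intro i
  have hR : 0 < R := i.pos
  set T := {c : K | c ^ (q ^ R) = c}
  have hT : T.Finite := h.finite_fixed_field hR
  set Q : K[X] := ∑ j : Fin R, monomial (q ^ (j : ℕ)) (a j) with hQdef
  have hQ : Q = 0 := by
    refine Polynomial.eq_zero_of_natDegree_lt_card_of_eval_eq_zero' Q hT.toFinset (fun c hc => ?_) ?_
    · rw [hQdef, eval_finsetSum]
      simp only [eval_monomial]
      exact ha c (hT.mem_toFinset.mp hc)
    · have hcard : hT.toFinset.card = q ^ R := by
        rw [← Nat.card_eq_card_finite_toFinset hT]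
        exact h.card_fixed R hR
      rw [hcard]
      refine lt_of_le_of_lt (natDegree_sum_le_of_forall_le (n := q ^ (R - 1)) _ _ fun j _ => ?_) ?_
      · exact (natDegree_monomial_le _).trans (Nat.pow_le_pow_right h.q_pos (by omega))
      · exact Nat.pow_lt_pow_right h.two_le (by omega)
  have hinj : ∀ j : Fin R, q ^ (j : ℕ) = q ^ (i : ℕ) → j = i := fun j hj =>
    Fin.ext (Nat.pow_right_injective h.two_le hj)
  have := congrArg (coeff · (q ^ (i : ℕ))) hQ
  simp only [hQdef, finsetSum_coeff, coeff_monomial, coeff_zero] at this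
  rw [Finset.sum_eq_single i] at this
  · simpa using this
  · intro j _ hj
    exact if_neg fun hh => hj (hinj j hh)
  · simp

theorem pow_smul_mem {V : Submodule K F} (hV : ∀ z ∈ V, φ • z ∈ V) {z : F} (hz : z ∈ V) :
    ∀ i : ℕ, φ ^ i • z ∈ V := fun i => by
  induction i with
  | zero => simpa
  | succ i ih => rw [pow_succ' φ i, mul_smul]; exact hV _ ih

/-- The orbit sum. -/
theorem sum_orbit_fixed {M A : Type*} [Monoid M] [AddCommMonoid A] [DistribMulAction M A]
    (g : M) (x : A) {R : ℕ} (hR : g ^ R • x = x) :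
    g • ∑ i ∈ Finset.range R, g ^ i • x = ∑ i ∈ Finset.range R, g ^ i • x := by
  rcases Nat.eq_zero_or_pos R with rfl | hpos
  · simp
  obtain ⟨S, rfl⟩ : ∃ S, R = S + 1 := ⟨R - 1, by omega⟩
  rw [Finset.smul_sum]
  simp only [← mul_smul, ← pow_succ']
  rw [Finset.sum_range_succ, hR, Finset.sum_range_succ' (fun i => g ^ i • x) S]
  simp

/-- Fixed vectors span a stable subspace. -/
theorem IsFrob.span_fixed (h : IsFrob φ q) (V : Submodule K F) (hV : ∀ z ∈ V, φ • z ∈ V) :
    Submodule.span K {z : F | z ∈ V ∧ φ • z = z} = V := by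
  refine le_antisymm (Submodule.span_le.mpr fun z hz => hz.1) fun v hv => ?_
  obtain ⟨R, hR, hRv⟩ := h.orbit v
  by_contra hnot
  obtain ⟨lam, hlamv, hlam⟩ := Submodule.exists_le_ker_of_notMem hnot
  have hw : ∀ c : K, c ^ (q ^ R) = c →
      ∑ i : Fin R, lam ((φ ^ (i : ℕ) • v : F)) * c ^ (q ^ (i : ℕ)) = 0 := by
    intro c hc
    have hfix : φ ^ R • (c • v) = c • v := by rw [h.smul_smul_pow, hc, hRv]
    have hmem : (∑ i ∈ Finset.range R, φ ^ i • (c • v)) ∈ {z : F | z ∈ V ∧ φ • z = z} :=
      ⟨sum_mem fun i _ => pow_smul_mem hV (V.smul_mem c hv) i, sum_orbit_fixed φ _ hfix⟩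
    have := hlam (Submodule.subset_span hmem)
    rw [LinearMap.mem_ker, map_sum] at this
    rw [Fin.sum_univ_eq_sum_range (fun i => lam ((φ ^ i • v : F)) * c ^ (q ^ i))]
    rw [← this]
    refine Finset.sum_congr rfl fun i _ => ?_
    rw [h.smul_smul_pow, lam.map_smul (c ^ q ^ i), smul_eq_mul, mul_comm (lam (φ ^ i • v : F))]
  have := h.sum_eq_zero_imp (fun i => lam ((φ ^ (i : ℕ) • v : F))) hw ⟨0, hR⟩
  simp only [pow_zero, one_smul] at this
  exact hlamv this

theorem Inv.smul_mem {D : Divisor K F} (hD : Inv φ D) {z : F} (hz : z ∈ riemannRochSpace D) :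
    φ • z ∈ riemannRochSpace D := by
  rw [mem_riemannRochSpace_iff] at hz ⊢
  intro P
  rcases hz (φ⁻¹ • P) with h | h
  · exact Or.inl (by rw [h, smul_zero])
  · refine Or.inr ?_
    have h1 := SemilinearAut.ord_smul φ (φ⁻¹ • P) z
    rw [smul_inv_smul] at h1
    have h2 := inv_iff.mp hD (φ⁻¹ • P)
    rw [smul_inv_smul] at h2
    omega

/-- The number of fixed vectors of `L(D)` is `q ^ ℓ(D)`. -/
theorem IsFrob.natCard_fixed (h : IsFrob φ q) {D : Divisor K F} (hD : Inv φ D) :
    Nat.card {z : F // z ∈ riemannRochSpace D ∧ φ • z = z}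
      = q ^ Module.finrank K (riemannRochSpace D) := by
  set V := riemannRochSpace D
  have hspan := h.span_fixed V fun z hz => hD.smul_mem hz
  obtain ⟨b, hb, hbspan, hbli⟩ := exists_linearIndependent K {z : F | z ∈ V ∧ φ • z = z}
  rw [hspan] at hbspan
  have : FiniteDimensional K V := inferInstance
  have hbfin : b.Finite := by
    have hf : FiniteDimensional K (Submodule.span K (Set.range ((↑) : b → F))) := by
      rw [Subtype.range_coe, hbspan]; infer_instance
    have := (linearIndependent_span hbli).finite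
    exact Set.toFinite b
  have := hbfin.fintype
  have hcard : Fintype.card b = Module.finrank K V := by
    have h1 := finrank_span_eq_card hbli
    rw [Subtype.range_coe, hbspan] at h1
    exact h1.symm
  have e : {z : F // z ∈ V ∧ φ • z = z} ≃ (b → {a : K // a ^ (q ^ 1) = a}) := by
    refine (Equiv.ofBijective (fun a : b → {a : K // a ^ (q ^ 1) = a} =>
      (⟨∑ i, (a i : K) • (i : F), sum_mem fun i _ => V.smul_mem _ (hb i.2).1, ?_⟩ :
        {z : F // z ∈ V ∧ φ • z = z})) ⟨fun a a' haa => ?_, fun z => ?_⟩).symm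
    · rw [Finset.smul_sum]
      refine Finset.sum_congr rfl fun i _ => ?_
      have ha : (a i : K) ^ q = a i := by simpa using (a i).2
      rw [smul_smul_elem, h.base, ha, (hb i.2).2]
    · have h0 := congrArg Subtype.val haa
      simp only at h0
      refine funext fun i => Subtype.ext ?_
      have hz : ∑ j, ((a j : K) - (a' j : K)) • (j : F) = 0 := by
        simp [sub_smul, Finset.sum_sub_distrib, h0]
      exact sub_eq_zero.mp (Fintype.linearIndependent_iff.mp hbli _ hz i)
    · have hz : (z : F) ∈ Submodule.span K (Set.range ((↑) : b → F)) := by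
        rw [Subtype.range_coe, hbspan]; exact z.2.1
      obtain ⟨a, ha⟩ := (Submodule.mem_span_range_iff_exists_fun K).mp hz
      have hfix : ∀ i, a i ^ q = a i := fun i => by
        have h1 : ∑ j, a j ^ q • (j : F) = ∑ j, a j • (j : F) := by
          rw [ha]
          conv_rhs => rw [← z.2.2, ← ha, Finset.smul_sum]
          exact Finset.sum_congr rfl fun j _ => by rw [smul_smul_elem, h.base, (hb j.2).2]
        have hzero : ∑ j, (a j ^ q - a j) • (j : F) = 0 := by
          simp [sub_smul, Finset.sum_sub_distrib, h1]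
        exact sub_eq_zero.mp (Fintype.linearIndependent_iff.mp hbli _ hzero i)
      exact ⟨fun i => ⟨a i, by simpa using hfix i⟩, Subtype.ext ha⟩
  rw [Nat.card_congr e, Nat.card_fun, h.card_fixed 1 one_pos, pow_one, Nat.card_eq_fintype_card,
    hcard]

/-- Hilbert 90: a divisor whose class is fixed is equivalent to an invariant divisor. -/
theorem IsFrob.exists_inv_equiv (h : IsFrob φ q) {D : Divisor K F} {f : F} (hf : f ≠ 0)
    (hDf : D = φ • D + div K f) : ∃ u : F, u ≠ 0 ∧ Inv φ (D + div K u) := by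
  have horb : ∀ S : Finset (Place K F), ∃ R, 0 < R ∧ ∀ P ∈ S, φ ^ R • P = P := by
    intro S
    induction S using Finset.induction_on with
    | empty => exact ⟨1, one_pos, by simp⟩
    | @insert P S hP ih =>
      obtain ⟨R, hR, hS⟩ := ih
      obtain ⟨r, hr, hr'⟩ := h.orbit_place P
      refine ⟨r * R, Nat.mul_pos hr hR, fun Q hQ => ?_⟩
      rcases Finset.mem_insert.mp hQ with rfl | hQ
      · exact pow_smul_fixed hr' (dvd_mul_right _ _)
      · exact pow_smul_fixed (hS Q hQ) (dvd_mul_left _ _)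
  obtain ⟨R₁, hR₁, hR₁D⟩ := horb D.support
  obtain ⟨R₂, hR₂, hR₂f⟩ := h.orbit f
  set R := R₁ * R₂
  have hR : 0 < R := Nat.mul_pos hR₁ hR₂
  have hfR : φ ^ R • f = f := pow_smul_fixed hR₂f (dvd_mul_left _ _)
  have hDR : φ ^ R • D = D := by
    rw [SemilinearAut.divisor_smul_def, Finsupp.mapDomain_congr (g := id) fun P hP =>
      pow_smul_fixed (hR₁D P hP) (dvd_mul_right _ _), Finsupp.mapDomain_id]
  let N : ℕ → F := fun i => ∏ j ∈ Finset.range i, φ ^ j • f
  have hf_ne : ∀ j : ℕ, φ ^ j • f ≠ 0 := fun j h0 =>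
    hf (MulAction.injective (φ ^ j) (h0.trans (smul_zero _).symm))
  have hN_ne : ∀ i, N i ≠ 0 := fun i => Finset.prod_ne_zero_iff.mpr fun j _ => hf_ne j
  have hN_succ : ∀ i, N (i + 1) = f * (φ • N i) := fun i => by
    simp only [N]
    rw [Finset.prod_range_succ', Finset.smul_prod', mul_comm, pow_zero, one_smul]
    simp only [← mul_smul, ← pow_succ']
  have hdivN : ∀ i, div K (N i) = D - φ ^ i • D := fun i => by
    induction i with
    | zero => simp [N]
    | succ i ih =>
      have hne : φ • N i ≠ 0 := fun h0 =>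
        hN_ne i (MulAction.injective φ (h0.trans (smul_zero φ).symm))
      have hdivf : div K f = D - φ • D := eq_sub_of_add_eq' hDf.symm
      rw [hN_succ, FF.div_mul hf hne, ← smul_div, ih, smul_sub, ← mul_smul, ← pow_succ', hdivf]
      abel
  have hNR : div K (N R) = 0 := by rw [hdivN, hDR, sub_self]
  obtain ⟨c, hc⟩ := eq_algebraMap_of_ord_nonneg (K := K) (f := N R) fun v => by
    have := DFunLike.congr_fun hNR v
    simp only [div_apply, Finsupp.coe_zero, Pi.zero_apply] at this
    omega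
  have hc0 : c ≠ 0 := fun h0 => hN_ne R (by rw [hc, h0, map_zero])
  have hcq : c ^ q = c := by
    have h1 : φ • N R = N R := by
      have h2 := hN_succ R
      simp only [N] at h2 ⊢
      rw [Finset.prod_range_succ, hfR, mul_comm] at h2
      exact (mul_left_cancel₀ hf h2).symm
    rw [hc, SemilinearAut.smul_algebraMap, h.base] at h1
    exact (algebraMap K F).injective h1
  set E := ∑ i ∈ Finset.range R, q ^ i
  have hE : (q - 1) * E + 1 = q ^ R := by
    have := geom_sum_mul_add (q - 1) R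
    rw [Nat.sub_add_cancel (show 1 ≤ q from h.q_pos)] at this
    rw [← this, mul_comm]
  have hEpos : 0 < E := Finset.sum_pos (fun i _ => pow_pos h.q_pos i) (by simp; omega)
  obtain ⟨a, ha⟩ := IsAlgClosed.exists_pow_nat_eq (k := K) c⁻¹ hEpos
  have hcq1 : c⁻¹ ^ (q - 1) = 1 := by
    refine mul_right_cancel₀ (inv_ne_zero hc0) ?_
    rw [← pow_succ, Nat.sub_add_cancel (show 1 ≤ q from h.q_pos), inv_pow, hcq, one_mul]
  have haR : a ^ (q ^ R) = a := by
    rw [← hE, pow_succ, mul_comm (q - 1), pow_mul, ha, hcq1, one_mul]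
  have ha0 : a ≠ 0 := fun h0 => by
    rw [h0, zero_pow hEpos.ne'] at ha
    exact inv_ne_zero hc0 ha.symm
  set f' := a • f
  have hf'0 : f' ≠ 0 := smul_ne_zero ha0 hf
  have hN' : ∏ j ∈ Finset.range R, φ ^ j • f' = 1 := by
    have hj : ∀ j : ℕ, φ ^ j • f' = algebraMap K F (a ^ (q ^ j)) * φ ^ j • f := fun j => by
      simp only [f']
      rw [h.smul_smul_pow, Algebra.smul_def]
    simp only [hj]
    rw [Finset.prod_mul_distrib, ← map_prod, Finset.prod_pow_eq_pow_sum,
      show (∏ j ∈ Finset.range R, φ ^ j • f) = N R from rfl, hc, ← map_mul]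
    rw [show (∑ i ∈ Finset.range R, q ^ i) = E from rfl, ha, inv_mul_cancel₀ hc0, map_one]
  have hdf' : div K f' = div K f := by
    refine Finsupp.ext fun v => ?_
    rw [div_apply, div_apply, ord_smul' v ha0]
  let M : ℕ → F := fun i => ∏ j ∈ Finset.range i, φ ^ j • f'
  obtain ⟨θ, hθ, hu⟩ : ∃ θ : K, θ ^ (q ^ R) = θ ∧
      (∑ i ∈ Finset.range R, θ ^ (q ^ i) • M i) ≠ 0 := by
    by_contra! hall
    obtain ⟨lam, hlam⟩ : ∃ lam : F →ₗ[K] K, lam 1 = 1 := by
      obtain ⟨lam, hlam, -⟩ := Submodule.exists_le_ker_of_notMem (p := (⊥ : Submodule K F))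
        (v := (1 : F)) (by simp)
      exact ⟨(lam 1)⁻¹ • lam, by simp [inv_mul_cancel₀ hlam]⟩
    have h1 : ∀ c : K, c ^ (q ^ R) = c →
        ∑ i : Fin R, lam (M i) * c ^ (q ^ (i : ℕ)) = 0 := fun c hcR => by
      have h2 := congrArg lam (hall c hcR)
      rw [map_sum, map_zero] at h2
      rw [Fin.sum_univ_eq_sum_range (fun i => lam (M i) * c ^ (q ^ i)), ← h2]
      exact Finset.sum_congr rfl fun i _ => by rw [map_smul, smul_eq_mul, mul_comm]
    have h3 := h.sum_eq_zero_imp (fun i => lam (M i)) h1 ⟨0, hR⟩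
    simp [M, hlam] at h3
  set u := ∑ i ∈ Finset.range R, θ ^ (q ^ i) • M i
  refine ⟨u⁻¹, inv_ne_zero hu, ?_⟩
  have hkey : f' * (φ • u) = u := by
    simp only [u, Finset.smul_sum, Finset.mul_sum]
    have hstep : ∀ i ∈ Finset.range R, f' * (φ • (θ ^ (q ^ i) • M i))
        = θ ^ (q ^ (i + 1)) • M (i + 1) := fun i _ => by
      have hM : M (i + 1) = f' * (φ • M i) := by
        simp only [M]
        rw [Finset.prod_range_succ', Finset.smul_prod', mul_comm, pow_zero, one_smul]
        simp only [← mul_smul, ← pow_succ']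
      rw [smul_smul_elem, h.base, hM, mul_smul_comm, ← pow_mul, ← pow_succ]
    rw [Finset.sum_congr rfl hstep]
    obtain ⟨S, hS⟩ : ∃ S, R = S + 1 := ⟨R - 1, by omega⟩
    rw [hS]
    conv_lhs => rw [Finset.sum_range_succ]
    conv_rhs => rw [Finset.sum_range_succ']
    congr 1
    rw [← hS, show M R = 1 from hN', hθ]
    simp [M]
  have hφu : φ • u ≠ 0 := fun h0 => hu (MulAction.injective φ (h0.trans (smul_zero φ).symm))
  have hdu : div K f + φ • div K u = div K u := by
    rw [← hdf', smul_div, ← FF.div_mul hf'0 hφu, hkey]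
  have hinv : div K u⁻¹ = -div K u := Finsupp.ext fun v => by
    rw [Finsupp.neg_apply, div_apply, div_apply, Place.ord_inv]
  show φ • (D + div K u⁻¹) = D + div K u⁻¹
  rw [hinv, smul_add, smul_neg]
  have h1 : φ • D = D - div K f := eq_sub_of_add_eq hDf.symm
  have h2 : φ • div K u = div K u - div K f := eq_sub_of_add_eq (by rw [add_comm]; exact hdu)
  rw [h1, h2]
  abel

end Fermat.Agent.CurveTorsion
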