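import Fermat.Agent.CurveTorsion.Norm
import Mathlib.RingTheory.AdjoinRoot
import Mathlib.LinearAlgebra.Matrix.Charpoly.Minpoly
import Mathlib.LinearAlgebra.Matrix.GeneralLinearGroup.Defs
import Mathlib.NumberTheory.Padics.PadicVal.Basic
import Mathlib.Data.ZMod.Units
import Mathlib.Algebra.Field.ZMod

/-!
# The `l`-adic valuation of `∏ (1 - αᵢ ^ r)`
-/

set_option autoImplicit false

noncomputable section

open scoped Classical

namespace Fermat.Agent.CurveTorsion

open Polynomial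

/-- A matrix with prescribed monic characteristic polynomial. -/
theorem exists_charpoly_eq (Q : ℤ[X]) (hQ : Q.Monic) :
    ∃ M : Matrix (Fin Q.natDegree) (Fin Q.natDegree) ℤ, M.charpoly = Q := by
  let pb := AdjoinRoot.powerBasis' hQ
  have hdim : pb.dim = Q.natDegree := rfl
  have hmin : minpoly ℤ pb.gen = Q := by
    refine (minpoly.unique' ℤ _ hQ ?_ fun p hp => ?_).symm
    · show aeval (AdjoinRoot.root Q) Q = 0
      rw [AdjoinRoot.aeval_eq, AdjoinRoot.mk_self]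
    · rw [or_iff_not_imp_left]
      intro hp0 h
      have hdvd : Q ∣ p := by
        rw [← AdjoinRoot.mk_eq_zero, ← AdjoinRoot.aeval_eq]
        exact h
      exact absurd (Polynomial.degree_le_of_dvd hdvd hp0) (not_le.mpr hp)
  have h := charpoly_leftMulMatrix pb
  rw [hmin] at h
  exact ⟨Algebra.leftMulMatrix pb.basis pb.gen, h⟩

theorem det_one_sub_pow {n : ℕ} (M : Matrix (Fin n) (Fin n) ℤ) (α : Fin n → ℂ)
    (hα : M.charpoly.map (Int.castRingHom ℂ) = ∏ i, (X - C (α i))) {r : ℕ} (hr : 0 < r) :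
    (((1 - M ^ r).det : ℤ) : ℂ) = ∏ i, (1 - α i ^ r) := by
  set M' := M.map (Int.castRingHom ℂ) with hM'
  have hcp : M'.charpoly = ∏ i, (X - C (α i)) := by rw [hM', Matrix.charpoly_map, hα]
  have hev : ∀ x : ℂ, (Matrix.scalar (Fin n) x - M').det = ∏ i, (x - α i) := fun x => by
    have := congrArg (Polynomial.eval x) hcp
    rw [Matrix.eval_charpoly] at this
    simpa [Polynomial.eval_prod] using this
  have hlin : ∀ z : ℂ, (1 - z • M').det = ∏ i, (1 - z * α i) := fun z => by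
    rcases eq_or_ne z 0 with rfl | hz
    · simp
    · have h1 : 1 - z • M' = z • (Matrix.scalar (Fin n) z⁻¹ - M') := by
        rw [smul_sub, Matrix.scalar_apply, ← Matrix.smul_one_eq_diagonal, smul_smul,
          mul_inv_cancel₀ hz, one_smul]
      rw [h1, Matrix.det_smul, hev, Fintype.card_fin]
      conv_lhs => rw [show z ^ n = ∏ _i : Fin n, z by simp]
      rw [← Finset.prod_mul_distrib]
      exact Finset.prod_congr rfl fun i _ => by rw [mul_sub, mul_inv_cancel₀ hz]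
  obtain ⟨ζ, hζ⟩ : ∃ ζ : ℂ, IsPrimitiveRoot ζ r := ⟨_, Complex.isPrimitiveRoot_exp r hr.ne'⟩
  have hpoly : (1 - X ^ r : ℂ[X]) = ∏ i ∈ Finset.range r, (1 - C (ζ ^ i) * X) := by
    refine Polynomial.funext fun x => ?_
    rw [Polynomial.eval_sub, Polynomial.eval_one, Polynomial.eval_pow, Polynomial.eval_X,
      Polynomial.eval_prod, ← prod_one_sub_root hr hζ x]
    simp
  let Φ : ℂ[X] →* ℂ := Matrix.detMonoidHom.comp
    (Polynomial.aeval M').toRingHom.toMonoidHom
  have hΦ : ∀ p, Φ p = (Polynomial.aeval M' p).det := fun p => rfl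
  have h1 := congrArg Φ hpoly
  rw [map_prod, hΦ] at h1
  simp only [hΦ, map_sub, map_one, map_pow, map_mul, Polynomial.aeval_X, Polynomial.aeval_C] at h1
  simp only [← map_pow (algebraMap ℂ (Matrix (Fin n) (Fin n) ℂ)), ← Algebra.smul_def, hlin] at h1
  have h2 : (((1 - M ^ r).det : ℤ) : ℂ) = (1 - M' ^ r).det := by
    rw [← eq_intCast (Int.castRingHom ℂ), RingHom.map_det]
    congr 1
    simp [hM', map_sub, map_pow, RingHom.mapMatrix_apply]
  rw [h2, h1, Finset.prod_comm]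
  refine Finset.prod_congr rfl fun i _ => ?_
  rw [← prod_one_sub_root hr hζ (α i)]

theorem det_modEq_one {n : ℕ} (l : ℕ) (H : Matrix (Fin n) (Fin n) ℤ) :
    ((1 + (l : ℤ) • H).det : ZMod l) = 1 := by
  rw [← eq_intCast (Int.castRingHom (ZMod l)), RingHom.map_det]
  have : (Int.castRingHom (ZMod l)).mapMatrix (1 + (l : ℤ) • H) = 1 := by
    ext i j
    rcases eq_or_ne i j with rfl | hij
    all_goals
      rw [RingHom.mapMatrix_apply, Matrix.map_apply, Matrix.add_apply, Matrix.smul_apply]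
      simp [*]
  rw [this, Matrix.det_one]

theorem exists_pow_eq_add {n : ℕ} (c : ℤ) (A : Matrix (Fin n) (Fin n) ℤ)
    (h : ∃ H, A = 1 + c • H) (i : ℕ) : ∃ H, A ^ i = 1 + c • H := by
  induction i with
  | zero => exact ⟨0, by simp⟩
  | succ i ih =>
    obtain ⟨H', hH'⟩ := ih
    obtain ⟨H, hH⟩ := h
    refine ⟨H' + H + c • (H' * H), ?_⟩
    rw [pow_succ, hH', hH, smul_add, smul_add, smul_smul, mul_add, add_mul, add_mul, mul_one,
      one_mul, smul_mul_smul_comm, mul_one]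
    abel

theorem exists_sum_pow_eq {n : ℕ} (c : ℤ) (A : Matrix (Fin n) (Fin n) ℤ)
    (h : ∃ H, A = 1 + c • H) (t : ℕ) :
    ∃ H, ∑ i ∈ Finset.range t, A ^ i = (t : ℤ) • (1 : Matrix (Fin n) (Fin n) ℤ) + c • H := by
  choose H hH using exists_pow_eq_add c A h
  refine ⟨∑ i ∈ Finset.range t, H i, ?_⟩
  rw [Finset.smul_sum]
  simp only [hH, Finset.sum_add_distrib, Finset.sum_const, Finset.card_range, natCast_zsmul]

/-- The valuations of the numbers `∏ (1 - αᵢ ^ r)` grow linearly along powers of `l`. -/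
theorem exists_valuation_growth (l : ℕ) [Fact l.Prime] {Q : ℤ[X]} (hQ : Q.Monic) {d : ℕ}
    (hd : Q.natDegree = d) (hQ0 : ¬ (l : ℤ) ∣ Q.coeff 0) (α : Fin d → ℂ)
    (hα : Q.map (Int.castRingHom ℂ) = ∏ i, (X - C (α i))) (h : ℕ → ℕ)
    (hh : ∀ r, 0 < r → (h r : ℂ) = ∏ i, (1 - α i ^ r)) (hpos : ∀ r, 0 < r → 0 < h r) :
    ∃ r0, 0 < r0 ∧ ∀ k t, 0 < t → ¬ l ∣ t →
      padicValNat l (h (r0 * l ^ k * t)) = padicValNat l (h r0) + d * k := by
  have hl : l.Prime := Fact.out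
  subst hd
  obtain ⟨M, hM⟩ := exists_charpoly_eq Q hQ
  have hdetM : ¬ (l : ℤ) ∣ M.det := by
    rw [Matrix.det_eq_sign_charpoly_coeff, hM]
    rcases neg_one_pow_eq_or ℤ (Fintype.card (Fin Q.natDegree)) with h1 | h1 <;> rw [h1] <;>
      simpa using hQ0
  have hdet : ∀ r, 0 < r → ((1 - M ^ r).det : ℤ) = h r := fun r hr => by
    have h1 := det_one_sub_pow M α (by rw [hM, hα]) hr
    rw [← hh r hr] at h1
    exact_mod_cast h1
  have hl2 : 1 < l ^ 2 := Nat.one_lt_pow two_ne_zero hl.one_lt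
  have : NeZero (l ^ 2) := ⟨by omega⟩
  set Mb := (Int.castRingHom (ZMod (l ^ 2))).mapMatrix M
  have hunit : IsUnit Mb := by
    rw [Matrix.isUnit_iff_isUnit_det, ← RingHom.map_det, eq_intCast,
      ZMod.coe_int_isUnit_iff_isCoprime, Nat.cast_pow]
    exact ((Nat.prime_iff_prime_int.mp hl).coprime_iff_not_dvd.mpr hdetM).pow_left.symm.symm
  set r0 := orderOf hunit.unit
  have hr0 : 0 < r0 := orderOf_pos _
  have hA : ∃ H, M ^ r0 = 1 + ((l : ℤ) ^ 2) • H := by
    have h1 : Mb ^ r0 = 1 := by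
      rw [← hunit.unit_spec, ← Units.val_pow_eq_pow_val, pow_orderOf_eq_one, Units.val_one]
    have h2 : ∀ i j, ((l ^ 2 : ℕ) : ℤ) ∣ (M ^ r0 - 1) i j := fun i j => by
      rw [← ZMod.intCast_zmod_eq_zero_iff_dvd]
      have h3 : (Int.castRingHom (ZMod (l ^ 2))).mapMatrix (M ^ r0 - 1) = 0 := by
        rw [map_sub, map_pow, map_one]
        exact sub_eq_zero.mpr h1
      simpa using congrFun (congrFun h3 i) j
    choose H hH using h2
    refine ⟨Matrix.of H, ?_⟩
    rw [← sub_eq_iff_eq_add']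
    ext i j
    rw [hH i j]
    simp
  have hpw : ∀ m, ∃ H, (M ^ r0) ^ m = 1 + ((l : ℤ) ^ 2) • H := exists_pow_eq_add _ _ hA
  have hgeom : ∀ m t, 0 < m → 0 < t → (h (r0 * m * t) : ℤ)
      = (∑ i ∈ Finset.range t, ((M ^ r0) ^ m) ^ i).det * h (r0 * m) := by
    intro m t hm ht
    rw [← hdet _ (Nat.mul_pos hr0 hm), ← hdet _ (Nat.mul_pos (Nat.mul_pos hr0 hm) ht), pow_mul,
      pow_mul, ← Matrix.det_mul, geom_sum_mul_neg]
  have hstep : ∀ k, padicValNat l (h (r0 * l ^ k)) = padicValNat l (h r0) + Q.natDegree * k := by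
    intro k
    induction k with
    | zero => simp
    | succ k ih =>
      obtain ⟨H, hH⟩ := exists_sum_pow_eq _ _ (hpw (l ^ k)) l
      have h1 := hgeom (l ^ k) l (pow_pos hl.pos k) hl.pos
      rw [hH, show (l : ℤ) • (1 : Matrix (Fin Q.natDegree) (Fin Q.natDegree) ℤ) + ((l : ℤ) ^ 2) • H
        = (l : ℤ) • (1 + (l : ℤ) • H) by rw [smul_add, smul_smul, sq], Matrix.det_smul,
        Fintype.card_fin] at h1
      rw [pow_succ, ← mul_assoc, ← padicValInt.of_nat, h1]
      have hu : ¬ (l : ℤ) ∣ (1 + (l : ℤ) • H).det := by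
        rw [← ZMod.intCast_zmod_eq_zero_iff_dvd, det_modEq_one]
        exact one_ne_zero
      have hu0 : (1 + (l : ℤ) • H).det ≠ 0 := fun h0 => hu (by rw [h0]; exact dvd_zero _)
      have hp : ((l : ℤ) ^ Q.natDegree) ≠ 0 := pow_ne_zero _ (Nat.cast_ne_zero.mpr hl.ne_zero)
      have hh0 : (h (r0 * l ^ k) : ℤ) ≠ 0 :=
        Nat.cast_ne_zero.mpr (hpos _ (Nat.mul_pos hr0 (pow_pos hl.pos k))).ne'
      rw [padicValInt.mul (mul_ne_zero hp hu0) hh0, padicValInt.mul hp hu0, padicValInt.of_nat, ih,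
        padicValInt.eq_zero_of_not_dvd hu, ← Nat.cast_pow, padicValInt.of_nat,
        padicValNat.prime_pow]
      ring
  refine ⟨r0, hr0, fun k t ht hlt => ?_⟩
  obtain ⟨H, hH⟩ := exists_sum_pow_eq _ _ (hpw (l ^ k)) t
  have h1 := hgeom (l ^ k) t (pow_pos hl.pos k) ht
  rw [hH] at h1
  have hu : ¬ (l : ℤ) ∣ ((t : ℤ) • (1 : Matrix (Fin Q.natDegree) (Fin Q.natDegree) ℤ)
      + ((l : ℤ) ^ 2) • H).det := by
    rw [← ZMod.intCast_zmod_eq_zero_iff_dvd, ← eq_intCast (Int.castRingHom (ZMod l)),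
      RingHom.map_det]
    have h2 : (Int.castRingHom (ZMod l)).mapMatrix ((t : ℤ) •
        (1 : Matrix (Fin Q.natDegree) (Fin Q.natDegree) ℤ) + ((l : ℤ) ^ 2) • H)
        = (t : ZMod l) • 1 := by
      ext i j
      rcases eq_or_ne i j with rfl | hij
      all_goals
        rw [RingHom.mapMatrix_apply, Matrix.map_apply, Matrix.add_apply, Matrix.smul_apply,
          Matrix.smul_apply, Matrix.smul_apply]
        simp [*]
    rw [h2, Matrix.det_smul, Matrix.det_one, mul_one]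
    have : Fact l.Prime := ⟨hl⟩
    refine fun h3 => hlt ?_
    have h4 : ((t : ℕ) : ZMod l) = 0 := eq_zero_of_pow_eq_zero h3
    exact (ZMod.natCast_eq_zero_iff _ _).mp h4
  have hu0 : ((t : ℤ) • (1 : Matrix (Fin Q.natDegree) (Fin Q.natDegree) ℤ)
      + ((l : ℤ) ^ 2) • H).det ≠ 0 := fun h0 => hu (by rw [h0]; exact dvd_zero _)
  rw [← hstep k, ← padicValInt.of_nat, h1, padicValInt.mul hu0
    (Nat.cast_ne_zero.mpr (hpos _ (Nat.mul_pos hr0 (pow_pos hl.pos k))).ne'),
    padicValInt.eq_zero_of_not_dvd hu, padicValInt.of_nat, zero_add]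

end Fermat.Agent.CurveTorsion
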