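import Fermat.Agent.CurveTorsion.Level
import Mathlib.Algebra.DualNumber
import Mathlib.Algebra.MvPolynomial.PDeriv

/-!
# The system defining a lift of a torsion class is etale
-/

set_option autoImplicit false

noncomputable section

open scoped Classical

open Polynomial AlgebraicCurve
open scoped Polynomial.Bivariate

namespace Fermat.Agent.CurveTorsion

open FF

set_option linter.unusedSectionVars false

section Equations

variable {R R' : Type*} [CommRing R] [CommRing R'] {n d N : ℕ}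

/-- The unknowns. -/
abbrev Unk (m : Fin n → ℕ) (S : Finset (Fin d)) (N L : ℕ) (e0 : CIdx m L) : Type :=
  S ⊕ (Fin d × Fin N) ⊕ {e : CIdx m L // e ≠ e0}

/-- The coordinates from the unknowns. -/
def tOf (S : Finset (Fin d)) {m : Fin n → ℕ} {N L : ℕ} {e0 : CIdx m L} (t0 : Fin d → R)
    (v : Unk m S N L e0 → R) (i : Fin d) : R :=
  if h : i ∈ S then v (Sum.inl ⟨i, h⟩) else t0 i

/-- The series from the unknowns. -/
def zOf (S : Finset (Fin d)) {m : Fin n → ℕ} {N L : ℕ} {e0 : CIdx m L}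
    (v : Unk m S N L e0 → R) (i : Fin d) (j : Fin N) : R :=
  v (Sum.inr (Sum.inl (i, j)))

/-- The coefficients from the unknowns. -/
def cOf (S : Finset (Fin d)) {m : Fin n → ℕ} {N L : ℕ} {e0 : CIdx m L}
    (v : Unk m S N L e0 → R) (e : CIdx m L) : R :=
  if h : e = e0 then 1 else v (Sum.inr (Sum.inr ⟨e, h⟩))

/-- The equations. -/
def sysEq (h : R[X][Y]) (U : Fin n → R[X][Y]) {m : Fin n → ℕ} (S : Finset (Fin d)) {L : ℕ}
    (e0 : CIdx m L) (t0 : Fin d → R) (v : Unk m S N L e0 → R) :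
    (Fin d × Fin N) ⊕ (Fin d × Fin N) → R :=
  Sum.elim (fun p => (ev (tOf S t0 v p.1) (zpoly (zOf S v p.1)) h).coeff p.2)
    (fun p => (ev (tOf S t0 v p.1) (zpoly (zOf S v p.1))
      (∑ i, C (cpoly (cOf S v) i) * U i)).coeff p.2)

theorem map_sysEq (h : R[X][Y]) (U : Fin n → R[X][Y]) {m : Fin n → ℕ} (f : R →+* R')
    (S : Finset (Fin d)) {L : ℕ} (e0 : CIdx m L) (t0 : Fin d → R) (v : Unk m S N L e0 → R)
    (q : (Fin d × Fin N) ⊕ (Fin d × Fin N)) :
    f (sysEq h U S e0 t0 v q)
      = sysEq (h.map (mapRingHom f)) (fun i => (U i).map (mapRingHom f)) S e0 (fun i => f (t0 i))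
          (fun u => f (v u)) q := by
  have ht : ∀ i, f (tOf S t0 v i) = tOf S (fun i => f (t0 i)) (fun u => f (v u)) i := fun i => by
    unfold tOf; split_ifs <;> rfl
  have hz : ∀ i, (fun j => f (zOf S v i j)) = zOf S (fun u => f (v u)) i := fun i => rfl
  have hc : (fun e => f (cOf S v e)) = cOf S (fun u => f (v u)) := by
    funext e
    unfold cOf
    split_ifs
    · exact map_one f
    · rfl
  rcases q with ⟨i, j⟩ | ⟨i, j⟩
  · simp only [sysEq, Sum.elim_inl, ← coeff_map, ev_map, map_zpoly, ht, hz]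
  · simp only [sysEq, Sum.elim_inr, ← coeff_map, ev_map, map_zpoly, ht, hz, Polynomial.map_sum,
      Polynomial.map_mul, Polynomial.map_C, coe_mapRingHom, map_cpoly, hc]

theorem sysEq_map_comp {R'' : Type*} [CommRing R''] (h : R[X][Y]) (U : Fin n → R[X][Y])
    {m : Fin n → ℕ} (f : R →+* R') (φ : R' →+* R'') (g : R →+* R'') (hg : φ.comp f = g)
    (S : Finset (Fin d)) {L : ℕ} (e0 : CIdx m L) (t0 : Fin d → R) (v : Unk m S N L e0 → R')
    (q : (Fin d × Fin N) ⊕ (Fin d × Fin N)) :
    φ (sysEq (h.map (mapRingHom f)) (fun i => (U i).map (mapRingHom f)) S e0 (fun i => f (t0 i))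
        v q)
      = sysEq (h.map (mapRingHom g)) (fun i => (U i).map (mapRingHom g)) S e0 (fun i => g (t0 i))
          (fun u => φ (v u)) q := by
  subst hg
  rw [map_sysEq]
  simp only [Polynomial.map_map, mapRingHom_comp, RingHom.comp_apply]

theorem sysEq_eq_zero_iff (h : R[X][Y]) (U : Fin n → R[X][Y]) {m : Fin n → ℕ}
    (S : Finset (Fin d)) {L : ℕ} (e0 : CIdx m L) (t0 : Fin d → R) (v : Unk m S N L e0 → R) :
    (∀ q, sysEq h U S e0 t0 v q = 0) ↔
      ∀ i, X ^ N ∣ ev (tOf S t0 v i) (zpoly (zOf S v i)) h ∧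
        X ^ N ∣ ev (tOf S t0 v i) (zpoly (zOf S v i)) (∑ l, C (cpoly (cOf S v) l) * U l) := by
  simp only [X_pow_dvd_iff, sysEq, Sum.forall, Prod.forall,
    Sum.elim_inl, Sum.elim_inr, forall_and]
  exact and_congr
    ⟨fun h i j hj => h i ⟨j, hj⟩, fun h i j => h i j j.2⟩
    ⟨fun h i j hj => h i ⟨j, hj⟩, fun h i j => h i j j.2⟩

end Equations

section FirstOrder

universe v

variable {R k D' : Type*} [CommRing R] [Field k] [CommRing D'] [Algebra k D']

theorem eval₂_eps {ε : D'} (hε : ε * ε = 0) {ι : Type*} [Fintype ι] (g : R →+* k)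
    (a v : ι → k) (p : MvPolynomial ι R) :
    MvPolynomial.eval₂ ((algebraMap k D').comp g)
        (fun i => algebraMap k D' (a i) + ε * algebraMap k D' (v i)) p
      = algebraMap k D' (MvPolynomial.eval₂ g a p)
        + ε * algebraMap k D' (∑ i, v i * MvPolynomial.eval₂ g a (MvPolynomial.pderiv i p)) := by
  induction p using MvPolynomial.induction_on with
  | C r => simp
  | add p q hp hq =>
    simp only [MvPolynomial.eval₂_add, map_add, hp, hq, mul_add, Finset.sum_add_distrib]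
    ring
  | mul_X p i hp =>
    have h : ∑ l, v l * MvPolynomial.eval₂ g a (MvPolynomial.pderiv l (p * MvPolynomial.X i))
        = (∑ l, v l * MvPolynomial.eval₂ g a (MvPolynomial.pderiv l p)) * a i
          + MvPolynomial.eval₂ g a p * v i := by
      simp only [MvPolynomial.pderiv_mul, MvPolynomial.eval₂_add, MvPolynomial.eval₂_mul,
        MvPolynomial.eval₂_X, mul_add, Finset.sum_add_distrib, Finset.sum_mul, mul_assoc]
      congr 1
      rw [Finset.sum_eq_single i]
      · rw [MvPolynomial.pderiv_X_self, MvPolynomial.eval₂_one, mul_one, mul_comm]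
      · intro l _ hl
        rw [MvPolynomial.pderiv_X_of_ne (Ne.symm hl), MvPolynomial.eval₂_zero, mul_zero, mul_zero]
      · simp
    rw [MvPolynomial.eval₂_mul, MvPolynomial.eval₂_X, hp, h, MvPolynomial.eval₂_mul,
      MvPolynomial.eval₂_X]
    simp only [map_add, map_mul]
    linear_combination (algebraMap k D'
      (∑ l, v l * MvPolynomial.eval₂ g a (MvPolynomial.pderiv l p)) * algebraMap k D' (v i)) * hε

theorem exists_dual (k : Type v) [Field k] : ∃ (D : Type v) (_ : CommRing D) (_ : Algebra k D)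
    (ε : D), ε * ε = 0 ∧
      ∀ a b : k, algebraMap k D a + ε * algebraMap k D b = 0 → a = 0 ∧ b = 0 := by
  refine ⟨DualNumber k, inferInstance, inferInstance, DualNumber.eps, DualNumber.eps_mul_eps,
    fun a b h => ?_⟩
  have h1 := congrArg TrivSqZeroExt.fst h
  have h2 := congrArg TrivSqZeroExt.snd h
  simp [TrivSqZeroExt.algebraMap_eq_inl] at h1 h2
  exact ⟨h1, h2⟩

/-- Divisibility by a power of `X` of a first order expression. -/
theorem X_pow_dvd_incl_add {ε : D'}
    (hsep : ∀ a b : k, algebraMap k D' a + ε * algebraMap k D' b = 0 → a = 0 ∧ b = 0) {N : ℕ}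
    {P Q : k[X]} (h : X ^ N ∣ (incl P + C ε * incl Q : D'[X])) : X ^ N ∣ Q := by
  rw [X_pow_dvd_iff] at h ⊢
  intro j hj
  have := h j hj
  rw [incl, coe_mapRingHom, coeff_add, coeff_C_mul, coeff_map, coeff_map] at this
  exact (hsep _ _ this).2

theorem zpoly_incl {N : ℕ} (ε : D') (a b : Fin N → k) :
    zpoly (fun j => algebraMap k D' (a j) + ε * algebraMap k D' (b j))
      = incl (zpoly a) + C ε * incl (zpoly b) := by
  simp only [incl, coe_mapRingHom, map_zpoly]
  simp [zpoly, add_mul, mul_assoc, Finset.sum_add_distrib, Finset.mul_sum]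

theorem ev_gpoly_dual {n : ℕ} {ε : D'} (hε : ε * ε = 0) (D : CurveData k n) (t τ : k)
    (ζ η : k[X]) {L : ℕ} (c φ : CIdx D.m L → k) :
    ev (algebraMap k D' t + ε * algebraMap k D' τ) (incl ζ + C ε * incl η)
        ((D.map (algebraMap k D')).gpoly
          (fun e : CIdx (D.map (algebraMap k D')).m L =>
            algebraMap k D' (c e) + ε * algebraMap k D' (φ e)))
      = incl (ev t ζ (D.gpoly c)) + C ε * incl (C τ * derivative (ev t ζ (D.gpoly c))
          + (η - C τ * derivative ζ) * ev t ζ (derivative (D.gpoly c))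
          + ev t ζ (D.gpoly φ)) := by
  have h : (fun e : CIdx (D.map (algebraMap k D')).m L =>
      algebraMap k D' (c e) + ε * algebraMap k D' (φ e))
      = (fun e : CIdx (D.map (algebraMap k D')).m L => algebraMap k D' (c e))
        + ε • (fun e : CIdx (D.map (algebraMap k D')).m L => algebraMap k D' (φ e)) := rfl
  rw [h, CurveData.gpoly_add, CurveData.gpoly_smul, ← CurveData.map_gpoly, ← CurveData.map_gpoly,
    map_add, map_mul, ev_dual hε, ev_dual hε, ev_C, C_comp]
  have hεε : C ε * C ε = (0 : D'[X]) := by rw [← C_mul, hε, C_0]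
  simp only [map_add]
  linear_combination (incl (C τ * derivative (ev t ζ (D.gpoly φ)))
    + incl ((η - C τ * derivative ζ) * ev t ζ (derivative (D.gpoly φ)))) * hεε

end FirstOrder

section Kernel

variable {k F : Type*} [Field k] [Field F] [Algebra k F] [IsFunctionField k F] [IsAlgClosed k]
  {n : ℕ} {D : CurveData k n} {x θ : F}

theorem exists_extend (h : k[X][Y]) (t : k) {N : ℕ} (hN : 0 < N) {ζ : k[X]}
    (hd : evalB t (ζ.coeff 0) (derivative h) ≠ 0) (hζ : X ^ N ∣ ev t ζ h) :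
    ∃ a : k, X ^ (N + 1) ∣ ev t (ζ + C a * X ^ N) h := by
  obtain ⟨r, hr⟩ := hζ
  set D := evalB t (ζ.coeff 0) (derivative h)
  set z : k := -r.coeff 0 / D
  refine ⟨z, ?_⟩
  obtain ⟨c, hc⟩ := evalB_add_sq (X + C t) ζ (C z * X ^ N) h
  rw [ev, hc, ← ev, hr]
  have h2 : X ∣ r + C z * ev t ζ (derivative h) := by
    rw [X_dvd_iff, coeff_add, coeff_C_mul, coeff_zero_ev]
    show r.coeff 0 + -r.coeff 0 / D * D = 0
    rw [div_mul_cancel₀ _ hd, add_neg_cancel]
  have e1 : X ^ N * r + ev t ζ (derivative h) * (C z * X ^ N) + c * (C z * X ^ N) ^ 2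
      = X ^ N * (r + C z * ev t ζ (derivative h)) + X ^ (N + 1) * (c * C z ^ 2 * X ^ (N - 1)) := by
    have e2 : (X : k[X]) ^ (N + 1) * X ^ (N - 1) = X ^ N * X ^ N := by
      rw [← pow_add, ← pow_add]; congr 1; omega
    linear_combination (-(c * C z ^ 2)) * e2
  rw [e1, pow_succ]
  exact dvd_add (mul_dvd_mul_left _ h2) (Dvd.intro _ rfl)

theorem Realizes.deriv_ne (H : Realizes D x θ) (hD : D.IsValid) {N : ℕ} (hN : 0 < N) {t : k}
    {z : Fin N → k} (ht : D.Δ.eval t ≠ 0) (hz : D.IsPt t z) :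
    evalB t ((zpoly z).coeff 0) (derivative D.h) ≠ 0 :=
  (H.isPlane hD).deriv_ne_zero (hD.separable D (isUnit_iff_ne_zero.mpr ht))
    (Realizes.evalB_coeff_zero hN hz)

/-- An element with exact divisor `N` at a point does not vanish to higher order. -/
theorem Realizes.coeff_ne_zero (H : Realizes D x θ) (hD : D.IsValid) {N M d : ℕ} (hN : 0 < N)
    {t : Fin d → k} {z : Fin d → Fin N → k} (hg : GoodPts D t z) (hd : d = M * n)
    {c : CIdx D.m (N * M) → k} (hc : c ≠ 0) (hv : ∀ i, D.Van c N (t i) (z i)) (i : Fin d)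
    (a : k) (ha : X ^ (N + 1) ∣ ev (t i) (zpoly (z i) + C a * X ^ N) D.h) :
    (ev (t i) (zpoly (z i) + C a * X ^ N) (D.gpoly c)).coeff N ≠ 0 := by
  intro h0
  set ζ := zpoly (z i) + C a * X ^ N
  have hζ0 : ζ.coeff 0 = (zpoly (z i)).coeff 0 := by simp [ζ, coeff_X_pow, hN.ne]
  have hd1 : X ^ N ∣ ev (t i) ζ (D.gpoly c) :=
    (dvd_ev_congr le_rfl (by simp [ζ]) _).mpr (hv i)
  have hd2 : X ^ (N + 1) ∣ ev (t i) ζ (D.gpoly c) := by
    rw [X_pow_dvd_iff] at hd1 ⊢
    intro j hj
    rcases Nat.lt_succ_iff_lt_or_eq.mp hj with h | h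
    · exact hd1 j h
    · rw [h]; exact h0
  have hsep := hD.separable D (isUnit_iff_ne_zero.mpr (hg.Δ_ne i))
  have hy : evalB (t i) (ζ.coeff 0) D.h = 0 := hζ0 ▸ Realizes.evalB_coeff_zero hN (hg.isPt i)
  have h1 := ((H.isPlane hD).mem_ordGe_iff hsep hy ha le_rfl (D.gpoly c)).mpr hd2
  obtain ⟨hf0, hdiv⟩ := H.div_cfun hD hN hg (by simp [hd]) hc hv
  rw [evalB_gpoly (H.aeval_Δ_ne_zero hD), hζ0] at h1
  have hP := (H.isPlane hD).ptPlace_spec (Realizes.evalB_coeff_zero hN (hg.isPt i))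
  change _ ∈ ordGe (seriesPlace x θ (t i) (z i)) _ at h1
  change _ ∈ ordGe (seriesPlace x θ (t i) (z i)) _ ∧ _ ∈ ordGe (seriesPlace x θ (t i) (z i)) _ at hP
  set v := seriesPlace x θ (t i) (z i) with hv'
  have hxv : x ∈ v.toValuationSubring := mem_of_sub_mem v (j := 1) hP.1
  have h2 := le_ord_of_mem_ordGe v (mul_ne_zero (H.aeval_Δ_ne_zero hD) hf0) h1
  rw [v.ord_mul (H.aeval_Δ_ne_zero hD) hf0] at h2
  have h3 : v.ord (aeval x D.Δ) = 0 := by
    by_contra h3
    have h5 : aeval x D.Δ ∈ ordGe v 1 := mem_ordGe_of_le v (by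
      have := ord_nonneg v (aeval_mem_valuationSubring v hxv D.Δ); omega)
    have h6 := evalB_sub_mem_ordGe v hxv hxv (j := 1) (x' := algebraMap k F (t i)) (θ' := x)
      hP.1 (by simp) (C D.Δ)
    rw [evalB_C, evalB_C, aeval_algebraMap_apply, coe_aeval_eq_eval] at h6
    have h7 := sub_mem h5 h6
    rw [sub_sub_cancel] at h7
    exact hg.Δ_ne i ((algebraMap_mem_ordGe_one_iff v).mp h7)
  have h4 := congrArg (fun E : Divisor k F => E v) hdiv
  have hx0 := ord_nonneg v hxv
  simp only [Finsupp.add_apply, Finsupp.smul_apply, poles_apply, div_apply,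
    ptsDiv_apply H hD hN hg v, if_pos (show ∃ j, seriesPlace x θ (t j) (z j) = v from ⟨i, rfl⟩),
    max_eq_left (show -v.ord x ≤ 0 by omega), smul_zero, zero_add, nsmul_eq_mul, mul_one] at h4
  push_cast at h2
  omega

/-- The linearised system has trivial kernel. -/
theorem Realizes.kernel_eq_zero (H : Realizes D x θ) (hD : D.IsValid) {N M d : ℕ} (hN : 0 < N)
    (hNk : (N : k) ≠ 0) {t : Fin d → k} {z : Fin d → Fin N → k} (hg : GoodPts D t z)
    (hd : d = M * n) {c : CIdx D.m (N * M) → k} {e0 : CIdx D.m (N * M)} (he0 : c e0 = 1)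
    (hv : ∀ i, D.Van c N (t i) (z i)) {S : Finset (Fin d)}
    (hS : ell k (∑ i ∈ S, Finsupp.single (seriesPlace x θ (t i) (z i)) (1 : ℤ)) = 1)
    {τ : Fin d → k} (hτ : ∀ i, i ∉ S → τ i = 0) {η : Fin d → Fin N → k}
    {φ : CIdx D.m (N * M) → k} (hφ : φ e0 = 0)
    (hker : ∀ i, ∀ ζ : k[X], X ^ N ∣ zpoly (z i) - ζ →
      X ^ N ∣ C (τ i) * derivative (ev (t i) ζ D.h)
          + (zpoly (η i) - C (τ i) * derivative ζ) * ev (t i) ζ (derivative D.h) ∧
      X ^ N ∣ C (τ i) * derivative (ev (t i) ζ (D.gpoly c))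
          + (zpoly (η i) - C (τ i) * derivative ζ) * ev (t i) ζ (derivative (D.gpoly c))
          + ev (t i) ζ (D.gpoly φ)) :
    (∀ i, τ i = 0) ∧ (∀ i, η i = 0) ∧ φ = 0 := by
  have hc : c ≠ 0 := fun h => by simp [h] at he0
  choose a ha using fun i => exists_extend D.h (t i) hN
    (H.deriv_ne hD hN (hg.Δ_ne i) (hg.isPt i)) (hg.isPt i)
  let ζ : Fin d → k[X] := fun i => zpoly (z i) + C (a i) * X ^ N
  have hcong : ∀ i, X ^ N ∣ zpoly (z i) - ζ i := fun i => by simp [ζ]
  have hrho : ∀ i, X ^ N ∣ zpoly (η i) - C (τ i) * derivative (ζ i) := fun i => by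
    have h1 := (hker i (ζ i) (hcong i)).1
    have h2 : X ^ N ∣ derivative (ev (t i) (ζ i) D.h) := by
      simpa using pow_sub_one_dvd_derivative_of_pow_dvd (ha i)
    have h3 := dvd_sub h1 (h2.mul_left (C (τ i)))
    rw [add_sub_cancel_left] at h3
    refine prime_X.pow_dvd_of_dvd_mul_right N ?_ h3
    rw [X_dvd_iff, coeff_zero_ev]
    have hζ0 : (ζ i).coeff 0 = (zpoly (z i)).coeff 0 := by simp [ζ, coeff_X_pow, hN.ne]
    rw [hζ0]
    exact H.deriv_ne hD hN (hg.Δ_ne i) (hg.isPt i)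
  have hvζ : ∀ i, X ^ N ∣ ev (t i) (ζ i) (D.gpoly c) := fun i =>
    (dvd_ev_congr le_rfl (hcong i) _).mp (hv i)
  have hlin : ∀ i, X ^ N ∣ C (τ i) * derivative (ev (t i) (ζ i) (D.gpoly c))
      + ev (t i) (ζ i) (D.gpoly φ) := fun i => by
    have h1 := dvd_sub (hker i (ζ i) (hcong i)).2
      ((hrho i).mul_right (ev (t i) (ζ i) (derivative (D.gpoly c))))
    convert h1 using 1
    ring
  have hφv : ∀ i, X ^ (N - 1) ∣ ev (t i) (ζ i) (D.gpoly φ) ∧
      (i ∉ S → X ^ N ∣ ev (t i) (ζ i) (D.gpoly φ)) := fun i => by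
    refine ⟨?_, fun hi => by simpa [hτ i hi] using hlin i⟩
    have h2 := (pow_sub_one_dvd_derivative_of_pow_dvd (hvζ i)).mul_left (C (τ i))
    have h3 := dvd_sub ((pow_dvd_pow X (Nat.sub_le N 1)).trans (hlin i)) h2
    rwa [add_sub_cancel_left] at h3
  obtain ⟨hf0, hdiv⟩ := H.div_cfun hD hN hg (by simp [hd]) hc hv
  have hφ0 : φ = 0 := by
    by_contra hφne
    have hf1 : D.cfun x θ φ ≠ 0 := fun h => hφne (H.cfun_eq_zero h)
    set w := D.cfun x θ φ / D.cfun x θ c
    have hw0 : w ≠ 0 := div_ne_zero hf1 hf0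
    set E : Divisor k F := ∑ i ∈ S, Finsupp.single (seriesPlace x θ (t i) (z i)) (1 : ℤ)
    have hE0 : (0 : Divisor k F) ≤ E :=
      Finset.sum_nonneg fun i _ => Finsupp.single_nonneg.mpr zero_le_one
    have hwE : w ∈ riemannRochSpace E := by
      refine (mem_riemannRochSpace_iff_nonneg _ hw0).mpr fun v => ?_
      have h4 := congrArg (fun E : Divisor k F => E v) hdiv
      have hpos := (mem_riemannRochSpace_iff_nonneg _ hf1).mp (H.cfun_mem φ) v
      have hEv : 0 ≤ E v := Finsupp.le_def.mp hE0 v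
      simp only [Finsupp.add_apply, Finsupp.smul_apply, div_apply, ptsDiv_apply H hD hN hg v]
        at h4 hpos ⊢
      rw [FF.ord_div v hf1 hf0]
      by_cases hex : ∃ i, seriesPlace x θ (t i) (z i) = v
      · obtain ⟨i, rfl⟩ := hex
        rw [if_pos ⟨i, rfl⟩, nsmul_one] at h4
        have hP := (H.isPlane hD).ptPlace_spec (Realizes.evalB_coeff_zero hN (hg.isPt i))
        have hx0 := ord_nonneg _ (mem_of_sub_mem (seriesPlace x θ (t i) (z i)) (j := 1) hP.1)
        simp only [poles_apply,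
          max_eq_left (show -(seriesPlace x θ (t i) (z i)).ord x ≤ 0 by omega), smul_zero,
          zero_add] at h4 hpos
        have hmem : ∀ j ≤ N, X ^ j ∣ ev (t i) (ζ i) (D.gpoly φ) →
            (j : ℤ) ≤ (seriesPlace x θ (t i) (z i)).ord (D.cfun x θ φ) := fun j hj h =>
          le_ord_of_mem_ordGe _ hf1 ((H.cfun_mem_ordGe_iff hD hN (hg.Δ_ne i) (hg.isPt i) φ hj).mpr
            ((dvd_ev_congr hj (hcong i) _).mpr h))
        by_cases hi : i ∈ S
        · have h5 := hmem (N - 1) (Nat.sub_le N 1) (hφv i).1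
          have h6 : 1 ≤ E (seriesPlace x θ (t i) (z i)) := by
            have h8 : Finsupp.single (seriesPlace x θ (t i) (z i)) (1 : ℤ) ≤ E :=
              Finset.single_le_sum (f := fun i => Finsupp.single (seriesPlace x θ (t i) (z i)) (1 : ℤ))
                (fun j _ => Finsupp.single_nonneg.mpr zero_le_one) hi
            simpa using Finsupp.le_def.mp h8 (seriesPlace x θ (t i) (z i))
          omega
        · have h5 := hmem N le_rfl ((hφv i).2 hi)
          omega
      · rw [if_neg hex, nsmul_zero] at h4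
        omega
    have hle : riemannRochSpace (0 : Divisor k F) ≤ riemannRochSpace E := riemannRochSpace_mono hE0
    have heq := Submodule.eq_of_le_of_finrank_eq hle (by
      have h1 := ell_zero (K := k) (F := F)
      simp only [ell] at h1 hS
      exact_mod_cast h1.trans hS.symm)
    obtain ⟨b, hb⟩ := eq_algebraMap_of_ord_nonneg (f := w) fun v => by
      have := (mem_riemannRochSpace_iff_nonneg _ hw0).mp (heq ▸ hwE) v
      simpa using this
    have h7 : φ = b • c := sub_eq_zero.mp (H.cfun_eq_zero (by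
      have h8 : D.cfun x θ φ = algebraMap k F b * D.cfun x θ c := by
        rw [← hb, div_mul_cancel₀ _ hf0]
      rw [CurveData.cfun] at h8 ⊢
      rw [CurveData.cfun, Finset.mul_sum] at h8
      rw [← sub_eq_zero] at h8
      rw [← Finset.sum_sub_distrib] at h8
      refine Eq.trans (Finset.sum_congr rfl fun i _ => ?_) h8
      have : cpoly (φ - b • c) i = cpoly φ i - C b * cpoly c i := by
        rw [sub_eq_add_neg, ← neg_smul, cpoly_add, cpoly_smul, C_neg, neg_mul, sub_eq_add_neg]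
      rw [this, map_sub, map_mul, aeval_C]
      ring))
    have h9 : b = 0 := by
      have := congrFun h7 e0
      simpa [hφ, he0] using this.symm
    exact hφne (by rw [h7, h9, zero_smul])
  subst hφ0
  have hτ0 : ∀ i, τ i = 0 := fun i => by
    have h1 := hlin i
    have h0 : D.gpoly (0 : CIdx D.m (N * M) → k) = 0 := by simp [CurveData.gpoly, cpoly, zpoly]
    rw [h0, map_zero, add_zero] at h1
    have h2 := X_pow_dvd_iff.mp h1 (N - 1) (by omega)
    rw [coeff_C_mul, coeff_derivative, show N - 1 + 1 = N by omega] at h2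
    have h3 := H.coeff_ne_zero hD hN hg hd hc hv i (a i) (ha i)
    rw [show (((N - 1 : ℕ) : k) + 1) = (N : k) by
      rw [← Nat.cast_add_one]; congr 1; omega] at h2
    rcases mul_eq_zero.mp h2 with h | h
    · exact h
    · exact absurd h (mul_ne_zero h3 hNk)
  refine ⟨hτ0, fun i => eq_zero_of_zpoly_dvd ?_, rfl⟩
  have := hrho i
  rwa [hτ0 i, C_0, zero_mul, sub_zero] at this

end Kernel

end Fermat.Agent.CurveTorsion
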