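import Fermat.Agent.CurveTorsion.Points
import Fermat.Agent.FF.Kaehler

/-!
# Riemann-Roch spaces and points of curve data
-/

set_option autoImplicit false

noncomputable section

open scoped Classical

open Polynomial AlgebraicCurve IntermediateField
open scoped Polynomial.Bivariate

namespace Fermat.Agent.CurveTorsion

open FF

set_option linter.unusedSectionVars false

section Ring

variable {R S : Type*} [CommRing R] [CommRing S] {n : ℕ} (D : CurveData R n)

/-- Indices of the coefficients of the space of level `M`. -/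
abbrev CIdx {n : ℕ} (m : Fin n → ℕ) (M : ℕ) : Type := (i : Fin n) × Fin (M + 1 - m i)

/-- The coefficient polynomials. -/
def cpoly {m : Fin n → ℕ} {M : ℕ} (c : CIdx m M → R) (i : Fin n) : R[X] :=
  zpoly fun j => c ⟨i, j⟩

/-- The numerator of a combination of the basis. -/
def CurveData.gpoly {M : ℕ} (c : CIdx D.m M → R) : R[X][Y] :=
  ∑ i, C (cpoly c i) * D.U i

theorem map_cpoly (f : R →+* S) {m : Fin n → ℕ} {M : ℕ} (c : CIdx m M → R) (i : Fin n) :
    (cpoly c i).map f = cpoly (fun e => f (c e)) i := map_zpoly f _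

theorem CurveData.map_gpoly (f : R →+* S) {M : ℕ} (c : CIdx D.m M → R) :
    (D.gpoly c).map (mapRingHom f) = (D.map f).gpoly (fun e : CIdx (D.map f).m M => f (c e)) := by
  simp only [CurveData.gpoly, Polynomial.map_sum, Polynomial.map_mul, Polynomial.map_C,
    coe_mapRingHom, map_cpoly]
  rfl

theorem cpoly_add {m : Fin n → ℕ} {M : ℕ} (c d : CIdx m M → R) (i : Fin n) :
    cpoly (c + d) i = cpoly c i + cpoly d i := by
  simp [cpoly, zpoly, add_mul, Finset.sum_add_distrib]

theorem cpoly_smul {m : Fin n → ℕ} {M : ℕ} (a : R) (c : CIdx m M → R) (i : Fin n) :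
    cpoly (a • c) i = C a * cpoly c i := by
  simp [cpoly, zpoly, Finset.mul_sum, mul_assoc]

theorem CurveData.gpoly_add {M : ℕ} (c d : CIdx D.m M → R) :
    D.gpoly (c + d) = D.gpoly c + D.gpoly d := by
  simp [CurveData.gpoly, cpoly_add, add_mul, Finset.sum_add_distrib]

theorem CurveData.gpoly_smul {M : ℕ} (a : R) (c : CIdx D.m M → R) :
    D.gpoly (a • c) = C (C a) * D.gpoly c := by
  simp [CurveData.gpoly, cpoly_smul, Finset.mul_sum, mul_assoc]

theorem natDegree_cpoly_add_le {m : Fin n → ℕ} {M : ℕ} (c : CIdx m M → R) (i : Fin n)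
    (h : cpoly c i ≠ 0) : (cpoly c i).natDegree + m i ≤ M := by
  have : Nonempty (Fin (M + 1 - m i)) := by
    by_contra h'
    rw [not_nonempty_iff] at h'
    exact h (by simp [cpoly, zpoly])
  have hpos : 0 < M + 1 - m i := Fin.pos_iff_nonempty.mpr this
  have : (cpoly c i).natDegree ≤ M - m i := natDegree_le_iff_coeff_eq_zero.mpr fun j hj =>
    coeff_zpoly_of_le _ (by omega)
  omega

theorem CurveData.IsValid.separable (hD : D.IsValid) {t : R} (ht : IsUnit (D.Δ.eval t)) :
    (D.h.map (evalRingHom t)).Separable := by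
  obtain ⟨a, b, h⟩ := hD.bez
  obtain ⟨u, hu⟩ := ht
  have h1 := congrArg (Polynomial.map (evalRingHom t)) h
  simp only [Polynomial.map_add, Polynomial.map_mul, Polynomial.map_C, ← derivative_map,
    coe_evalRingHom, ← hu] at h1
  refine ⟨C (↑u⁻¹ : R) * a.map (evalRingHom t), C (↑u⁻¹ : R) * b.map (evalRingHom t), ?_⟩
  calc _ = C (↑u⁻¹ : R) * (D.h.map (evalRingHom t) * a.map (evalRingHom t)
        + derivative (D.h.map (evalRingHom t)) * b.map (evalRingHom t)) := by ring
    _ = 1 := by rw [h1, ← C_mul, Units.inv_mul, C_1]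

end Ring

section Field

variable {L F : Type*} [Field L] [Field F] [Algebra L F] [IsFunctionField L F] {n : ℕ}
  {D : CurveData L n} {x θ : F}

theorem Realizes.isPlane (H : Realizes D x θ) (hD : D.IsValid) : IsPlane x θ D.h :=
  ⟨H.trans, H.root, hD.monic, by rw [hD.deg_h, H.finrank], H.gen⟩

/-- The element with given coefficients. -/
def CurveData.cfun (D : CurveData L n) (x θ : F) {M : ℕ} (c : CIdx D.m M → L) : F :=
  ∑ i, aeval x (cpoly c i) * D.uElem x θ i

theorem evalB_gpoly {M : ℕ} (hΔ : aeval x D.Δ ≠ 0) (c : CIdx D.m M → L) :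
    evalB x θ (D.gpoly c) = aeval x D.Δ * D.cfun x θ c := by
  simp only [CurveData.gpoly, map_sum, map_mul, evalB_C, CurveData.cfun, Finset.mul_sum]
  refine Finset.sum_congr rfl fun i _ => ?_
  rw [CurveData.uElem, ← mul_assoc, mul_comm (aeval x D.Δ), mul_assoc,
    mul_div_cancel₀ _ hΔ]

theorem Realizes.Δ_ne_zero (_H : Realizes D x θ) (hD : D.IsValid) : D.Δ ≠ 0 := by
  obtain ⟨nr, root, lc, hlc, hfac, -⟩ := hD.certs
  rw [hfac]
  exact mul_ne_zero (C_ne_zero.mpr hlc.ne_zero)
    (Finset.prod_ne_zero_iff.mpr fun j _ => X_sub_C_ne_zero _)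

theorem Realizes.aeval_Δ_ne_zero (H : Realizes D x θ) (hD : D.IsValid) : aeval x D.Δ ≠ 0 :=
  aeval_ne_zero H.trans (H.Δ_ne_zero hD)

theorem Realizes.cfun_mem (H : Realizes D x θ) {M : ℕ} (c : CIdx D.m M → L) :
    D.cfun x θ c ∈ riemannRochSpace (M • poles L x) :=
  RedTorsion.IsReduced.comb_mem H.reduced _ fun i hi => natDegree_cpoly_add_le c i hi

theorem Realizes.cfun_eq_zero (H : Realizes D x θ) {M : ℕ} {c : CIdx D.m M → L}
    (h : D.cfun x θ c = 0) : c = 0 := by
  have h1 := RedTorsion.IsReduced.coeff_unique H.reduced H.trans (P := cpoly c) (P' := 0) (by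
    rw [CurveData.cfun] at h; simp [h])
  funext e
  rcases e with ⟨i, j⟩
  have h2 := congrArg (Polynomial.coeff · (j : ℕ)) (congrFun h1 i)
  simpa [cpoly, coeff_zpoly] using h2

theorem Realizes.exists_cfun (H : Realizes D x θ) {M : ℕ} {f : F}
    (hf : f ∈ riemannRochSpace (M • poles L x)) : ∃ c : CIdx D.m M → L, D.cfun x θ c = f := by
  obtain ⟨P, hP, hdeg⟩ := H.reduced.repr M f hf
  refine ⟨fun e => (P e.1).coeff e.2, ?_⟩
  rw [hP, CurveData.cfun]
  refine Finset.sum_congr rfl fun i _ => ?_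
  congr 2
  ext j
  rcases lt_or_ge j (M + 1 - D.m i) with hj | hj
  · exact coeff_zpoly (fun j : Fin (M + 1 - D.m i) => (P i).coeff j) ⟨j, hj⟩
  · rw [cpoly, coeff_zpoly_of_le _ hj]
    rcases eq_or_ne (P i) 0 with h0 | h0
    · simp [h0]
    · have := hdeg i h0
      exact (coeff_eq_zero_of_natDegree_lt (by omega)).symm

theorem Realizes.degree_poles (H : Realizes D x θ) :
    Divisor.degree (poles L x) = n := by
  rw [FF.degree_poles H.trans, H.finrank]

variable [IsAlgClosed L]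

theorem Realizes.sum_m (H : Realizes D x θ) :
    ∑ i, (D.m i : ℤ) = n + genusFF L F - 1 := by
  obtain ⟨c, hc⟩ := exists_ell_eq (K := L) (F := F)
  set M := c.toNat + ∑ i, D.m i
  have hn : 0 < n := lt_of_le_of_lt (Nat.zero_le _) D.i0.2
  have h1 := RedTorsion.IsReduced.ell_eq H.reduced H.trans (N := M) fun i =>
    le_trans (Finset.single_le_sum (fun _ _ => Nat.zero_le _) (Finset.mem_univ i))
      (Nat.le_add_left _ _)
  have h2 := hc (M • poles L x) (by
    rw [map_nsmul, H.degree_poles, nsmul_eq_mul]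
    have h3 : (1 : ℤ) ≤ n := by exact_mod_cast hn
    have h4 : (0 : ℤ) ≤ M := Int.natCast_nonneg _
    have h5 : c ≤ (M : ℤ) := by omega
    nlinarith)
  rw [h2, map_nsmul, H.degree_poles, nsmul_eq_mul, Finset.sum_sub_distrib, Finset.sum_const,
    Finset.card_univ, Fintype.card_fin, nsmul_eq_mul] at h1
  linarith

theorem Realizes.card_CIdx (H : Realizes D x θ) {M : ℕ} (hM : ∀ i, D.m i ≤ M) :
    (Fintype.card (CIdx D.m M) : ℤ) = M * n + 1 - genusFF L F := by
  have h : ∀ i, ((M + 1 - D.m i : ℕ) : ℤ) = (M : ℤ) + 1 - D.m i := fun i => by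
    have := hM i; omega
  simp only [CIdx, Fintype.card_sigma, Fintype.card_fin, Nat.cast_sum, h]
  rw [Finset.sum_sub_distrib, Finset.sum_const, Finset.card_univ, Fintype.card_fin, nsmul_eq_mul,
    H.sum_m]
  ring

/-- The finitely many places which are not used. -/
theorem finite_bad (_hD : D.IsValid) (_H : Realizes D x θ) (T : Finset L) :
    {v : Place L F | v.ord x < 0 ∨ 0 < v.ord (aeval x D.Δ) ∨
      ∃ t ∈ T, 0 < v.ord (x - algebraMap L F t)}.Finite := by
  refine ((finite_poles (K := L) x).union ((finite_zeros (K := L) (aeval x D.Δ)).union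
    (T.finite_toSet.biUnion fun t _ => finite_zeros (K := L) (x - algebraMap L F t)))).subset ?_
  rintro v (h | h | ⟨t, ht, h⟩)
  · exact Or.inl h
  · exact Or.inr (Or.inl h)
  · exact Or.inr (Or.inr (Set.mem_biUnion ht h))

theorem exists_pt_of_good (hD : D.IsValid) (H : Realizes D x θ) (T : Finset L) {v : Place L F}
    (hv : v ∉ {v : Place L F | v.ord x < 0 ∨ 0 < v.ord (aeval x D.Δ) ∨
      ∃ t ∈ T, 0 < v.ord (x - algebraMap L F t)}) :
    ∃ t y, t ∉ T ∧ D.Δ.eval t ≠ 0 ∧ evalB t y D.h = 0 ∧ v = ptPlace x θ t y := by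
  simp only [Set.mem_ofPred_eq, not_or, not_exists, not_and, not_lt] at hv
  obtain ⟨h1, h2, h3⟩ := hv
  have hxv : x ∈ v.toValuationSubring := (mem_iff v).mpr (Or.inr h1)
  obtain ⟨t, ht⟩ := FF.exists_sub_mem_ordGe_one v hxv
  have hne : x - algebraMap L F t ≠ 0 := fun h0 => H.trans (by
    rw [sub_eq_zero.mp h0]; exact isAlgebraic_algebraMap t)
  have hord : 0 < v.ord (x - algebraMap L F t) := by
    have := le_ord_of_mem_ordGe v hne ht; omega
  have hΔ : D.Δ.eval t ≠ 0 := fun h0 => by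
    obtain ⟨q, hq⟩ := dvd_iff_isRoot.mpr h0
    have h5 := mul_mem_ordGe v (n := 0) ht
      ((mem_ordGe_zero v).mpr (aeval_mem_valuationSubring v hxv q))
    rw [add_zero, show (x - algebraMap L F t) * aeval x q = aeval x D.Δ by
      rw [hq]; simp] at h5
    have := le_ord_of_mem_ordGe v (H.aeval_Δ_ne_zero hD) h5
    omega
  obtain ⟨y, hy, hvy, -⟩ :=
    (H.isPlane hD).fibre (hD.separable D (isUnit_iff_ne_zero.mpr hΔ)) hord
  exact ⟨t, y, fun htT => by have := h3 t htT; omega, hΔ, hy, hvy⟩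

/-- The place of a point with series. -/
def seriesPlace (x θ : F) {N : ℕ} (t : L) (z : Fin N → L) : Place L F :=
  ptPlace x θ t ((zpoly z).coeff 0)

theorem Realizes.cfun_mem_ordGe_iff (H : Realizes D x θ) (hD : D.IsValid) {N : ℕ} (hN : 0 < N)
    {t : L} {z : Fin N → L} (ht : D.Δ.eval t ≠ 0) (hz : X ^ N ∣ ev t (zpoly z) D.h) {M : ℕ}
    (c : CIdx D.m M → L) {j : ℕ} (hj : j ≤ N) :
    D.cfun x θ c ∈ ordGe (seriesPlace x θ t z) j ↔ X ^ j ∣ ev t (zpoly z) (D.gpoly c) := by
  have hsep := hD.separable D (isUnit_iff_ne_zero.mpr ht)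
  have hy : evalB t ((zpoly z).coeff 0) D.h = 0 := by
    rw [← coeff_zero_ev]
    exact X_pow_dvd_iff.mp hz 0 hN
  have hP := (H.isPlane hD).ptPlace_spec hy
  rw [seriesPlace]
  set v := ptPlace x θ t ((zpoly z).coeff 0)
  rw [← (H.isPlane hD).mem_ordGe_iff hsep hy hz hj, evalB_gpoly (H.aeval_Δ_ne_zero hD)]
  have hxv : x ∈ v.toValuationSubring := mem_of_sub_mem v (j := 1) hP.1
  have hθv : θ ∈ v.toValuationSubring := mem_of_sub_mem v (j := 1) hP.2
  have hΔ0 : v.ord (aeval x D.Δ) = 0 := by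
    have h1 := evalB_sub_mem_ordGe v hxv hθv (j := 1) (x' := algebraMap L F t)
      (θ' := θ) (by simpa using hP.1) (by simp) (C D.Δ)
    rw [evalB_C, evalB_C, aeval_algebraMap_apply, coe_aeval_eq_eval] at h1
    have h2 := ord_nonneg v (aeval_mem_valuationSubring v hxv D.Δ)
    by_contra h3
    have h4 : aeval x D.Δ ∈ ordGe v 1 := mem_ordGe_of_le v (by omega)
    have h5 := sub_mem h4 h1
    rw [sub_sub_cancel] at h5
    exact ht ((algebraMap_mem_ordGe_one_iff v).mp h5)
  refine ⟨fun h => by simpa using mul_mem_ordGe v (mem_ordGe_of_le v hΔ0.ge) h, fun h => ?_⟩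
  have h2 := mul_mem_ordGe v (mem_ordGe_of_le v (le_of_eq
    (show (0 : ℤ) = v.ord (aeval x D.Δ)⁻¹ by rw [v.ord_inv, hΔ0, neg_zero]))) h
  rwa [← mul_assoc, inv_mul_cancel₀ (H.aeval_Δ_ne_zero hD), one_mul, zero_add] at h2

end Field

end Fermat.Agent.CurveTorsion
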