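import Fermat.Agent.CurveTorsion.Zeta
import Mathlib.Analysis.Fourier.FiniteAbelian.PontryaginDuality
import Mathlib.FieldTheory.KummerExtension
import Mathlib.RingTheory.RootsOfUnity.Complex

/-!
# Surjectivity of the norm between classes fixed by powers of Frobenius
-/

set_option autoImplicit false

noncomputable section

open scoped Classical

open AlgebraicCurve

namespace Fermat.Agent.CurveTorsion

open FF

set_option linter.unusedSectionVars false

variable {K F : Type*} [Field K] [Field F] [Algebra K F] [IsAlgClosed K] [IsFunctionField K F]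
variable {φ : SemilinearAut K F} {q : ℕ} {P₀ : Place K F}

/-- The norm `∑_{i<l} φ^i`. -/
def normMap (φ : SemilinearAut K F) (l : ℕ) : Pic0 K F →+ Pic0 K F :=
  ∑ i ∈ Finset.range l, DistribSMul.toAddMonoidHom (Pic0 K F) (φ ^ i)

theorem normMap_apply (φ : SemilinearAut K F) (l : ℕ) (c : Pic0 K F) :
    normMap φ l c = ∑ i ∈ Finset.range l, φ ^ i • c := by
  simp [normMap]

theorem normMap_mem {l : ℕ} {c : Pic0 K F} (hc : c ∈ fixedSub (φ ^ l)) :
    normMap φ l c ∈ fixedSub φ := by
  rw [mem_fixedSub, normMap_apply]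
  exact sum_orbit_fixed φ c hc

theorem prod_one_sub_root {l : ℕ} (hl : 0 < l) {ζ : ℂ} (hζ : IsPrimitiveRoot ζ l) (β : ℂ) :
    ∏ i ∈ Finset.range l, (1 - ζ ^ i * β) = 1 - β ^ l := by
  have := congrArg (Polynomial.eval 1) (X_pow_sub_C_eq_prod hζ hl (rfl : β ^ l = β ^ l))
  simpa [Polynomial.eval_prod] using this.symm

theorem rescale_coe (ζ : ℂ) (p : Polynomial ℂ) :
    PowerSeries.rescale ζ (p : PowerSeries ℂ)
      = ((p.comp (Polynomial.C ζ * Polynomial.X) : Polynomial ℂ) : PowerSeries ℂ) := by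
  ext n
  rw [PowerSeries.coeff_rescale, Polynomial.coeff_coe, Polynomial.coeff_coe,
    Polynomial.comp_C_mul_X_coeff, mul_comm]

theorem ellN_of_large {P₀ : Place K F} (hP₀ : φ • P₀ = P₀) (c : Pic0 K F) {n : ℤ}
    (hn : 2 * (genusFF K F : ℤ) - 2 < n) : (ellN P₀ c n : ℤ) = n + 1 - genusFF K F := by
  obtain ⟨w, -, hdual⟩ := exists_canonical_class (φ := φ) hP₀
  have h1 := hdual c n
  rw [ellN_of_neg P₀ (w - c) (n := 2 * genusFF K F - 2 - n) (by omega)] at h1
  simpa using h1

/-- The norm map between fixed classes is surjective. -/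
theorem exists_norm_eq (h : IsFrob φ q) (hP₀ : φ • P₀ = P₀) {l : ℕ} (hl : 0 < l) {c : Pic0 K F}
    (hc : c ∈ fixedSub φ) : ∃ c' ∈ fixedSub (φ ^ l), normMap φ l c' = c := by
  by_contra hno
  let G := (fixedSub φ : AddSubgroup (Pic0 K F))
  let H : AddSubgroup G := ((fixedSub (φ ^ l) : AddSubgroup (Pic0 K F)).map
    (normMap φ l)).addSubgroupOf G
  have : Finite G := (finite_fixedSub h hP₀).to_subtype
  have hne : (QuotientAddGroup.mk ⟨c, hc⟩ : G ⧸ H) ≠ 0 := by
    rw [ne_eq, QuotientAddGroup.eq_zero_iff, AddSubgroup.mem_addSubgroupOf, AddSubgroup.mem_map]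
    exact hno
  obtain ⟨ψ, hψ⟩ := AddChar.exists_apply_ne_zero.mpr hne
  let χ : Pic0 K F → ℂ := fun x => if hx : x ∈ G then ψ (QuotientAddGroup.mk ⟨x, hx⟩) else 0
  have hχ : ∀ (x : Pic0 K F) (hx : x ∈ G), χ x = ψ (QuotientAddGroup.mk ⟨x, hx⟩) := fun x hx => by
    simp only [χ, dif_pos hx]
  have hχadd : ∀ x ∈ G, ∀ y ∈ G, χ (x + y) = χ x * χ y := by
    intro x hx y hy
    rw [hχ x hx, hχ y hy, hχ (x + y) (add_mem hx hy), ← AddChar.map_add_eq_mul]
    rfl
  have hχnorm : ∀ x ∈ fixedSub (φ ^ l), χ (normMap φ l x) = 1 := by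
    intro x hx
    rw [hχ _ (normMap_mem hx)]
    have : (QuotientAddGroup.mk ⟨normMap φ l x, normMap_mem hx⟩ : G ⧸ H) = 0 := by
      rw [QuotientAddGroup.eq_zero_iff, AddSubgroup.mem_addSubgroupOf, AddSubgroup.mem_map]
      exact ⟨x, hx, rfl⟩
    rw [this, AddChar.map_zero_eq_one]
  have hχc : χ c ≠ 1 := by rw [hχ c hc]; exact hψ
  -- the sum of the character vanishes
  have hsum : ∑ x ∈ fixedFinset h hP₀, χ x = 0 := by
    have h1 : χ c * ∑ x ∈ fixedFinset h hP₀, χ x = ∑ x ∈ fixedFinset h hP₀, χ x := by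
      rw [Finset.mul_sum]
      refine Finset.sum_nbij' (fun x => c + x) (fun x => x - c) ?_ ?_ ?_ ?_ ?_
      · exact fun x hx => (mem_fixedFinset h hP₀).mpr (add_mem hc ((mem_fixedFinset h hP₀).mp hx))
      · exact fun x hx => (mem_fixedFinset h hP₀).mpr (sub_mem ((mem_fixedFinset h hP₀).mp hx) hc)
      · exact fun x _ => add_sub_cancel_left c x
      · exact fun x _ => add_sub_cancel c x
      · exact fun x hx => (hχadd c hc x ((mem_fixedFinset h hP₀).mp hx)).symm
    by_contra h0
    exact hχc ((mul_eq_right₀ h0).mp h1)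
  set A : ℕ → ℂ := fun n => ∑ D ∈ eff h n, χ (cls P₀ D) with hA
  have hA0 : A 0 = 1 := by
    simp only [hA, eff_zero, Finset.sum_singleton, map_zero]
    rw [hχ 0 (zero_mem _)]
    exact AddChar.map_zero_eq_one ψ
  set g := genusFF K F
  have hAlarge : ∀ n : ℕ, 2 * g < n → A n = 0 := by
    intro n hn
    refine mul_left_cancel₀ (two_le_cast h) ?_
    rw [hA, sum_eff_weight h hP₀ χ n, mul_zero]
    have : ∀ x ∈ fixedFinset h hP₀,
        χ x * ((q : ℂ) ^ ellN P₀ x n - 1) = χ x * ((q : ℂ) ^ (n + 1 - g) - 1) := fun x _ => by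
      have h1 := ellN_of_large hP₀ x (n := (n : ℤ)) (by omega)
      rw [show ellN P₀ x (n : ℤ) = n + 1 - g by omega]
    rw [Finset.sum_congr rfl this, ← Finset.sum_mul, hsum, zero_mul]
  -- logarithmic derivatives
  have hL : LogD (PowerSeries.mk A) (PowerSeries.mk fun j => if j = 0 then 0
      else ptSum h (fun D => χ (cls P₀ D)) j) := by
    refine LogD.of_recursion A _ fun n => ?_
    exact eff_recursion h (fun D => χ (cls P₀ D)) (fun D E hD hE => by
      rw [map_add]
      exact hχadd _ (cls_mem_fixedSub hP₀ hD) _ (cls_mem_fixedSub hP₀ hE)) n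
  have hpt : ∀ j, 0 < j → l ∣ j → ptSum h (fun D => χ (cls P₀ D)) j = ptCount h j := by
    intro j hj ⟨i, hji⟩
    rw [ptSum, ptCount, if_neg hj.ne']
    rw [Finset.sum_congr rfl fun P hP => (?_ : χ (cls P₀ (orbDiv φ P j)) = 1)]
    · simp
    have hP' : φ ^ j • P = P := (mem_fixedSet h hj).mp hP
    have hinv : Inv (φ ^ l) (orbDiv (φ ^ l) P i) :=
      inv_orbDiv (by rw [← pow_mul, ← hji]; exact hP')
    have horb : orbDiv φ P j = ∑ t ∈ Finset.range l, φ ^ t • orbDiv (φ ^ l) P i := by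
      subst hji
      clear hj hP hP' hinv
      induction i with
      | zero => simp [orbDiv]
      | succ i ih =>
        have e1 : orbDiv φ P (l * (i + 1)) = orbDiv φ P (l * i)
            + ∑ t ∈ Finset.range l, Finsupp.single (φ ^ (l * i + t) • P) 1 := by
          rw [mul_add, mul_one, orbDiv, orbDiv, Finset.sum_range_add]
        have e2 : orbDiv (φ ^ l) P (i + 1)
            = orbDiv (φ ^ l) P i + Finsupp.single ((φ ^ l) ^ i • P) 1 := by
          rw [orbDiv, orbDiv, Finset.sum_range_succ]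
        rw [e1, e2, ih]
        simp only [smul_add, Finset.sum_add_distrib, SemilinearAut.smul_single, ← mul_smul,
          ← pow_mul, ← pow_add, add_comm]
    have hP₀l : φ ^ l • P₀ = P₀ :=
      pow_smul_fixed (r := 1) (by rw [pow_one]; exact hP₀) (one_dvd l)
    have hfix : ∀ t, φ ^ t • P₀ = P₀ := fun t =>
      pow_smul_fixed (r := 1) (by rw [pow_one]; exact hP₀) (one_dvd t)
    rw [horb, map_sum, Finset.sum_congr rfl fun t _ => (smul_cls (hfix t) _).symm, ← normMap_apply]
    exact hχnorm _ (cls_mem_fixedSub hP₀l hinv)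
  obtain ⟨ζ, hζ⟩ : ∃ ζ : ℂ, IsPrimitiveRoot ζ l := ⟨_, Complex.isPrimitiveRoot_exp l hl.ne'⟩
  have hd1 := LogD.prod (Finset.range l) (fun i => PowerSeries.rescale (ζ ^ i) (PowerSeries.mk A))
    _ fun i _ => hL.rescale (ζ ^ i)
  have hd2 := LogD.prod (Finset.range l) (fun i => PowerSeries.rescale (ζ ^ i) (zetaSeries h))
    _ fun i _ => (logD_zeta h).rescale (ζ ^ i)
  have hceq : ∑ i ∈ Finset.range l, PowerSeries.rescale (ζ ^ i) (PowerSeries.mk fun j =>
        if j = 0 then 0 else ptSum h (fun D => χ (cls P₀ D)) j)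
      = ∑ i ∈ Finset.range l, PowerSeries.rescale (ζ ^ i) (PowerSeries.mk (ptCount h)) := by
    ext j
    simp only [map_sum, PowerSeries.coeff_rescale, PowerSeries.coeff_mk, ← Finset.sum_mul,
      sum_pow_root hζ j]
    split_ifs with h1 h2
    · simp [h2, ptCount]
    · rw [hpt j (Nat.pos_of_ne_zero h2) h1]
    all_goals simp
  rw [hceq] at hd1
  have hprodeq := LogD.unique (by
      rw [map_sum]
      refine Finset.sum_eq_zero fun i _ => ?_
      rw [← PowerSeries.coeff_zero_eq_constantCoeff_apply, PowerSeries.coeff_rescale]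
      simp [ptCount]) hd1 hd2 (by
      rw [map_prod, map_prod]
      refine Finset.prod_congr rfl fun i _ => ?_
      rw [← PowerSeries.coeff_zero_eq_constantCoeff_apply,
        ← PowerSeries.coeff_zero_eq_constantCoeff_apply, PowerSeries.coeff_rescale,
        PowerSeries.coeff_rescale]
      simp [zetaSeries, effNum, eff_zero, hA0])
  obtain ⟨Q, α, -, -, -, -, hcard, hnum⟩ := exists_roots h hP₀
  let La : Polynomial ℂ := ∑ n ∈ Finset.range (2 * g + 1), Polynomial.monomial n (A n)
  have hLa : (La : PowerSeries ℂ) = PowerSeries.mk A := by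
    ext n
    simp only [Polynomial.coeff_coe, La, Polynomial.finsetSum_coeff, Polynomial.coeff_monomial,
      Finset.sum_ite_eq', Finset.mem_range, PowerSeries.coeff_mk]
    split_ifs with hn
    · rfl
    · exact (hAlarge n (by omega)).symm
  let Lin : ℂ → Polynomial ℂ := fun β => 1 - Polynomial.C β * Polynomial.X
  have hLin : ∀ β, (Lin β : PowerSeries ℂ) = lin β := fun β => (lin_eq_coe β).symm
  let Pa : Polynomial ℂ := ∏ k, Lin (α k)
  have hPa : (Pa : PowerSeries ℂ) = numSeries h := by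
    rw [hnum, ← Polynomial.coeToPowerSeries.ringHom_apply, map_prod]
    simp [Lin, lin_eq_coe]
  have hid : (((∏ i ∈ Finset.range l, Pa.comp (Polynomial.C (ζ ^ i) * Polynomial.X)) :
        Polynomial ℂ) : PowerSeries ℂ)
      = ((∏ i ∈ Finset.range l, (La * (Lin 1 * Lin q)).comp
          (Polynomial.C (ζ ^ i) * Polynomial.X) : Polynomial ℂ) : PowerSeries ℂ) := by
    simp only [← Polynomial.coeToPowerSeries.ringHom_apply, map_prod]
    simp only [Polynomial.coeToPowerSeries.ringHom_apply, ← rescale_coe, Polynomial.coe_mul, hLin,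
      hPa, hLa, numSeries_eq]
    simp only [map_mul, Finset.prod_mul_distrib]
    rw [hprodeq]
  have hev := congrArg (Polynomial.eval 1) (Polynomial.coe_injective ℂ hid)
  simp only [Polynomial.eval_prod, Polynomial.eval_comp, Polynomial.eval_mul, Polynomial.eval_C,
    Polynomial.eval_X, mul_one, Pa, Lin, Polynomial.eval_sub, Polynomial.eval_one] at hev
  rw [Finset.prod_comm] at hev
  have hL' : ∏ k, ∏ i ∈ Finset.range l, (1 - α k * ζ ^ i) = ∏ k, (1 - α k ^ l) :=
    Finset.prod_congr rfl fun k _ => by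
      rw [← prod_one_sub_root hl hζ (α k)]
      exact Finset.prod_congr rfl fun i _ => by rw [mul_comm]
  rw [hL', ← hcard l hl, Finset.prod_eq_zero (Finset.mem_range.mpr hl) (by simp)] at hev
  have hP₀l : φ ^ l • P₀ = P₀ :=
    pow_smul_fixed (r := 1) (by rw [pow_one]; exact hP₀) (one_dvd l)
  rw [natCard_fixedSub (h.pow hl) hP₀l] at hev
  exact (natCard_fixedSub_pos (h.pow hl) hP₀l).ne' (by exact_mod_cast hev)

end Fermat.Agent.CurveTorsion
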