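import Mathlib.RingTheory.Polynomial.Basic
import Mathlib.RingTheory.IntegralClosure.IsIntegral.Basic
import Mathlib.Algebra.Polynomial.Derivative
import Mathlib.FieldTheory.IsAlgClosed.Basic
import Mathlib.LinearAlgebra.Pi

/-!
# A criterion for an order over `k[x]` to be integrally closed
-/

set_option autoImplicit false

noncomputable section

open scoped Classical

open Polynomial

namespace Fermat.Agent.CurveTorsion

/-- The product of two vectors with respect to a multiplication table. -/
def tableMul {R : Type*} [CommRing R] {n : ℕ} (T : Fin n → Fin n → Fin n → R)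
    (v w : Fin n → R) : Fin n → R := fun k => ∑ a, ∑ b, v a * w b * T a b k

theorem map_tableMul {R S : Type*} [CommRing R] [CommRing S] (f : R →+* S) {n : ℕ}
    (T : Fin n → Fin n → Fin n → R) (v w : Fin n → R) (k : Fin n) :
    f (tableMul T v w k)
      = tableMul (fun a b c => f (T a b c)) (fun i => f (v i)) (fun i => f (w i)) k := by
  simp [tableMul]

/-- Iterated products. -/
def tablePow {R : Type*} [CommRing R] {n : ℕ} (T : Fin n → Fin n → Fin n → R)
    (one v : Fin n → R) : ℕ → Fin n → R
  | 0 => one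
  | N + 1 => tableMul T (tablePow T one v N) v

theorem map_tablePow {R S : Type*} [CommRing R] [CommRing S] (f : R →+* S) {n : ℕ}
    (T : Fin n → Fin n → Fin n → R) (one v : Fin n → R) (N : ℕ) (k : Fin n) :
    f (tablePow T one v N k)
      = tablePow (fun a b c => f (T a b c)) (fun i => f (one i)) (fun i => f (v i)) N k := by
  induction N generalizing k with
  | zero => rfl
  | succ N ih =>
    simp only [tablePow]
    rw [map_tableMul]
    simp only [ih]

variable {k : Type*} [Field k] {E : Type*} [CommRing E] [Algebra k E] {n : ℕ}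

/-- The combination `∑ vᵢ(x) uᵢ`. -/
def comb (x : E) (u : Fin n → E) : (Fin n → k[X]) →ₗ[k] E where
  toFun v := ∑ i, aeval x (v i) * u i
  map_add' v w := by simp [add_mul, Finset.sum_add_distrib]
  map_smul' a v := by simp [Finset.smul_sum]

theorem comb_apply (x : E) (u : Fin n → E) (v : Fin n → k[X]) :
    comb x u v = ∑ i, aeval x (v i) * u i := rfl

variable {x : E} {u : Fin n → E}

theorem comb_single (i : Fin n) (p : k[X]) :
    comb x u (Pi.single i p) = aeval x p * u i := by
  rw [comb_apply, Finset.sum_eq_single i]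
  · simp
  · intro j _ hj
    simp [Pi.single_eq_of_ne hj]
  · simp

theorem aeval_mul_comb (p : k[X]) (v : Fin n → k[X]) :
    aeval x p * comb x u v = comb x u (fun i => p * v i) := by
  simp [comb_apply, Finset.mul_sum, mul_assoc]

theorem comb_mul_comb {T : Fin n → Fin n → Fin n → k[X]}
    (hT : ∀ a b, u a * u b = comb x u (T a b)) (v w : Fin n → k[X]) :
    comb x u v * comb x u w = comb x u (tableMul T v w) := by
  simp only [comb_apply, tableMul, map_sum, map_mul, Finset.sum_mul]
  conv_rhs => rw [Finset.sum_comm]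
  refine Finset.sum_congr rfl fun a _ => ?_
  conv_rhs => rw [Finset.sum_comm]
  rw [Finset.mul_sum]
  refine Finset.sum_congr rfl fun b _ => ?_
  rw [mul_mul_mul_comm]
  rw [hT a b, comb_apply, Finset.mul_sum]
  refine Finset.sum_congr rfl fun c _ => ?_
  ring

/-- Basis elements are integral. -/
theorem isIntegral_of_table {T : Fin n → Fin n → Fin n → k[X]}
    (hT : ∀ a b, u a * u b = comb x u (T a b))
    (hone : (1 : E) ∈ LinearMap.range (comb (k := k) x u)) (i : Fin n) :
    IsIntegral (Algebra.adjoin k {x}) (u i) := by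
  let M : Submodule (Algebra.adjoin k {x}) E := Submodule.span _ (Set.range u)
  have hsub : ∀ z ∈ LinearMap.range (comb (k := k) x u), z ∈ M := by
    rintro _ ⟨v, rfl⟩
    rw [comb_apply]
    refine sum_mem fun j _ => ?_
    exact M.smul_mem (⟨aeval x (v j), Polynomial.aeval_mem_adjoin_singleton _ _⟩ :
      Algebra.adjoin k {x}) (Submodule.subset_span ⟨j, rfl⟩)
  have hrev : ∀ z ∈ M, z ∈ LinearMap.range (comb (k := k) x u) := by
    intro z hz
    obtain ⟨cc, rfl⟩ := (Submodule.mem_span_range_iff_exists_fun _).mp hz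
    refine sum_mem fun j _ => ?_
    obtain ⟨p, hp⟩ : ∃ p : k[X], aeval x p = (cc j : E) := by
      have : ((cc j : Algebra.adjoin k {x}) : E) ∈ Algebra.adjoin k {x} := (cc j).2
      exact (Algebra.adjoin_singleton_eq_range_aeval k x).le this
    exact ⟨Pi.single j p, by rw [comb_single, hp]; rfl⟩
  exact IsIntegral.of_mem_of_fg
    (M.toSubalgebra (hsub _ hone) fun a b ha hb => by
      obtain ⟨v, rfl⟩ := hrev a ha
      obtain ⟨w, rfl⟩ := hrev b hb
      rw [comb_mul_comb hT]
      exact hsub _ ⟨_, rfl⟩)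
    (Submodule.fg_span (Set.finite_range u)) _ (Submodule.subset_span ⟨i, rfl⟩)

/-- Hypotheses on the fibre of the order at `c`: functionals cutting out the radical `span r`,
and triviality of the ring of multipliers of the radical. -/
structure FibreData (T : Fin n → Fin n → Fin n → k[X]) (i0 : Fin n) (c : k) where
  /-- The number of characters. -/
  e : ℕ
  /-- The size of a basis of the radical. -/
  s : ℕ
  /-- The characters. -/
  χ : Fin e → (Fin n → k) →ₗ[k] k
  /-- The radical. -/
  r : Fin s → Fin n → k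
  χ_one : ∀ j, χ j (Pi.single i0 1) = 1
  χ_mul : ∀ j a b, χ j (fun l => (T a b l).eval c) = χ j (Pi.single a 1) * χ j (Pi.single b 1)
  χ_r : ∀ j a, χ j (r a) = 0
  span_r : ∀ v : Fin n → k, (∀ j, χ j v = 0) → ∃ a : Fin s → k, v = ∑ i, a i • r i
  nil : ∀ a, ∃ N, 0 < N ∧
    tablePow (fun i j l => (T i j l).eval c) (Pi.single i0 1) (r a) N = 0
  inj : ∀ a : Fin s → k,
    (∀ b, (fun l => (tableMul T (fun i => C (∑ a', a a' * r a' i)) (fun i => C (r b i)) l).eval c)
        = 0 ∧
      ∀ j, χ j (fun l => (derivative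
        (tableMul T (fun i => C (∑ a', a a' * r a' i)) (fun i => C (r b i)) l)).eval c) = 0) →
    a = 0

theorem FibreData.χ_tableMul {T : Fin n → Fin n → Fin n → k[X]} {i0 : Fin n} {c : k}
    (D : FibreData T i0 c) (j : Fin D.e) (v w : Fin n → k) :
    D.χ j (tableMul (fun a b l => (T a b l).eval c) v w) = D.χ j v * D.χ j w := by
  have h1 : tableMul (fun a b l => (T a b l).eval c) v w
      = ∑ a, ∑ b, (v a * w b) • (fun l => (T a b l).eval c) := by
    funext l
    simp [tableMul]
  have h2 : ∀ z : Fin n → k, D.χ j z = ∑ a, z a * D.χ j (Pi.single a 1) := fun z => by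
    conv_lhs => rw [← Finset.univ_sum_single z, map_sum]
    refine Finset.sum_congr rfl fun a _ => ?_
    rw [← smul_eq_mul, ← map_smul, ← Pi.single_smul, smul_eq_mul, mul_one]
  rw [h1, h2 v, h2 w, Finset.sum_mul_sum]
  simp only [map_sum, map_smul, D.χ_mul, smul_eq_mul]
  exact Finset.sum_congr rfl fun a _ => Finset.sum_congr rfl fun b _ => by ring

/-- If `(x - c) • y` lies in the order and `y` is integral, then `y` lies in the order. -/
theorem mem_range_comb_of_fibreData {T : Fin n → Fin n → Fin n → k[X]} {i0 : Fin n} {c : k}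
    (D : FibreData T i0 c) (hT : ∀ a b, u a * u b = comb x u (T a b)) (h1 : u i0 = 1)
    (hπ : ∀ y : E, (x - algebraMap k E c) * y = 0 → y = 0)
    (hinj : Function.Injective (comb x u : (Fin n → k[X]) →ₗ[k] E)) {y : E}
    (hy : IsIntegral (Algebra.adjoin k {x}) y)
    (hmem : (x - algebraMap k E c) * y ∈ LinearMap.range (comb (k := k) x u)) :
    y ∈ LinearMap.range (comb (k := k) x u) := by
  set Λ := LinearMap.range (comb (k := k) x u)
  set π := x - algebraMap k E c
  have hmul : ∀ a ∈ Λ, ∀ b ∈ Λ, a * b ∈ Λ := by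
    rintro _ ⟨v, rfl⟩ _ ⟨w, rfl⟩
    exact ⟨_, (comb_mul_comb hT v w).symm⟩
  have hR : ∀ p : k[X], aeval x p ∈ Λ := fun p =>
    ⟨Pi.single i0 p, by rw [comb_single, h1, mul_one]⟩
  have hone : (1 : E) ∈ Λ := by simpa using hR 1
  have hπp : π = aeval x (X - C c) := by simp [π]
  have hπΛ : π ∈ Λ := hπp ▸ hR _
  have hpow : ∀ a ∈ Λ, ∀ N : ℕ, a ^ N ∈ Λ := fun a ha N => by
    induction N with
    | zero => simpa
    | succ N ih => rw [pow_succ]; exact hmul _ ih _ ha
  -- evaluation of coefficient vectors at `c`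
  let ev : (Fin n → k[X]) → Fin n → k := fun v l => (v l).eval c
  let Rad : (Fin n → k[X]) → Prop := fun v => ∀ j, D.χ j (ev v) = 0
  have hdvd : ∀ v : Fin n → k[X], ev v = 0 → ∃ w : Fin n → k[X], comb x u v = π * comb x u w := by
    intro v hv
    choose w hw using fun l => (dvd_iff_isRoot.mpr (congrFun hv l) : (X - C c) ∣ v l)
    refine ⟨w, ?_⟩
    rw [hπp, aeval_mul_comb]
    congr 1
    funext l
    exact hw l
  have hev : ∀ v w, ev (tableMul T v w)
      = tableMul (fun a b l => (T a b l).eval c) (ev v) (ev w) := fun v w => by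
    funext l
    exact map_tableMul (evalRingHom c) T v w l
  -- powers of radical elements of the basis
  let rr : Fin D.s → E := fun a => comb x u (fun i => C (D.r a i))
  have hrΛ : ∀ a, rr a ∈ Λ := fun a => ⟨_, rfl⟩
  have hrpow : ∀ a N, ∃ v, comb x u v = rr a ^ N ∧
      ev v = tablePow (fun i j l => (T i j l).eval c) (Pi.single i0 1) (D.r a) N := by
    intro a N
    induction N with
    | zero =>
      refine ⟨Pi.single i0 1, by rw [comb_single, h1]; simp, ?_⟩
      funext l
      rcases eq_or_ne l i0 with rfl | hl <;> simp [ev, tablePow, *]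
    | succ N ih =>
      obtain ⟨v, hv, hve⟩ := ih
      refine ⟨tableMul T v (fun i => C (D.r a i)), ?_, ?_⟩
      · rw [← comb_mul_comb hT, hv, pow_succ]
      · rw [hev, hve]
        simp [tablePow, ev]
  have hrnil : ∀ a, ∃ N, 0 < N ∧ ∃ z ∈ Λ, rr a ^ N = π * z := by
    intro a
    obtain ⟨N, hN, hN'⟩ := D.nil a
    obtain ⟨v, hv, hve⟩ := hrpow a N
    obtain ⟨w, hw⟩ := hdvd v (hve.trans hN')
    exact ⟨N, hN, _, ⟨w, rfl⟩, hv ▸ hw⟩
  have hcombC : ∀ a : Fin D.s → k, comb x u (fun l => C (∑ i, a i * D.r i l))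
      = ∑ i, algebraMap k E (a i) * rr i := fun a => by
    simp only [rr, comb_apply, aeval_C, map_sum, map_mul, Finset.mul_sum, Finset.sum_mul]
    rw [Finset.sum_comm]
    exact Finset.sum_congr rfl fun i _ => Finset.sum_congr rfl fun l _ => by ring
  -- decomposition of radical vectors
  have hdec : ∀ v, Rad v → ∃ (a : Fin D.s → k) (z : E),
      z ∈ Λ ∧ comb x u v = ∑ i, algebraMap k E (a i) * rr i + π * z := by
    intro v hv
    obtain ⟨a, ha⟩ := D.span_r _ hv
    let v0 : Fin n → k[X] := fun l => C (∑ i, a i * D.r i l)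
    obtain ⟨w, hw⟩ := hdvd (v - v0) (by
      funext l
      have := congrFun ha l
      simp only [ev, v0, Pi.sub_apply, eval_sub, eval_C, Pi.zero_apply, Finset.sum_apply,
        Pi.smul_apply, smul_eq_mul] at this ⊢
      rw [this, sub_self])
    refine ⟨a, _, ⟨w, rfl⟩, ?_⟩
    rw [← hw, map_sub, ← hcombC]
    abel
  -- powers of elements with an integral relation
  have hbound : ∀ y : E, IsIntegral (Algebra.adjoin k {x}) y → π * y ∈ Λ →
      ∃ d, ∀ M, π ^ d * y ^ M ∈ Λ := by
    intro y hy hyΛ
    obtain ⟨q, hq, hqy⟩ := hy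
    refine ⟨q.natDegree, fun M => ?_⟩
    induction M using Nat.strong_induction_on with
    | _ M ih =>
      rcases le_or_gt M q.natDegree with hM | hM
      · obtain ⟨i, hi⟩ := Nat.le.dest hM
        rw [← hi, pow_add, mul_comm (π ^ M), mul_assoc, ← mul_pow]
        exact hmul _ (hpow _ hπΛ i) _ (hpow _ hyΛ M)
      · have h0 : y ^ q.natDegree
            = -∑ i ∈ Finset.range q.natDegree, ((q.coeff i : Algebra.adjoin k {x}) : E) * y ^ i := by
          rw [eq_neg_iff_add_eq_zero, add_comm]
          rw [eval₂_eq_sum_range, Finset.sum_range_succ, hq.coeff_natDegree, map_one, one_mul]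
            at hqy
          exact hqy
        obtain ⟨i, hi⟩ := Nat.le.dest hM.le
        rw [← hi, pow_add (a := y), h0, neg_mul, Finset.sum_mul, mul_neg, Finset.mul_sum]
        refine neg_mem (sum_mem fun j hj => ?_)
        have hj' := Finset.mem_range.mp hj
        rw [mul_assoc, ← pow_add, mul_left_comm]
        refine hmul _ ?_ _ (ih (j + i) (by omega))
        have hmemc := (q.coeff j).2
        have : ∀ z ∈ Algebra.adjoin k {x}, z ∈ Λ := fun z hz => by
          rw [Algebra.adjoin_singleton_eq_range_aeval] at hz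
          obtain ⟨p, rfl⟩ := hz
          exact hR p
        exact this _ hmemc
  by_contra hyn
  -- an element outside `Λ` whose products with all radical generators lie in `Λ`
  have hkey : ∀ S : Finset (Fin D.s), ∃ y', y' ∉ Λ ∧ π * y' ∈ Λ ∧
      IsIntegral (Algebra.adjoin k {x}) y' ∧ ∀ a ∈ S, y' * rr a ∈ Λ := by
    intro S
    induction S using Finset.induction_on with
    | empty => exact ⟨y, hyn, hmem, hy, by simp⟩
    | @insert a S ha ih =>
      obtain ⟨y', hy', hπy', hint', hS⟩ := ih
      obtain ⟨N, hN, z, hz, hzN⟩ := hrnil a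
      have hNmem : y' * rr a ^ N ∈ Λ := by
        rw [hzN, ← mul_assoc, mul_comm y' π]
        exact hmul _ hπy' _ hz
      have hex : ∃ i, y' * rr a ^ i ∈ Λ := ⟨N, hNmem⟩
      have hpos : 0 < Nat.find hex := Nat.pos_of_ne_zero fun h0 => by
        have := Nat.find_spec hex
        rw [h0, pow_zero, mul_one] at this
        exact hy' this
      refine ⟨y' * rr a ^ (Nat.find hex - 1), Nat.find_min hex (by omega), ?_, ?_, fun b hb => ?_⟩
      · rw [← mul_assoc]
        exact hmul _ hπy' _ (hpow _ (hrΛ a) _)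
      · refine hint'.mul (IsIntegral.pow ?_ _)
        simp only [rr, comb_apply]
        refine IsIntegral.sum _ fun i _ => ?_
        refine IsIntegral.mul ?_ (isIntegral_of_table hT hone i)
        exact isIntegral_algebraMap (R := Algebra.adjoin k {x}) (A := E)
          (x := ⟨_, Polynomial.aeval_mem_adjoin_singleton _ _⟩)
      · rcases Finset.mem_insert.mp hb with rfl | hb
        · rw [mul_assoc, ← pow_succ, Nat.sub_add_cancel hpos]
          exact Nat.find_spec hex
        · rw [mul_right_comm]
          exact hmul _ (hS b hb) _ (hpow _ (hrΛ a) _)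
  obtain ⟨y', hy', hπy', hint', hall⟩ := hkey Finset.univ
  obtain ⟨d, hd⟩ := hbound y' hint' hπy'
  obtain ⟨w, hw⟩ := hπy'
  -- a vector with a power in `π Λ` is in the radical
  have hnilRad : ∀ v M, (∃ z ∈ Λ, comb x u v ^ M = π * z) → Rad v := by
    intro v M ⟨_, ⟨z', rfl⟩, hz'⟩ j
    have hpowv : ∀ M, ∃ vM, comb x u vM = comb x u v ^ M ∧ D.χ j (ev vM) = D.χ j (ev v) ^ M := by
      intro M
      induction M with
      | zero =>
        refine ⟨Pi.single i0 1, by rw [comb_single, h1]; simp, ?_⟩
        rw [pow_zero, ← D.χ_one j]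
        congr 1
        funext l
        rcases eq_or_ne l i0 with rfl | hl <;> simp [ev, *]
      | succ M ih =>
        obtain ⟨vM, hvM, hχM⟩ := ih
        refine ⟨tableMul T vM v, by rw [← comb_mul_comb hT, hvM, pow_succ], ?_⟩
        rw [hev, D.χ_tableMul, hχM, pow_succ]
    obtain ⟨vM, hvM, hχM⟩ := hpowv M
    rw [hz', hπp, aeval_mul_comb] at hvM
    have hvM0 : ev vM = 0 := by
      rw [hinj hvM]
      funext l
      simp [ev]
    rw [hvM0, map_zero] at hχM
    exact eq_zero_of_pow_eq_zero hχM.symm
  -- products with radical generators are in the radical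
  have hprodRad : ∀ a, ∀ v : Fin n → k[X], comb x u v = y' * rr a → Rad v := by
    intro a v hv
    obtain ⟨N, hN, z, hz, hzN⟩ := hrnil a
    refine hnilRad v (N * (d + 1))
      ⟨(π ^ d * y' ^ (N * (d + 1))) * z ^ (d + 1), hmul _ (hd _) _ (hpow _ hz _), ?_⟩
    rw [hv, mul_pow, pow_mul (rr a), hzN, mul_pow]
    ring
  -- so `π y'` multiplies the radical into `π` times itself
  have hprod : ∀ v, Rad v → ∃ v' : Fin n → k[X], Rad v' ∧ comb x u v' = y' * comb x u v := by
    intro v hv
    obtain ⟨a, z, ⟨zv, rfl⟩, hvz⟩ := hdec v hv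
    choose pa hpa using fun i => (hall i (Finset.mem_univ i) : y' * rr i ∈ Λ)
    refine ⟨(∑ i, a i • pa i) + tableMul T w zv, ?_, ?_⟩
    · intro j
      have hwRad : D.χ j (ev w) = 0 := by
        refine hnilRad w (d + 1) ⟨_, hd (d + 1), ?_⟩ j
        rw [hw, mul_pow, pow_succ' π, mul_assoc]
      have hlin : ev ((∑ i, a i • pa i) + tableMul T w zv)
          = (∑ i, a i • ev (pa i)) + ev (tableMul T w zv) := by
        funext l
        simp [ev, eval_finsetSum]
      rw [hlin, map_add, map_sum, hev, D.χ_tableMul, hwRad, zero_mul, add_zero]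
      refine Finset.sum_eq_zero fun i _ => ?_
      rw [map_smul, hprodRad i _ (hpa i), smul_zero]
    · rw [map_add, map_sum, ← comb_mul_comb hT, hw, hvz, mul_add, Finset.mul_sum]
      congr 1
      · exact Finset.sum_congr rfl fun i _ => by
          rw [map_smul, hpa i, Algebra.smul_def]
          ring
      · ring
  -- `π y'` itself is in the radical
  have hwRad : Rad w := by
    obtain ⟨v', hv', hv''⟩ := hprod (fun i => (X - C c) * (Pi.single i0 1 : Fin n → k[X]) i) (by
      intro j
      rw [show ev (fun i => (X - C c) * (Pi.single i0 1 : Fin n → k[X]) i) = 0 by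
        funext l; simp [ev], map_zero])
    rw [← aeval_mul_comb, comb_single, h1, ← hπp, map_one, mul_one, mul_one, mul_comm, ← hw] at hv''
    exact hinj hv'' ▸ hv'
  obtain ⟨a, z, ⟨zv, rfl⟩, hwz⟩ := hdec w hwRad
  have ha0 : a = 0 := by
    refine D.inj a fun b => ?_
    set v0 := fun i => C (∑ a', a a' * D.r a' i)
    set vb := fun i => C (D.r b i)
    have hv0 : comb x u v0 = ∑ i, algebraMap k E (a i) * rr i := hcombC a
    have hbRad : Rad vb := fun j => by
      rw [show ev vb = D.r b by funext l; simp [ev, vb]]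
      exact D.χ_r j b
    obtain ⟨v', hv', hv''⟩ := hprod vb hbRad
    -- `v0 * vb = π * (v' - zv * vb)`
    have heq : comb x u (tableMul T v0 vb)
        = comb x u (fun l => (X - C c) * (v' - tableMul T zv vb) l) := by
      rw [← aeval_mul_comb, ← hπp, map_sub, hv'', ← comb_mul_comb hT, ← comb_mul_comb hT, hv0]
      linear_combination (-(comb x u vb)) * hwz + (comb x u vb) * hw
    have hco := hinj heq
    refine ⟨?_, fun j => ?_⟩
    · funext l
      rw [hco]
      simp
    · have hd' : (fun l => (derivative (tableMul T v0 vb l)).eval c)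
          = ev v' - tableMul (fun a b l => (T a b l).eval c) (ev zv) (ev vb) := by
        funext l
        rw [hco, ← hev]
        simp [ev, derivative_mul]
      rw [hd', map_sub, hv' j, D.χ_tableMul, hbRad j, mul_zero, sub_zero]
  refine hy' ⟨zv, ?_⟩
  have h2 : π * y' = π * comb x u zv := by
    rw [← hw, hwz, ha0]
    simp
  exact (sub_eq_zero.mp (hπ _ (by rw [mul_sub, h2, sub_self]))).symm

end Fermat.Agent.CurveTorsion
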