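import Fermat.Agent.CurveTorsion.CurveData

/-!
# Defining curve data over small subrings
-/

set_option autoImplicit false

noncomputable section

open scoped Classical

open Polynomial
open scoped Polynomial.Bivariate

namespace Fermat.Agent.CurveTorsion

variable {K : Type*} [CommRing K]

/-- A property holding for all subrings containing some finite set. -/
def Big (P : Subring K → Prop) : Prop :=
  ∃ S : Finset K, ∀ A : Subring K, (S : Set K) ⊆ A → P A

theorem Big.mono {P Q : Subring K → Prop} (h : Big P) (hPQ : ∀ A, P A → Q A) : Big Q := by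
  obtain ⟨S, hS⟩ := h
  exact ⟨S, fun A hA => hPQ A (hS A hA)⟩

theorem Big.and {P Q : Subring K → Prop} (hP : Big P) (hQ : Big Q) :
    Big fun A => P A ∧ Q A := by
  obtain ⟨S, hS⟩ := hP
  obtain ⟨T, hT⟩ := hQ
  refine ⟨S ∪ T, fun A hA => ?_⟩
  rw [Finset.coe_union, Set.union_subset_iff] at hA
  exact ⟨hS A hA.1, hT A hA.2⟩

theorem Big.forall' {ι : Type*} [Finite ι] {P : ι → Subring K → Prop} (h : ∀ i, Big (P i)) :
    Big fun A => ∀ i, P i A := by
  have := Fintype.ofFinite ι
  choose S hS using h
  exact ⟨Finset.univ.biUnion S, fun A hA i => hS i A ((Finset.coe_subset.mpr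
    (Finset.subset_biUnion_of_mem S (Finset.mem_univ i))).trans hA)⟩

theorem big_mem (a : K) : Big fun A => a ∈ A :=
  ⟨{a}, fun _A hA => hA (Finset.mem_singleton_self a)⟩

theorem big_poly (p : K[X]) : Big fun A => ∃ q : A[X], q.map A.subtype = p := by
  refine (Big.forall' fun i : Fin (p.natDegree + 1) => big_mem (p.coeff i)).mono fun A hA => ?_
  refine (mem_lifts p).mp ((lifts_iff_coeff_lifts p).mpr fun i => ?_)
  rcases lt_or_ge i (p.natDegree + 1) with hi | hi
  · exact ⟨⟨p.coeff i, hA ⟨i, hi⟩⟩, rfl⟩
  · exact ⟨0, by rw [coeff_eq_zero_of_natDegree_lt (by omega), map_zero]⟩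

theorem big_bipoly (p : K[X][Y]) :
    Big fun A => ∃ q : A[X][Y], q.map (mapRingHom A.subtype) = p := by
  refine (Big.forall' fun i : Fin (p.natDegree + 1) => big_poly (p.coeff i)).mono fun A hA => ?_
  refine (mem_lifts p).mp ((lifts_iff_coeff_lifts p).mpr fun i => ?_)
  rcases lt_or_ge i (p.natDegree + 1) with hi | hi
  · obtain ⟨q, hq⟩ := hA ⟨i, hi⟩
    exact ⟨q, hq⟩
  · exact ⟨0, by rw [coeff_eq_zero_of_natDegree_lt (by omega), map_zero]⟩

theorem big_cert {n : ℕ} {T : Fin n → Fin n → Fin n → K[X]} {i0 : Fin n} {c : K}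
    (C₀ : Cert T i0 c) :
    Big fun A => ∀ (TA : Fin n → Fin n → Fin n → A[X]) (cA : A),
      (∀ a b l, (TA a b l).map A.subtype = T a b l) → A.subtype cA = c →
      Nonempty (Cert TA i0 cA) := by
  refine ((Big.forall' fun j => Big.forall' fun l => big_mem (C₀.χ j l)).and
    ((Big.forall' fun a => Big.forall' fun l => big_mem (C₀.r a l)).and
    ((Big.forall' fun l => Big.forall' fun a => big_mem (C₀.α l a)).and
    ((Big.forall' fun i => Big.forall' fun j => big_mem (C₀.β i j)).and
    ((Big.forall' fun a => Big.forall' fun b => Big.forall' fun l => big_mem (C₀.g0 a b l)).and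
    (Big.forall' fun a => Big.forall' fun b => Big.forall' fun j => big_mem (C₀.g1 a b j))))))).mono
    ?_
  rintro A ⟨hχ, hr, hα, hβ, hg0, hg1⟩ TA cA hT hc
  have hi : Function.Injective A.subtype := A.subtype_injective
  have heval : ∀ p : A[X], A.subtype (p.eval cA) = (p.map A.subtype).eval c := fun p => by
    rw [← hc, eval_map_apply]
  have hP : ∀ (v w : Fin n → A) (l : Fin n),
      (prodPoly TA v w l).map A.subtype
        = prodPoly T (fun i => A.subtype (v i)) (fun i => A.subtype (w i)) l := fun v w l => by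
    have := map_tableMul (mapRingHom A.subtype) TA (fun i => C (v i)) (fun i => C (w i)) l
    simpa [prodPoly, hT] using this
  refine ⟨{
    e := C₀.e
    s := C₀.s
    χ := fun j l => ⟨C₀.χ j l, hχ j l⟩
    r := fun a l => ⟨C₀.r a l, hr a l⟩
    α := fun l a => ⟨C₀.α l a, hα l a⟩
    β := fun i j => ⟨C₀.β i j, hβ i j⟩
    g0 := fun a b l => ⟨C₀.g0 a b l, hg0 a b l⟩
    g1 := fun a b j => ⟨C₀.g1 a b j, hg1 a b j⟩
    χ_one := fun j => hi (by simpa using C₀.χ_one j)
    χ_mul := fun j a b => hi (by
      simp only [map_sum, map_mul, heval, hT, Subring.subtype_apply]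
      exact C₀.χ_mul j a b)
    χ_r := fun j a => hi (by
      simp only [map_sum, map_mul, map_zero, Subring.subtype_apply]
      exact C₀.χ_r j a)
    split := fun i l => hi (by
      simp only [map_add, map_sum, map_mul, apply_ite A.subtype, map_zero, map_one,
        Subring.subtype_apply]
      exact C₀.split i l)
    nil := fun a => by
      obtain ⟨N, hN, h⟩ := C₀.nil a
      refine ⟨N, hN, funext fun l => hi ?_⟩
      rw [map_tablePow, Pi.zero_apply, map_zero, ← show _ = (0 : K) from congrFun h l]
      congr 1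
      · simp [heval, hT]
      · simp [apply_ite A.subtype]
    inj := fun a a' => hi (by
      simp only [map_add, map_sum, map_mul, apply_ite A.subtype, map_zero, map_one, heval,
        ← derivative_map, hP, Subring.subtype_apply]
      exact C₀.inj a a') }⟩

theorem big_curveData [Nontrivial K] {n : ℕ} {D : CurveData K n} (hD : D.IsValid) :
    Big fun A => ∃ DA : CurveData A n, DA.IsValid ∧ DA.map A.subtype = D := by
  obtain ⟨ba, bb, hbez⟩ := hD.bez
  choose Q hQ using hD.mul
  choose P R hPR using fun j : Fin n => hD.span j j.2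
  obtain ⟨nr, root, lc, hlc, hfac, hcert, ⟨cinf⟩⟩ := hD.certs
  refine ((big_bipoly D.h).and ((big_poly D.Δ).and ((Big.forall' fun i => big_bipoly (D.U i)).and
    ((Big.forall' fun a => Big.forall' fun b => Big.forall' fun c => big_poly (D.T a b c)).and
    ((big_bipoly ba).and ((big_bipoly bb).and
    ((Big.forall' fun a => Big.forall' fun b => big_bipoly (Q a b)).and
    ((Big.forall' fun j => Big.forall' fun l => big_poly (P j l)).and
    ((Big.forall' fun j => big_bipoly (R j)).and
    ((Big.forall' fun j => big_mem (root j)).and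
    ((big_mem lc).and ((big_mem (↑hlc.unit⁻¹ : K)).and
    ((Big.forall' fun j => big_cert (hcert j).some).and (big_cert cinf)))))))))))))).mono ?_
  rintro A ⟨⟨hA, hhA⟩, ⟨ΔA, hΔA⟩, hU, hT, ⟨aA, haA⟩, ⟨bA, hbA⟩, hQA, hPA, hRA, hroot, hlcA,
    hlcA', hcA, hcinfA⟩
  choose UA hUA using hU
  choose TA hTA using hT
  choose QA hQA using hQA
  choose PA hPA using hPA
  choose RA hRA using hRA
  have hi : Function.Injective A.subtype := A.subtype_injective
  have hi1 : Function.Injective (mapRingHom A.subtype : A[X] → K[X]) := map_injective _ hi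
  have hi2 : Function.Injective (Polynomial.map (mapRingHom A.subtype)) := map_injective _ hi1
  refine ⟨⟨D.m, D.i0, hA, ΔA, UA, TA⟩, ?_, ?_⟩
  · exact
    { monic := monic_of_injective hi1 (by rw [hhA]; exact hD.monic)
      deg_h := by rw [← natDegree_map_eq_of_injective hi1, hhA, hD.deg_h]
      m_i0 := hD.m_i0
      m_pos := hD.m_pos
      U_i0 := hi2 (by simp [hUA, hD.U_i0, hΔA])
      bez := ⟨aA, bA, hi2 (by simp [← derivative_map, hhA, haA, hbA, hΔA, hbez])⟩
      mul := fun a b => ⟨QA a b, hi2 (by
        simp only [Polynomial.map_mul, Polynomial.map_add, Polynomial.map_sum, Polynomial.map_C,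
          coe_mapRingHom, hUA, hΔA, hTA, hhA, hQA]
        exact hQ a b)⟩
      span := fun j hj => ⟨PA ⟨j, hj⟩, RA ⟨j, hj⟩, hi2 (by
        simp only [Polynomial.map_mul, Polynomial.map_add, Polynomial.map_sum, Polynomial.map_C,
          Polynomial.map_pow, Polynomial.map_X, coe_mapRingHom, hUA, hΔA, hPA, hhA, hRA]
        exact hPR ⟨j, hj⟩)⟩
      degT := fun a b c => by
        rcases hD.degT a b c with h | h
        · exact Or.inl (map_injective _ hi (by rw [hTA, h, Polynomial.map_zero]))
        · exact Or.inr (by rwa [← natDegree_map_eq_of_injective hi, hTA])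
      certs := by
        refine ⟨nr, fun j => ⟨root j, hroot j⟩, ⟨lc, hlcA⟩,
          IsUnit.of_mul_eq_one ⟨_, hlcA'⟩ (Subtype.ext (by simp)), map_injective _ hi (by
            simp [hΔA, hfac, Polynomial.map_prod]),
          fun j => hcA j TA _ hTA rfl, hcinfA _ 0 (fun a b l => ?_) (map_zero _)⟩
        simp only [tableInf, ← reflect_map, hTA] }
  · cases D
    simp only [CurveData.map, CurveData.mk.injEq, true_and]
    exact ⟨hhA, hΔA, funext hUA, funext fun a => funext fun b => funext (hTA a b)⟩

end Fermat.Agent.CurveTorsion
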