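import Fermat.Agent.CurveTorsion.Growth
import Mathlib.GroupTheory.Perm.Cycle.Type
import Mathlib.GroupTheory.Index

/-!
# Torsion of the class group over an algebraic closure of a finite field
-/

set_option autoImplicit false

noncomputable section

open scoped Classical

open AlgebraicCurve

namespace Fermat.Agent.CurveTorsion

open FF

set_option linter.unusedSectionVars false

section Group

variable {A : Type*} [AddCommGroup A]

/-- The `l`-primary elements. -/
def primaryPart (l : ℕ) (A : Type*) [AddCommGroup A] : AddSubgroup A where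
  carrier := {c | ∃ j : ℕ, l ^ j • c = 0}
  zero_mem' := ⟨0, smul_zero _⟩
  add_mem' := by
    rintro a b ⟨i, hi⟩ ⟨j, hj⟩
    refine ⟨i + j, ?_⟩
    rw [smul_add, show l ^ (i + j) • a = 0 by rw [pow_add, mul_comm, mul_smul, hi, smul_zero],
      show l ^ (i + j) • b = 0 by rw [pow_add, mul_smul, hj, smul_zero], add_zero]
  neg_mem' := by
    rintro a ⟨i, hi⟩
    exact ⟨i, by rw [smul_neg, hi, neg_zero]⟩

theorem natCard_inf_primary (l : ℕ) [Fact l.Prime] (H : AddSubgroup A) [Finite H] :
    Nat.card (H ⊓ primaryPart l A : AddSubgroup A)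
      = l ^ padicValNat l (Nat.card H) := by
  have hl : l.Prime := Fact.out
  set P := primaryPart l H
  have hcard : Nat.card (H ⊓ primaryPart l A : AddSubgroup A) = Nat.card P := by
    refine Nat.card_congr ?_
    exact
      { toFun := fun c => ⟨⟨c.1, c.2.1⟩, c.2.2.imp fun j hj => Subtype.ext hj⟩
        invFun := fun c => ⟨c.1.1, c.1.2, c.2.imp fun j hj => congrArg Subtype.val hj⟩
        left_inv := fun _ => rfl
        right_inv := fun _ => rfl }
  have hpow : Nat.card P = l ^ (Nat.card P).primeFactorsList.length := by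
    refine Nat.eq_prime_pow_of_unique_prime_dvd Nat.card_pos.ne' fun {p} hp hdvd => ?_
    have : Fact p.Prime := ⟨hp⟩
    obtain ⟨x, hx⟩ := exists_prime_addOrderOf_dvd_card' p hdvd
    obtain ⟨j, hj⟩ := x.2
    have h1 : addOrderOf x ∣ l ^ j := addOrderOf_dvd_iff_nsmul_eq_zero.mpr (Subtype.ext hj)
    rw [hx] at h1
    exact (Nat.prime_dvd_prime_iff_eq hp hl).mp (hp.dvd_of_dvd_pow h1)
  have hindex : ¬ l ∣ Nat.card (H ⧸ P) := by
    intro hdvd
    obtain ⟨x, hx⟩ := exists_prime_addOrderOf_dvd_card' l hdvd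
    obtain ⟨y, rfl⟩ := QuotientAddGroup.mk_surjective x
    have h1 : ((l • y : H) : H ⧸ P) = 0 := by
      rw [QuotientAddGroup.mk_nsmul]
      conv_lhs => rw [← hx]
      exact addOrderOf_nsmul_eq_zero _
    obtain ⟨j, hj⟩ := (QuotientAddGroup.eq_zero_iff _).mp h1
    have h2 : y ∈ P := ⟨j + 1, by rw [pow_succ, mul_smul, hj]⟩
    rw [(QuotientAddGroup.eq_zero_iff y).mpr h2, addOrderOf_zero] at hx
    exact hl.ne_one hx.symm
  rw [hcard, AddSubgroup.card_eq_card_quotient_mul_card_addSubgroup P,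
    padicValNat.mul Nat.card_pos.ne' Nat.card_pos.ne', padicValNat.eq_zero_of_not_dvd hindex,
    zero_add]
  conv_lhs => rw [hpow]
  congr 1
  conv_rhs => rw [hpow]
  rw [padicValNat.prime_pow]

theorem exists_pow_bound (v e : ℕ) {l : ℕ} (hl : 1 < l) :
    ∃ k : ℕ, l ^ (v + e * k) < 2 ^ (l ^ k) := by
  set C := l * (v + e + 1)
  refine ⟨3 * (C + 3), ?_⟩
  have h1 : l ^ (v + e * (3 * (C + 3))) ≤ 2 ^ (l * (v + e * (3 * (C + 3)))) := by
    rw [pow_mul]
    exact Nat.pow_le_pow_left l.lt_two_pow_self.le _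
  refine h1.trans_lt (Nat.pow_lt_pow_right one_lt_two ?_)
  have h2 : C + 3 < l ^ (C + 3) := Nat.lt_pow_self hl
  have h3 : (C + 3) ^ 3 ≤ l ^ (3 * (C + 3)) := by
    rw [mul_comm, pow_mul]
    exact Nat.pow_le_pow_left h2.le 3
  have h4 : l * (v + e * (3 * (C + 3))) ≤ C * (3 * C + 10) := by
    show l * (v + e * (3 * (C + 3))) ≤ l * (v + e + 1) * (3 * C + 10)
    rw [mul_assoc]
    exact Nat.mul_le_mul_left l (by nlinarith)
  refine lt_of_le_of_lt h4 (lt_of_lt_of_le ?_ h3)
  clear_value C
  calc C * (3 * C + 10) < C * (C * C) + C * (9 * C) + C * 27 + 27 := by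
        have e1 : C * (3 * C + 10) = C * (3 * C) + C * 10 := Nat.mul_add C _ _
        have e2 : C * (3 * C) ≤ C * (9 * C) := Nat.mul_le_mul_left C (by omega)
        omega
    _ = (C + 3) ^ 3 := by ring

end Group

variable {K F : Type*} [Field K] [Field F] [Algebra K F] [IsAlgClosed K] [IsFunctionField K F]
variable {φ : SemilinearAut K F} {q : ℕ}

theorem mem_torsion_nsmul {n : ℕ} {x : Pic0 K F} :
    x ∈ Pic0.torsion K F n ↔ n • x = 0 := by
  rw [Pic0.mem_torsion, natCast_zsmul]

theorem smul_nsmul' (g : SemilinearAut K F) (m : ℕ) (x : Pic0 K F) :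
    g • (m • x) = m • (g • x) :=
  map_nsmul (DistribSMul.toAddMonoidHom (Pic0 K F) g) m x

theorem exists_pow_smul_eq (h : IsFrob φ q) (c : Pic0 K F) : ∃ R, 0 < R ∧ φ ^ R • c = c := by
  obtain ⟨⟨D, hD⟩, rfl⟩ := Pic0.mk_surjective c
  have horb : ∀ S : Finset (Place K F), ∃ R, 0 < R ∧ ∀ P ∈ S, φ ^ R • P = P := by
    intro S
    induction S using Finset.induction_on with
    | empty => exact ⟨1, one_pos, by simp⟩
    | @insert P S hP ih =>
      obtain ⟨R, hR, hS⟩ := ih
      obtain ⟨r, hr, hr'⟩ := h.orbit_place P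
      refine ⟨r * R, Nat.mul_pos hr hR, fun Q hQ => ?_⟩
      rcases Finset.mem_insert.mp hQ with rfl | hQ
      · exact pow_smul_fixed hr' (dvd_mul_right _ _)
      · exact pow_smul_fixed (hS Q hQ) (dvd_mul_left _ _)
  obtain ⟨R, hR, hRD⟩ := horb D.support
  refine ⟨R, hR, ?_⟩
  rw [SemilinearAut.pic0_smul_mk]
  congr 1
  refine Subtype.ext ?_
  rw [SemilinearAut.coe_degZeroSMulHom, SemilinearAut.divisor_smul_def,
    Finsupp.mapDomain_congr (g := id) hRD, Finsupp.mapDomain_id]

theorem fixedSub_le {r s : ℕ} (h : r ∣ s) :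
    fixedSub (K := K) (F := F) (φ ^ r) ≤ fixedSub (φ ^ s) := fun c hc => by
  rw [mem_fixedSub] at *
  exact pow_smul_fixed hc h

theorem smul_mem_primary (g : SemilinearAut K F) {l : ℕ} {c : Pic0 K F}
    (hc : c ∈ primaryPart l (Pic0 K F)) : g • c ∈ primaryPart l (Pic0 K F) := by
  obtain ⟨j, hj⟩ := hc
  exact ⟨j, by rw [← smul_nsmul', hj]; exact map_zero (DistribSMul.toAddMonoidHom (Pic0 K F) g)⟩

/-- The torsion count, assuming a rational place. -/
theorem natCard_torsion_aux (h : IsFrob φ q) {P₀ : Place K F} (hP₀ : φ • P₀ = P₀) (l : ℕ)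
    [Fact l.Prime] (hlq : ¬ l ∣ q) (j : ℕ) :
    Nat.card (Pic0.torsion K F (l ^ j)) = l ^ (2 * genusFF K F * j) := by
  have hl : l.Prime := Fact.out
  obtain ⟨Q, α, hQ, hQd, hQ0, hα, hcard, -⟩ := exists_roots h hP₀
  have hfix : ∀ r, φ ^ r • P₀ = P₀ := fun r =>
    pow_smul_fixed (r := 1) (by rw [pow_one]; exact hP₀) (one_dvd r)
  have hfinfix : ∀ r, 0 < r → Finite (fixedSub (φ ^ r) : AddSubgroup (Pic0 K F)) := fun r hr =>
    (finite_fixedSub (h.pow hr) (hfix r)).to_subtype
  have hlQ : ¬ (l : ℤ) ∣ Q.coeff 0 := by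
    rw [hQ0, ← Nat.cast_pow, Int.natCast_dvd_natCast]
    exact fun h1 => hlq (hl.dvd_of_dvd_pow h1)
  obtain ⟨r0, hr0, hval⟩ := exists_valuation_growth l hQ hQd hlQ α hα
    (fun r => Nat.card (fixedSub (φ ^ r) : AddSubgroup (Pic0 K F))) hcard
    (fun r hr => by have := hfinfix r hr; exact Nat.card_pos)
  set g := genusFF K F
  set v0 := padicValNat l (Nat.card (fixedSub (φ ^ r0) : AddSubgroup (Pic0 K F)))
  set T := primaryPart l (Pic0 K F) with hT
  let B : ℕ → AddSubgroup (Pic0 K F) := fun k => fixedSub (φ ^ (r0 * l ^ k)) ⊓ T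
  have hBpos : ∀ k, 0 < r0 * l ^ k := fun k => Nat.mul_pos hr0 (pow_pos hl.pos k)
  have hBfin : ∀ k, Finite (B k) := fun k => by
    have := hfinfix _ (hBpos k)
    exact Finite.of_injective (fun c : B k => (⟨c.1, c.2.1⟩ : fixedSub (φ ^ (r0 * l ^ k))))
      fun a b hab => Subtype.ext (congrArg Subtype.val hab :)
  have hBcard : ∀ k t, 0 < t → ¬ l ∣ t →
      Nat.card (fixedSub (φ ^ (r0 * l ^ k * t)) ⊓ T : AddSubgroup (Pic0 K F))
        = l ^ (v0 + 2 * g * k) := fun k t ht hlt => by
    have := hfinfix _ (Nat.mul_pos (hBpos k) ht)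
    rw [natCard_inf_primary, hval k t ht hlt]
  have hBcard' : ∀ k, Nat.card (B k) = l ^ (v0 + 2 * g * k) := fun k => by
    have := hBcard k 1 one_pos hl.not_dvd_one
    rwa [mul_one] at this
  have hBmono : ∀ {a b}, a ≤ b → B a ≤ B b := fun hab =>
    inf_le_inf_right _ (fixedSub_le (mul_dvd_mul_left _ (pow_dvd_pow l hab)))
  have hcover : ∀ c ∈ T, ∃ k, c ∈ B k := by
    intro c hc
    obtain ⟨R, hR, hRc⟩ := exists_pow_smul_eq h c
    obtain ⟨a, t, hlt, hRat⟩ := Nat.exists_eq_pow_mul_and_not_dvd hR.ne' l hl.ne_one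
    have ht : 0 < t := Nat.pos_of_ne_zero fun h0 => hlt (h0 ▸ dvd_zero l)
    refine ⟨a, ?_⟩
    set C : AddSubgroup (Pic0 K F) := fixedSub (φ ^ (r0 * l ^ a * t)) ⊓ T
    have hle : B a ≤ C := inf_le_inf_right _ (fixedSub_le (dvd_mul_right _ _))
    have : Finite C := Nat.finite_of_card_ne_zero (by rw [hBcard a t ht hlt]; exact pow_ne_zero _ hl.ne_zero)
    have heq : (B a : Set (Pic0 K F)) = C := by
      refine Set.eq_of_subset_of_ncard_le hle (le_of_eq ?_) (Set.toFinite _)
      change Nat.card C = Nat.card (B a)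
      rw [hBcard a t ht hlt, hBcard']
    change c ∈ (B a : Set (Pic0 K F))
    rw [heq]
    refine ⟨?_, hc⟩
    show φ ^ (r0 * l ^ a * t) • c = c
    exact pow_smul_fixed hRc (hRat ▸ ⟨r0, by ring⟩)
  -- the elements killed by `l` are fixed by one power
  obtain ⟨k0, hk0⟩ : ∃ k0, ∀ c : Pic0 K F, l • c = 0 → c ∈ B k0 := by
    obtain ⟨k, hk⟩ := exists_pow_bound v0 (2 * g) hl.one_lt
    let S := SemilinearAut.torsionRep K F l (φ ^ r0)
    have hS : ∀ m, ∀ x : Pic0.torsion K F l,
        (((S - 1) ^ l ^ m) x : Pic0 K F) = φ ^ (r0 * l ^ m) • (x : Pic0 K F) - x := by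
      intro m x
      have hid : ((Polynomial.X - 1 : Polynomial (ZMod l)) ^ l ^ m)
          = Polynomial.X ^ l ^ m - 1 := by rw [sub_pow_char_pow, one_pow]
      have h1 := congrArg (Polynomial.aeval S) hid
      simp only [map_pow, map_sub, Polynomial.aeval_X, map_one] at h1
      rw [h1, LinearMap.sub_apply, AddSubgroup.coe_sub, ← map_pow, ← pow_mul]
      rfl
    let N : ℕ → Submodule (ZMod l) (Pic0.torsion K F l) := fun m => LinearMap.ker ((S - 1) ^ m)
    have hN : ∀ m x, x ∈ N m ↔ ((S - 1) ^ m) x = 0 := fun m x => Iff.rfl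
    have hNmono : ∀ {a b}, a ≤ b → N a ≤ N b := fun {a b} hab x hx => by
      obtain ⟨d, rfl⟩ := Nat.le.dest hab
      rw [hN] at hx ⊢
      rw [add_comm, pow_add, Module.End.mul_apply, hx, map_zero]
    have hNB : ∀ m, ∀ x ∈ N (l ^ m), (x : Pic0 K F) ∈ B m := by
      intro m x hx
      have h1 := hS m x
      rw [(hN _ x).mp hx, ZeroMemClass.coe_zero, eq_comm, sub_eq_zero] at h1
      exact ⟨h1, 1, by rw [pow_one]; exact mem_torsion_nsmul.mp x.2⟩
    have hfinN : Finite (N (l ^ k)) := Finite.of_injective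
      (fun x : N (l ^ k) => (⟨((x : Pic0.torsion K F l) : Pic0 K F), hNB k _ x.2⟩ : B k))
      fun a b hab => Subtype.ext (Subtype.ext (congrArg Subtype.val hab :))
    obtain ⟨m, hm, hstab⟩ : ∃ m < l ^ k, N m = N (m + 1) := by
      by_contra! hne
      have hgrow : ∀ m ≤ l ^ k, 2 ^ m ≤ Nat.card (N m) := by
        intro m
        induction m with
        | zero =>
          intro _
          have : Finite (N 0) := Finite.of_injective _ (Submodule.inclusion_injective
            (hNmono (Nat.zero_le (l ^ k))))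
          exact Nat.card_pos
        | succ m ih =>
          intro hm
          have h1 := ih (by omega)
          have : Finite (N (m + 1)) := Finite.of_injective _ (Submodule.inclusion_injective
            (hNmono hm))
          have hle : N m ≤ N (m + 1) := hNmono (Nat.le_succ m)
          obtain ⟨c, hc⟩ := AddSubgroup.card_dvd_of_le
            (H := (N m).toAddSubgroup) (K := (N (m + 1)).toAddSubgroup) hle
          change Nat.card (N (m + 1)) = Nat.card (N m) * c at hc
          have hc2 : 2 ≤ c := by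
            by_contra hc2
            interval_cases c
            · rw [mul_zero] at hc
              exact Nat.card_pos.ne' hc
            · refine hne m (by omega) (SetLike.coe_injective ?_)
              refine Set.eq_of_subset_of_ncard_le hle ?_ (Set.toFinite _)
              change Nat.card (N (m + 1)) ≤ Nat.card (N m)
              omega
          rw [hc, pow_succ]
          exact Nat.mul_le_mul h1 hc2
      have h1 := hgrow _ le_rfl
      have h2 : Nat.card (N (l ^ k)) ≤ Nat.card (B k) := Nat.card_le_card_of_injective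
        (fun x : N (l ^ k) => (⟨((x : Pic0.torsion K F l) : Pic0 K F), hNB k _ x.2⟩ : B k))
        fun a b hab => Subtype.ext (Subtype.ext (congrArg Subtype.val hab :))
      rw [hBcard'] at h2
      omega
    have hconst : ∀ d, N (m + d) ≤ N m := by
      intro d
      induction d with
      | zero => exact le_rfl
      | succ d ih =>
        intro x hx
        rw [hN, ← add_assoc, pow_succ, Module.End.mul_apply, ← hN] at hx
        have h1 := ih hx
        rw [hN, ← Module.End.mul_apply, ← pow_succ, ← hN, ← hstab] at h1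
        exact h1
    refine ⟨k, fun c hc => ?_⟩
    obtain ⟨a, ha⟩ := hcover c ⟨1, by rw [pow_one]; exact hc⟩
    let x : Pic0.torsion K F l := ⟨c, mem_torsion_nsmul.mpr hc⟩
    have hx : x ∈ N (l ^ a) := by
      rw [hN]
      refine Subtype.ext ?_
      rw [hS a x, ZeroMemClass.coe_zero, sub_eq_zero]
      exact ha.1
    have h1 : x ∈ N (l ^ k) := by
      refine hNmono hm.le ?_
      exact hconst (l ^ a) (hNmono (Nat.le_add_left _ _) hx)
    exact hNB k x h1
  have hfin1 : Finite (Pic0.torsion K F l) := Finite.of_injective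
    (fun x : Pic0.torsion K F l => (⟨x.1, hk0 _ (mem_torsion_nsmul.mp x.2)⟩ : B k0))
    fun a b hab => Subtype.ext (congrArg Subtype.val hab :)
  -- classes modulo `l` are fixed by one power
  obtain ⟨k1, hk1⟩ : ∃ k1, ∀ k, k1 ≤ k → ∀ y ∈ T, ∃ z ∈ T,
      φ ^ (r0 * l ^ k) • y - y = l • z := by
    have hfinQ : Finite (T ⧸ (nsmulAddMonoidHom l : T →+ T).range) := by
      refine @Finite.of_fintype _ (fintypeOfFinsetCardLe (Nat.card (Pic0.torsion K F l)) fun S => ?_)
      obtain ⟨a, ha⟩ : ∃ a, ∀ s ∈ S, (s.out : Pic0 K F) ∈ B a := by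
        choose f hf using fun s : T ⧸ (nsmulAddMonoidHom l : T →+ T).range => hcover _ s.out.2
        exact ⟨S.sup f, fun s hs => hBmono (Finset.le_sup hs) (hf s)⟩
      have := hBfin a
      let mu : B a →+ B a := nsmulAddMonoidHom l
      have h1 : Nat.card (B a ⧸ mu.range) = Nat.card mu.ker := by
        have e1 := AddSubgroup.card_eq_card_quotient_mul_card_addSubgroup mu.range
        have e2 := mu.ker.card_mul_index
        rw [AddSubgroup.index_ker] at e2
        exact Nat.eq_of_mul_eq_mul_right Nat.card_pos (e1.symm.trans e2.symm)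
      have h2 : Nat.card mu.ker ≤ Nat.card (Pic0.torsion K F l) :=
        Nat.card_le_card_of_injective (fun x : mu.ker => (⟨x.1.1, mem_torsion_nsmul.mpr
          (congrArg Subtype.val (AddMonoidHom.mem_ker.mp x.2))⟩ : Pic0.torsion K F l))
          fun x y hxy => Subtype.ext (Subtype.ext (congrArg Subtype.val hxy :))
      rw [← Nat.card_eq_finsetCard S]
      refine le_trans ?_ (h1.le.trans h2)
      refine Nat.card_le_card_of_injective
        (fun s : S => (QuotientAddGroup.mk ⟨_, ha s.1 s.2⟩ : B a ⧸ mu.range)) fun s t hst => ?_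
      obtain ⟨z, hz⟩ := QuotientAddGroup.eq_iff_sub_mem.mp hst
      refine Subtype.ext ?_
      rw [← QuotientAddGroup.out_eq' s.1, ← QuotientAddGroup.out_eq' t.1]
      exact QuotientAddGroup.eq_iff_sub_mem.mpr
        ⟨⟨z.1, z.2.2⟩, Subtype.ext (congrArg Subtype.val hz :)⟩
    choose f hf using fun s : T ⧸ (nsmulAddMonoidHom l : T →+ T).range => hcover _ s.out.2
    have := Fintype.ofFinite (T ⧸ (nsmulAddMonoidHom l : T →+ T).range)
    obtain ⟨a, ha⟩ : ∃ a, ∀ s, ((s : T ⧸ (nsmulAddMonoidHom l : T →+ T).range).out : Pic0 K F) ∈ B a :=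
      ⟨Finset.univ.sup f, fun s => hBmono (Finset.le_sup (Finset.mem_univ s)) (hf s)⟩
    refine ⟨a, fun k hk y hy => ?_⟩
    obtain ⟨⟨z, hz⟩, hyz'⟩ := QuotientAddGroup.eq_iff_sub_mem.mp
      (QuotientAddGroup.out_eq' (QuotientAddGroup.mk (⟨y, hy⟩ : T) :
        T ⧸ (nsmulAddMonoidHom l : T →+ T).range)).symm
    set s := ((QuotientAddGroup.mk (⟨y, hy⟩ : T) :
        T ⧸ (nsmulAddMonoidHom l : T →+ T).range).out : Pic0 K F) with hsdef
    have hyz : y - s = l • z := (congrArg Subtype.val hyz' :).symm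
    refine ⟨φ ^ (r0 * l ^ k) • z - z, sub_mem (smul_mem_primary _ hz) hz, ?_⟩
    have hsfix : φ ^ (r0 * l ^ k) • s = s := (hBmono hk (ha _)).1
    have hy' : y = s + l • z := by rw [← hyz]; abel
    rw [hy', smul_add, hsfix, smul_nsmul', nsmul_sub]
    abel
  -- divisibility
  have hdiv : ∀ c ∈ T, ∃ y ∈ T, l • y = c := by
    intro c hc
    obtain ⟨a, ha⟩ := hcover c hc
    set k := max a k1
    have hck := hBmono (le_max_left a k1) ha
    set σ := φ ^ (r0 * l ^ k)
    obtain ⟨c', hc', hNc⟩ :=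
      exists_norm_eq (h.pow (hBpos k)) (hfix _) hl.pos hck.1
    have hfin' : Finite (fixedSub (σ ^ l) : AddSubgroup (Pic0 K F)) := by
      rw [← pow_mul]; exact hfinfix _ (Nat.mul_pos (hBpos k) hl.pos)
    obtain ⟨v, u, hlu, hvu⟩ := Nat.exists_eq_pow_mul_and_not_dvd
      (n := Nat.card (fixedSub (σ ^ l) : AddSubgroup (Pic0 K F))) Nat.card_pos.ne' l hl.ne_one
    have hy : u • c' ∈ T := ⟨v, by
      rw [← mul_smul, ← hvu]
      exact congrArg Subtype.val (card_nsmul_eq_zero' (G := (fixedSub (σ ^ l) :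
        AddSubgroup (Pic0 K F))) (x := ⟨c', hc'⟩))⟩
    have hstep : ∀ i, ∃ z ∈ T, σ ^ i • (u • c') - u • c' = l • z := by
      intro i
      induction i with
      | zero => exact ⟨0, zero_mem _, by simp⟩
      | succ i ih =>
        obtain ⟨z, hz, hz'⟩ := ih
        obtain ⟨z1, hz1, hz1'⟩ := hk1 k (le_max_right a k1) _ hy
        refine ⟨σ • z + z1, add_mem (smul_mem_primary _ hz) hz1, ?_⟩
        rw [nsmul_add, ← smul_nsmul' σ l z, ← hz', ← hz1', smul_sub, ← mul_smul, ← pow_succ']
        abel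
    choose z hz hz' using hstep
    have hu : u • c = l • (u • c' + ∑ i ∈ Finset.range l, z i) := by
      rw [← hNc, ← map_nsmul, normMap_apply, nsmul_add, ← Finset.sum_nsmul]
      simp only [← hz', Finset.sum_sub_distrib, Finset.sum_const, Finset.card_range]
      abel
    obtain ⟨x, y, hxy⟩ : IsCoprime (u : ℤ) (l : ℤ) :=
      ((Nat.prime_iff_prime_int.mp hl).coprime_iff_not_dvd.mpr
        (fun h1 => hlu (Int.natCast_dvd_natCast.mp h1))).symm
    refine ⟨x • (u • c' + ∑ i ∈ Finset.range l, z i) + y • c,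
      add_mem (zsmul_mem (add_mem hy (sum_mem fun i _ => hz i)) x) (zsmul_mem hc y), ?_⟩
    have hc1 : ∀ (m : ℤ) (a : Pic0 K F), l • (m • a) = m • (l • a) := fun m a =>
      (map_zsmul (nsmulAddMonoidHom l : Pic0 K F →+ Pic0 K F) m a)
    rw [nsmul_add, hc1, ← hu, hc1, ← natCast_zsmul c u, ← natCast_zsmul c l,
      ← mul_zsmul', ← mul_zsmul', ← add_zsmul, mul_comm (u : ℤ), mul_comm (l : ℤ), hxy,
      one_zsmul]
  -- the torsion killed by `l ^ 2` is fixed by one power
  obtain ⟨k2, hk2⟩ : ∃ k2, ∀ c : Pic0 K F, l ^ 2 • c = 0 → c ∈ B k2 := by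
    have hfin2 : Finite (Pic0.torsion K F (l ^ 2)) := by
      let m2 : Pic0.torsion K F (l ^ 2) →+ Pic0 K F :=
        (nsmulAddMonoidHom l).comp (Pic0.torsion K F (l ^ 2)).subtype
      have h2 : Finite m2.range := by
        refine Finite.of_injective (fun x : m2.range => (⟨x.1, ?_⟩ : Pic0.torsion K F l))
          fun a b hab => Subtype.ext (congrArg Subtype.val hab :)
        obtain ⟨y, hy⟩ := x.2
        rw [mem_torsion_nsmul, ← hy]
        change l • (l • (y : Pic0 K F)) = 0
        rw [← mul_smul, ← sq]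
        exact mem_torsion_nsmul.mp y.2
      have h3 : Finite m2.ker := Finite.of_injective
        (fun x : m2.ker => (⟨x.1.1, mem_torsion_nsmul.mpr (AddMonoidHom.mem_ker.mp x.2)⟩ :
          Pic0.torsion K F l))
        fun a b hab => Subtype.ext (Subtype.ext (congrArg Subtype.val hab :))
      refine Nat.finite_of_card_ne_zero ?_
      rw [← m2.ker.card_mul_index, AddSubgroup.index_ker]
      exact mul_ne_zero Nat.card_pos.ne' Nat.card_pos.ne'
    choose f hf using fun x : Pic0.torsion K F (l ^ 2) =>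
      hcover x ⟨2, mem_torsion_nsmul.mp x.2⟩
    have := Fintype.ofFinite (Pic0.torsion K F (l ^ 2))
    exact ⟨Finset.univ.sup f, fun c hc =>
      hBmono (Finset.le_sup (f := f) (Finset.mem_univ ⟨c, mem_torsion_nsmul.mpr hc⟩)) (hf _)⟩
  set σ := φ ^ (r0 * l ^ k2)
  have hnext : ∀ y ∈ T, (y ∈ B (k2 + 1) ↔ l • y ∈ B k2) := by
    intro y hy
    have hB : y ∈ B (k2 + 1) ↔ σ ^ l • y = y := by
      constructor
      · intro h1
        rw [← pow_mul, mul_assoc, ← pow_succ]
        exact h1.1
      · intro h1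
        refine ⟨?_, hy⟩
        show φ ^ (r0 * l ^ (k2 + 1)) • y = y
        rw [pow_succ, ← mul_assoc, pow_mul]
        exact h1
    have hexp : ∀ i (y : Pic0 K F), σ ^ i • y = y + ∑ t ∈ Finset.range i, σ ^ t • (σ • y - y) := by
      intro i y
      induction i with
      | zero => simp
      | succ i ih =>
        rw [Finset.sum_range_succ, ← add_assoc, ← ih, smul_sub, ← mul_smul, ← pow_succ]
        abel
    rw [hB]
    constructor
    · intro h1
      refine ⟨?_, nsmul_mem hy l⟩
      show σ • (l • y) = l • y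
      set w := σ • y - y with hw
      have hwT : w ∈ T := sub_mem (smul_mem_primary _ hy) hy
      have h2 : ∑ t ∈ Finset.range l, σ ^ t • w = 0 := by
        have := hexp l y
        rwa [h1, eq_comm, add_eq_left] at this
      have h3 : ∀ m : ℕ, l • (m • w)
          = -∑ i ∈ Finset.range l, ∑ t ∈ Finset.range i,
              σ ^ t • (σ • (m • w) - m • w) := by
        intro m
        rw [eq_neg_iff_add_eq_zero]
        have h4 : ∑ i ∈ Finset.range l, σ ^ i • (m • w) = 0 := by
          simp only [smul_nsmul']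
          rw [← Finset.smul_sum, h2, smul_zero]
        rw [Finset.sum_congr rfl fun i _ => hexp i (m • w), Finset.sum_add_distrib,
          Finset.sum_const, Finset.card_range] at h4
        exact h4
      have hkill : ∀ m : ℕ, l ^ 2 • (m • w) = 0 → l • (m • w) = 0 := by
        intro m hm
        have hfx : σ • (m • w) = m • w := (hk2 _ hm).1
        rw [h3 m, hfx, sub_self]
        simp
      have hlw : l • w = 0 := by
        obtain ⟨e, he⟩ := hwT
        have key : ∀ d, l ^ (1 + d) • w = 0 → l • w = 0 := by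
          intro d
          induction d with
          | zero => intro hd; rwa [add_zero, pow_one] at hd
          | succ d ih =>
            intro hd
            refine ih ?_
            have := hkill (l ^ d) (by rw [← mul_smul, ← pow_add]; convert hd using 3; ring)
            rwa [← mul_smul, ← pow_succ', add_comm] at this
        exact key e (by rw [pow_add, mul_smul, he, smul_zero])
      rw [smul_nsmul']
      rw [hw, nsmul_sub, sub_eq_zero] at hlw
      exact hlw
    · intro h1
      set w := σ • y - y with hw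
      have hlw : l • w = 0 := by
        rw [hw, nsmul_sub, ← smul_nsmul', sub_eq_zero]
        exact h1.1
      have hfx : ∀ t, σ ^ t • w = w := fun t =>
        pow_smul_fixed (r := 1) (by
          rw [pow_one]
          exact (hk2 w (by rw [sq, mul_smul, hlw, smul_zero])).1) (one_dvd t)
      rw [hexp l y, Finset.sum_congr rfl fun t _ => hfx t, Finset.sum_const, Finset.card_range, hlw,
        add_zero]
  have hbase : Nat.card (Pic0.torsion K F l) = l ^ (2 * g) := by
    have := hBfin (k2 + 1)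
    have := hBfin k2
    let mu : B (k2 + 1) →+ B k2 :=
      { toFun := fun y => ⟨l • y.1, (hnext y.1 y.2.2).mp y.2⟩
        map_zero' := Subtype.ext (smul_zero l)
        map_add' := fun a b => Subtype.ext (smul_add l a.1 b.1) }
    have hsurj : Function.Surjective mu := fun c => by
      obtain ⟨y, hy, hyc⟩ := hdiv c.1 c.2.2
      exact ⟨⟨y, (hnext y hy).mpr (hyc ▸ c.2)⟩, Subtype.ext hyc⟩
    have hker : Nat.card mu.ker = Nat.card (Pic0.torsion K F l) := by
      refine Nat.card_congr
        { toFun := fun x => ⟨x.1.1, mem_torsion_nsmul.mpr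
            (congrArg Subtype.val (AddMonoidHom.mem_ker.mp x.2))⟩
          invFun := fun x => ⟨⟨x.1, (hnext x.1 ⟨1, by rw [pow_one]; exact mem_torsion_nsmul.mp x.2⟩).mpr
            (by rw [mem_torsion_nsmul.mp x.2]; exact zero_mem _)⟩,
            AddMonoidHom.mem_ker.mpr (Subtype.ext (mem_torsion_nsmul.mp x.2))⟩
          left_inv := fun _ => rfl
          right_inv := fun _ => rfl }
    have h1 := mu.ker.card_mul_index
    rw [AddSubgroup.index_ker, AddMonoidHom.range_eq_top.mpr hsurj, AddSubgroup.card_top, hker,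
      hBcard', hBcard'] at h1
    refine Nat.eq_of_mul_eq_mul_right (pow_pos hl.pos (v0 + 2 * g * k2)) ?_
    rw [h1, ← pow_add]
    congr 1
    ring
  induction j with
  | zero =>
    have h01 : ∀ c ∈ Pic0.torsion K F (l ^ 0), c = 0 := fun c hc => by
      rw [mem_torsion_nsmul, pow_zero, one_smul] at hc
      exact hc
    have : Subsingleton (Pic0.torsion K F (l ^ 0)) :=
      ⟨fun a b => Subtype.ext ((h01 _ a.2).trans (h01 _ b.2).symm)⟩
    rw [mul_zero, pow_zero, Nat.card_eq_one_iff_unique]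
    exact ⟨this, ⟨0⟩⟩
  | succ j ih =>
    let mu : Pic0.torsion K F (l ^ (j + 1)) →+ Pic0.torsion K F (l ^ j) :=
      { toFun := fun y => ⟨l • y.1, mem_torsion_nsmul.mpr (by
          rw [← mul_smul, ← pow_succ]; exact mem_torsion_nsmul.mp y.2)⟩
        map_zero' := Subtype.ext (smul_zero l)
        map_add' := fun a b => Subtype.ext (smul_add l a.1 b.1) }
    have hsurj : Function.Surjective mu := fun c => by
      obtain ⟨y, -, hyc⟩ := hdiv c.1 ⟨j, mem_torsion_nsmul.mp c.2⟩
      exact ⟨⟨y, mem_torsion_nsmul.mpr (by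
        rw [pow_succ, mul_smul, hyc]; exact mem_torsion_nsmul.mp c.2)⟩, Subtype.ext hyc⟩
    have hker : Nat.card mu.ker = Nat.card (Pic0.torsion K F l) := by
      refine Nat.card_congr
        { toFun := fun x => ⟨x.1.1, mem_torsion_nsmul.mpr
            (congrArg Subtype.val (AddMonoidHom.mem_ker.mp x.2))⟩
          invFun := fun x => ⟨⟨x.1, mem_torsion_nsmul.mpr
            (by rw [pow_succ, mul_smul, mem_torsion_nsmul.mp x.2, smul_zero])⟩,
            AddMonoidHom.mem_ker.mpr (Subtype.ext (mem_torsion_nsmul.mp x.2))⟩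
          left_inv := by rintro ⟨⟨v, hv⟩, hv'⟩; rfl
          right_inv := by rintro ⟨v, hv⟩; rfl }
    rw [← mu.ker.card_mul_index, AddSubgroup.index_ker, AddMonoidHom.range_eq_top.mpr hsurj,
      AddSubgroup.card_top, hker, hbase, ih, ← pow_add]
    congr 1
    ring

/-- The `l`-power torsion of the class group over an algebraic closure of a finite field. -/
theorem natCard_torsion_of_isFrob (h : IsFrob φ q) (l : ℕ) [Fact l.Prime] (hlq : ¬ l ∣ q)
    (j : ℕ) : Nat.card (Pic0.torsion K F (l ^ j)) = l ^ (2 * genusFF K F * j) := by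
  obtain ⟨P₀⟩ := exists_place (K := K) (F := F)
  obtain ⟨r, hr, hr'⟩ := h.orbit_place P₀
  exact natCard_torsion_aux (h.pow hr) hr' l
    (fun h1 => hlq ((Fact.out : l.Prime).dvd_of_dvd_pow h1)) j

end Fermat.Agent.CurveTorsion
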