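import Fermat.Agent.CurveTorsion.Level
import Fermat.Agent.CurveTorsion.Reduction

/-!
# The torsion is at most what it is after reduction
-/

set_option autoImplicit false

noncomputable section

open scoped Classical

open Polynomial AlgebraicCurve
open scoped Polynomial.Bivariate

namespace Fermat.Agent.CurveTorsion

open FF

set_option linter.unusedSectionVars false

section Ring

variable {R S : Type*} [CommRing R] [CommRing S] {n N : ℕ}

/-- Coefficients of substitutions are linear in the coefficient vector. -/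
theorem coeff_ev_gpoly (D : CurveData R n) {M : ℕ} (c : CIdx D.m M → R) (t : R) (ζ : R[X])
    (j : ℕ) :
    (ev t ζ (D.gpoly c)).coeff j
      = ∑ e, c e * (ev t ζ (D.gpoly (Pi.single e 1))).coeff j := by
  conv_lhs => rw [pi_eq_sum_univ' c]
  have hadd : ∀ s : Finset (CIdx D.m M),
      (ev t ζ (D.gpoly (∑ e ∈ s, c e • (Pi.single e (1 : R) : CIdx D.m M → R)))).coeff j
        = ∑ e ∈ s, c e * (ev t ζ (D.gpoly (Pi.single e 1))).coeff j := by
    intro s
    induction s using Finset.induction_on with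
    | empty => simp [CurveData.gpoly, cpoly, zpoly]
    | insert a s ha ih =>
      rw [Finset.sum_insert ha, Finset.sum_insert ha, D.gpoly_add, map_add, coeff_add, ih,
        D.gpoly_smul, map_mul, ev_C, C_comp, coeff_C_mul]
  exact hadd Finset.univ

theorem X_pow_dvd_of_map (f : R →+* S) (hf : Function.Injective f) {j : ℕ} {p : R[X]}
    (h : X ^ j ∣ p.map f) : X ^ j ∣ p := by
  rw [X_pow_dvd_iff] at h ⊢
  exact fun i hi => hf (by rw [map_zero, ← coeff_map]; exact h i hi)

theorem CurveData.IsPt.of_map {D : CurveData R n} (f : R →+* S) (hf : Function.Injective f)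
    {t : R} {z : Fin N → R} (h : (D.map f).IsPt (f t) (fun j => f (z j))) : D.IsPt t z :=
  X_pow_dvd_of_map f hf (by rw [ev_map, map_zpoly]; exact h)

theorem CurveData.Van.of_map {D : CurveData R n} (f : R →+* S) (hf : Function.Injective f)
    {M j : ℕ} {c : CIdx D.m M → R} {t : R} {z : Fin N → R}
    (h : (D.map f).Van (fun e : CIdx (D.map f).m M => f (c e)) j (f t) (fun j => f (z j))) :
    D.Van c j t z :=
  X_pow_dvd_of_map f hf (by rw [ev_map, map_zpoly, CurveData.map_gpoly]; exact h)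

/-- The entries of the matrix of vanishing conditions at `(t, z)` and `(t', z')`. -/
def vanRow (D : CurveData R n) {d : ℕ} (t : Fin d → R) (z : Fin d → Fin N → R) (t' : Fin d → R)
    (z' : Fin d → Fin N → R) {M : ℕ} (e : CIdx D.m M) : Fin d ⊕ (Fin d × Fin (N - 1)) → R :=
  Sum.elim (fun i => (ev (t i) (zpoly (z i)) (D.gpoly (Pi.single e 1))).coeff 0)
    (fun p => (ev (t' p.1) (zpoly (z' p.1)) (D.gpoly (Pi.single e 1))).coeff p.2)

theorem map_single_one {ι : Type*} [DecidableEq ι] (f : R →+* S) (e : ι) :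
    (fun e' => f ((Pi.single e (1 : R) : ι → R) e')) = Pi.single e (1 : S) := by
  funext e'
  rcases eq_or_ne e' e with rfl | h
  · simp
  · simp [Pi.single_eq_of_ne h]

theorem map_vanRow (D : CurveData R n) (f : R →+* S) {d : ℕ} (t : Fin d → R)
    (z : Fin d → Fin N → R) (t' : Fin d → R) (z' : Fin d → Fin N → R) {M : ℕ} (e : CIdx D.m M)
    (r : Fin d ⊕ (Fin d × Fin (N - 1))) :
    f (vanRow D t z t' z' e r) = vanRow (D.map f) (fun i => f (t i)) (fun i j => f (z i j))
      (fun i => f (t' i)) (fun i j => f (z' i j)) (e : CIdx (D.map f).m M) r := by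
  have hs : (fun e' : CIdx (D.map f).m M => f ((Pi.single e (1 : R) : CIdx D.m M → R) e'))
      = (Pi.single e (1 : S) : CIdx (D.map f).m M → S) := map_single_one f e
  rcases r with i | ⟨i, j⟩ <;>
    (simp only [vanRow, Sum.elim_inl, Sum.elim_inr, ← coeff_map, ev_map, map_zpoly,
      CurveData.map_gpoly]
     rw [hs])

theorem sum_mul_vanRow (D : CurveData R n) {d : ℕ} {t : Fin d → R} {z : Fin d → Fin N → R}
    {t' : Fin d → R} {z' : Fin d → Fin N → R} {M : ℕ} (c : CIdx D.m M → R) :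
    (∀ r, ∑ e, c e * vanRow D t z t' z' e r = 0) ↔
      (∀ i, D.Van c 1 (t i) (z i)) ∧ ∀ i, D.Van c (N - 1) (t' i) (z' i) := by
  simp only [CurveData.Van, X_pow_dvd_iff, Sum.forall, Prod.forall, vanRow,
    Sum.elim_inl, Sum.elim_inr]
  simp_rw [← coeff_ev_gpoly D c]
  refine and_congr (forall_congr' fun i => ?_) (forall_congr' fun i => ?_)
  · exact ⟨fun h j hj => by rw [Nat.lt_one_iff.mp hj]; exact h, fun h => h 0 one_pos⟩
  · exact ⟨fun h j hj => h ⟨j, hj⟩, fun h j => h j j.2⟩

end Ring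

variable {K : Type*} [Field K] {n : ℕ}

/-- Chosen data for a class. -/
structure Rep {F : Type*} [Field F] [Algebra K F] [IsFunctionField K F] [IsAlgClosed K]
    (D : CurveData K n) (x θ : F) (P₀ : Place K F) (M N : ℕ) where
  /-- The coordinates. -/
  t : Fin (M * n) → K
  /-- The series. -/
  z : Fin (M * n) → Fin N → K
  /-- The coefficients. -/
  c : CIdx D.m (N * M) → K
  /-- The normalised index. -/
  e : CIdx D.m (N * M)
  good : GoodPts D t z
  one : c e = 1
  van : ∀ i, D.Van c N (t i) (z i)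

universe u

variable {K : Type u} [Field K] [IsAlgClosed K] [CharZero K]

theorem exists_reps {F : Type*} [Field F] [Algebra K F] [IsFunctionField K F]
    {D : CurveData K n} {x θ : F} (H : Realizes D x θ) (hD : D.IsValid) {N : ℕ} (hN : 0 < N)
    {M : ℕ} (hM : 2 * (genusFF K F : ℤ) + 2 ≤ (M : ℤ) * n) (P₀ : Place K F)
    (C' : Finset (Pic0.torsion K F N)) :
    ∃ R : Pic0.torsion K F N → Rep D x θ P₀ M N,
      (∀ c ∈ C', ptsClass P₀ x θ M (R c).t (R c).z = (c : Pic0 K F)) ∧
      ∀ c ∈ C', ∀ c' ∈ C', c ≠ c' → ∀ i i', (R c).t i ≠ (R c').t i' := by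
  refine exists_family_disjoint (fun R : Rep D x θ P₀ M N => R.t)
    (fun (c : Pic0.torsion K F N) (R : Rep D x θ P₀ M N) =>
      ptsClass P₀ x θ M R.t R.z = (c : Pic0 K F))
    (fun a T => ?_) C'
  obtain ⟨t, z, c, e, -, hg, hT, h1, hv, hcl, -, -⟩ := H.exists_pts hD hN M hM P₀ a a.2 T
  exact ⟨⟨t, z, c, e, hg, h1, hv⟩, hcl, hT⟩

theorem exists_leftInverse_vanRow {F : Type*} [Field F] [Algebra K F] [IsFunctionField K F]
    {D : CurveData K n} {x θ : F} (H : Realizes D x θ) (hD : D.IsValid) {N : ℕ} (hN : 0 < N)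
    {M : ℕ} {P₀ : Place K F} (a b : Rep D x θ P₀ M N) (hdisj : ∀ i i', a.t i ≠ b.t i')
    (hab : ptsClass P₀ x θ M a.t a.z ≠ ptsClass P₀ x θ M b.t b.z) :
    ∃ Li : CIdx D.m (N * M) →
      Fin (M * n) ⊕ (Fin (M * n) × Fin (N - 1)) → K, ∀ e e',
      ∑ r, Li e r * vanRow D a.t a.z b.t b.z e' r = if e = e' then 1 else 0 := by
  let f : (CIdx D.m (N * M) → K) →ₗ[K] (Fin (M * n) ⊕ (Fin (M * n) × Fin (N - 1)) → K) :=
    Matrix.mulVecLin (Matrix.of fun r e => vanRow D a.t a.z b.t b.z e r)
  have hf : LinearMap.ker f = ⊥ := by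
    rw [LinearMap.ker_eq_bot']
    intro c hc
    by_contra hc0
    have h1 := (sum_mul_vanRow D c).mp fun r => by
      have := congrFun hc r
      simpa [f, Matrix.mulVec, dotProduct, mul_comm] using this
    have hne : ∀ i i', (a.t i, (zpoly (a.z i)).coeff 0)
        ≠ (b.t i', (zpoly (b.z i')).coeff 0) := fun i i' h =>
      hdisj i i' (Prod.ext_iff.mp h).1
    have hbne : b.c ≠ 0 := fun h => by simpa [h] using b.one
    exact hab <| (H.ptsClass_eq_iff hD hN a.good b.good hne (Fintype.card_fin _)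
      (Fintype.card_fin _) hbne b.van P₀).mpr ⟨c, hc0, h1.1, h1.2⟩
  obtain ⟨L, hL⟩ := LinearMap.exists_leftInverse_of_injective f hf
  refine ⟨fun e r => L (Pi.single r 1) e, fun e e' => ?_⟩
  have h1 := congrFun (LinearMap.congr_fun hL (Pi.single e' 1)) e
  rw [LinearMap.comp_apply, pi_eq_sum_univ' (f (Pi.single e' 1)), map_sum] at h1
  simp only [map_smul, Finset.sum_apply, Pi.smul_apply, smul_eq_mul, LinearMap.id_coe, id_eq,
    Pi.single_apply] at h1
  rw [← h1]
  refine Finset.sum_congr rfl fun r _ => ?_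
  simp [f, Matrix.mulVec_single, mul_comm]

section Red

variable (A : ValuationSubring K)

theorem residue_ne_zero_of_inv_mem {u : A} (hu : (u : K)⁻¹ ∈ A) (hu0 : u ≠ 0) :
    IsLocalRing.residue A u ≠ 0 := by
  refine (IsUnit.map (IsLocalRing.residue A) (IsUnit.of_mul_eq_one ⟨_, hu⟩ (Subtype.ext ?_))).ne_zero
  exact mul_inv_cancel₀ fun h => hu0 (Subtype.ext h)

theorem residue_pair_ne {N : ℕ} (hN : 0 < N) {t t' : A} {z z' : Fin N → A}
    (h1 : ((t : K) - t')⁻¹ ∈ A) (h2 : ((z ⟨0, hN⟩ : K) - z' ⟨0, hN⟩)⁻¹ ∈ A)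
    (hne : ((t : K), (zpoly fun j => (z j : K)).coeff 0)
      ≠ ((t' : K), (zpoly fun j => (z' j : K)).coeff 0)) :
    (IsLocalRing.residue A t, (zpoly fun j => IsLocalRing.residue A (z j)).coeff 0)
      ≠ (IsLocalRing.residue A t', (zpoly fun j => IsLocalRing.residue A (z' j)).coeff 0) := by
  intro h
  obtain ⟨e1, e2⟩ := Prod.ext_iff.mp h
  simp only [coeff_zero_zpoly _ hN] at e1 e2 hne
  by_cases ht : t = t'
  · refine residue_ne_zero_of_inv_mem A (u := z ⟨0, hN⟩ - z' ⟨0, hN⟩) h2
      (sub_ne_zero.mpr fun h' => hne ?_) (by rw [map_sub, sub_eq_zero]; exact e2)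
    rw [ht, h']
  · exact residue_ne_zero_of_inv_mem A (u := t - t') h1 (sub_ne_zero.mpr ht)
      (by rw [map_sub, sub_eq_zero]; exact e1)

theorem goodPts_residue {DA : CurveData A n} {d N : ℕ} (hN : 0 < N) {t : Fin d → A}
    {z : Fin d → Fin N → A}
    (hg : GoodPts (DA.map A.subtype) (fun i => (t i : K)) (fun i j => (z i j : K)))
    (hΔ : ∀ i, ((DA.map A.subtype).Δ.eval (t i : K))⁻¹ ∈ A)
    (ht : ∀ i i', ((t i : K) - t i')⁻¹ ∈ A)
    (hz : ∀ i i', ((z i ⟨0, hN⟩ : K) - z i' ⟨0, hN⟩)⁻¹ ∈ A) :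
    GoodPts (DA.map (IsLocalRing.residue A)) (fun i => IsLocalRing.residue A (t i))
      (fun i j => IsLocalRing.residue A (z i j)) := by
  refine ⟨fun i => ?_,
    fun i => (CurveData.IsPt.of_map A.subtype Subtype.val_injective (hg.isPt i)).map _,
    fun i i' h => ?_⟩
  · have h1 : (DA.map (IsLocalRing.residue A)).Δ.eval (IsLocalRing.residue A (t i))
        = IsLocalRing.residue A (DA.Δ.eval (t i)) := eval_map_apply ..
    rw [h1]
    have h2 : ((DA.Δ.eval (t i) : A) : K) = (DA.map A.subtype).Δ.eval (t i : K) :=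
      (eval_map_apply (f := A.subtype) (p := DA.Δ) (t i)).symm
    exact residue_ne_zero_of_inv_mem A (by rw [h2]; exact hΔ i)
      fun h => hg.Δ_ne i (by rw [← h2, h]; rfl)
  · by_contra hne
    exact residue_pair_ne A hN (ht i i') (hz i i') (fun h' => hne (hg.inj h')) h

theorem eq_zero_of_leftInverse {DA : CurveData A n} {d N M : ℕ} {t t' : Fin d → A}
    {z z' : Fin d → Fin N → A} (Li : CIdx DA.m M → Fin d ⊕ (Fin d × Fin (N - 1)) → A)
    (hLi : ∀ e e', ∑ r, (Li e r : K) * vanRow (DA.map A.subtype) (fun i => (t i : K))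
      (fun i j => (z i j : K)) (fun i => (t' i : K)) (fun i j => (z' i j : K))
      (e' : CIdx (DA.map A.subtype).m M) r = if e = e' then 1 else 0)
    {c : CIdx (DA.map (IsLocalRing.residue A)).m M → IsLocalRing.ResidueField A}
    (h1 : ∀ i, (DA.map (IsLocalRing.residue A)).Van c 1 (IsLocalRing.residue A (t i))
      (fun j => IsLocalRing.residue A (z i j)))
    (h2 : ∀ i, (DA.map (IsLocalRing.residue A)).Van c (N - 1) (IsLocalRing.residue A (t' i))
      (fun j => IsLocalRing.residue A (z' i j))) : c = 0 := by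
  have h0 := (sum_mul_vanRow (DA.map (IsLocalRing.residue A)) c).mpr ⟨h1, h2⟩
  funext e
  have hid : ∀ e e' : CIdx (DA.map (IsLocalRing.residue A)).m M,
      ∑ r, IsLocalRing.residue A (Li (e : CIdx DA.m M) r) *
      vanRow (DA.map (IsLocalRing.residue A)) (fun i => IsLocalRing.residue A (t i))
        (fun i j => IsLocalRing.residue A (z i j)) (fun i => IsLocalRing.residue A (t' i))
        (fun i j => IsLocalRing.residue A (z' i j))
        e' r
      = if e = e' then 1 else 0 := by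
    show ∀ e e' : CIdx DA.m M, _
    intro e e'
    have h1 : ∑ r, Li e r * vanRow DA t z t' z' e' r = if e = e' then 1 else 0 := by
      apply A.subtype_injective
      rw [map_sum, apply_ite A.subtype, map_one, map_zero]
      simp only [map_mul, map_vanRow]
      convert hLi e e' <;> rfl
    have h2 := congrArg (IsLocalRing.residue A) h1
    rw [map_sum, apply_ite (IsLocalRing.residue A), map_one, map_zero] at h2
    simp only [map_mul, map_vanRow] at h2
    convert h2 <;> first | exact Iff.rfl | rfl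
  calc c e = ∑ e', c e' * (if e = e' then 1 else 0) := by simp
    _ = ∑ r, IsLocalRing.residue A (Li e r) * ∑ e', c e' *
        vanRow (DA.map (IsLocalRing.residue A)) (fun i => IsLocalRing.residue A (t i))
          (fun i j => IsLocalRing.residue A (z i j)) (fun i => IsLocalRing.residue A (t' i))
          (fun i j => IsLocalRing.residue A (z' i j)) e' r := by
      refine (Finset.sum_congr rfl fun e' _ => congrArg (c e' * ·) (hid e e').symm).trans ?_
      simp only [Finset.mul_sum]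
      rw [Finset.sum_comm]
      exact Finset.sum_congr rfl fun r _ => Finset.sum_congr rfl fun e' _ => by ring
    _ = 0 := Finset.sum_eq_zero fun r _ => by rw [h0 r, mul_zero]

end Red

set_option maxHeartbeats 1000000 in
theorem card_torsion_le {F : Type*} [Field F] [Algebra K F] [IsFunctionField K F]
    {D : CurveData K n} {x θ : F} (H : Realizes D x θ) (hD : D.IsValid) (l : ℕ) [hl : Fact l.Prime]
    (j : ℕ) (C : Finset (Pic0 K F)) (hC : ∀ c ∈ C, c ∈ Pic0.torsion K F (l ^ j)) :
    C.card ≤ l ^ (2 * genusFF K F * j) := by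
  obtain ⟨P₀⟩ := FF.exists_place (K := K) (F := F)
  set N := l ^ j
  have hN : 0 < N := pow_pos hl.out.pos j
  set M := 2 * genusFF K F + 2
  have hn : 0 < n := lt_of_le_of_lt (Nat.zero_le _) D.i0.2
  have hM : 2 * (genusFF K F : ℤ) + 2 ≤ (M : ℤ) * n := by
    have h1 : (1 : ℤ) ≤ n := by exact_mod_cast hn
    have h2 : (M : ℤ) = 2 * genusFF K F + 2 := by simp [M]
    nlinarith
  set C' : Finset (Pic0.torsion K F N) := C.subtype fun c => c ∈ Pic0.torsion K F N
  have hC' : C'.card = C.card := by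
    rw [Finset.card_subtype, Finset.filter_true_of_mem hC]
  obtain ⟨R, hR, hdisj⟩ := exists_reps H hD hN hM P₀ C'
  let ι := C'
  -- left inverses of the vanishing conditions
  have hLi : ∀ a b : ι, (a : Pic0.torsion K F N) ≠ b → ∃ Li : CIdx D.m (N * M) →
      Fin (M * n) ⊕ (Fin (M * n) × Fin (N - 1)) → K, ∀ e e',
      ∑ r, Li e r * vanRow D (R a).t (R a).z (R b).t (R b).z e' r
        = if e = e' then 1 else 0 := by
    exact fun a b hab => exists_leftInverse_vanRow H hD hN (R a) (R b) (hdisj a a.2 b b.2 hab)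
      (by rw [hR a a.2, hR b b.2]; exact fun h => hab (Subtype.ext h))
  choose Li hLi using hLi
  let y : ι → Fin (M * n) → K := fun a i => (zpoly ((R a).z i)).coeff 0
  let S : Finset K :=
    (Finset.univ.image fun p : ι × Fin (M * n) => (R p.1).t p.2) ∪
    (Finset.univ.image fun p : ι × Fin (M * n) × Fin N => (R p.1).z p.2.1 p.2.2) ∪
    (Finset.univ.image fun p : ι × CIdx D.m (N * M) => (R p.1).c p.2) ∪
    (Finset.univ.image fun p : ι × Fin (M * n) => (D.Δ.eval ((R p.1).t p.2))⁻¹) ∪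
    (Finset.univ.image fun p : (ι × Fin (M * n)) × ι × Fin (M * n) =>
      ((R p.1.1).t p.1.2 - (R p.2.1).t p.2.2)⁻¹) ∪
    (Finset.univ.image fun p : (ι × Fin (M * n)) × ι × Fin (M * n) =>
      (y p.1.1 p.1.2 - y p.2.1 p.2.2)⁻¹) ∪
    (Finset.univ.image fun p : ι × ι × CIdx D.m (N * M) ×
      (Fin (M * n) ⊕ (Fin (M * n) × Fin (N - 1))) =>
        if h : (p.1 : Pic0.torsion K F N) ≠ p.2.1 then Li p.1 p.2.1 h p.2.2.1 p.2.2.2 else 0)
  obtain ⟨A, hSA, -, DA, hDA, hmap, Fb, _, _, _, xb, θb, Hb, hcard⟩ := exists_reduction hD l j S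
  subst hmap
  have ht : ∀ (a : ι) i, (R a).t i ∈ A := fun a i => hSA _ (by
    simp only [S, Finset.mem_union, Finset.mem_image, Finset.mem_univ, true_and]
    exact Or.inl (Or.inl (Or.inl (Or.inl (Or.inl (Or.inl ⟨(a, i), rfl⟩))))))
  have hz : ∀ (a : ι) i k, (R a).z i k ∈ A := fun a i k => hSA _ (by
    simp only [S, Finset.mem_union, Finset.mem_image, Finset.mem_univ, true_and]
    exact Or.inl (Or.inl (Or.inl (Or.inl (Or.inl (Or.inr ⟨(a, i, k), rfl⟩))))))
  have hc : ∀ (a : ι) e, (R a).c e ∈ A := fun a e => hSA _ (by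
    simp only [S, Finset.mem_union, Finset.mem_image, Finset.mem_univ, true_and]
    exact Or.inl (Or.inl (Or.inl (Or.inl (Or.inr ⟨(a, e), rfl⟩)))))
  have hΔi : ∀ (a : ι) i, ((DA.map A.subtype).Δ.eval ((R a).t i))⁻¹ ∈ A := fun a i => hSA _ (by
    simp only [S, Finset.mem_union, Finset.mem_image, Finset.mem_univ, true_and]
    exact Or.inl (Or.inl (Or.inl (Or.inr ⟨(a, i), rfl⟩))))
  have hti : ∀ (a : ι) i (b : ι) i', ((R a).t i - (R b).t i')⁻¹ ∈ A := fun a i b i' => hSA _ (by
    simp only [S, Finset.mem_union, Finset.mem_image, Finset.mem_univ, true_and]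
    exact Or.inl (Or.inl (Or.inr ⟨((a, i), (b, i')), rfl⟩)))
  have hyi : ∀ (a : ι) i (b : ι) i', (y a i - y b i')⁻¹ ∈ A := fun a i b i' => hSA _ (by
    simp only [S, Finset.mem_union, Finset.mem_image, Finset.mem_univ, true_and]
    exact Or.inl (Or.inr ⟨((a, i), (b, i')), rfl⟩))
  have hLiA : ∀ (a b : ι) (h : (a : Pic0.torsion K F N) ≠ b) e r, Li a b h e r ∈ A :=
    fun a b h e r => hSA _ (by
      simp only [S, Finset.mem_union, Finset.mem_image, Finset.mem_univ, true_and]
      exact Or.inr ⟨(a, b, e, r), dif_pos h⟩)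
  set res := IsLocalRing.residue A
  let tA : ι → Fin (M * n) → A := fun a i => ⟨(R a).t i, ht a i⟩
  let zA : ι → Fin (M * n) → Fin N → A := fun a i k => ⟨(R a).z i k, hz a i k⟩
  let cA : ι → CIdx DA.m (N * M) → A := fun a e => ⟨(R a).c e, hc a e⟩
  let tk : ι → Fin (M * n) → IsLocalRing.ResidueField A := fun a i => res (tA a i)
  let zk : ι → Fin (M * n) → Fin N → IsLocalRing.ResidueField A := fun a i k => res (zA a i k)
  have hy0 : ∀ (a : ι) i, y a i = (R a).z i ⟨0, hN⟩ := fun a i => coeff_zero_zpoly _ hN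
  have hyz : ∀ (a : ι) i (b : ι) i',
      ((zA a i ⟨0, hN⟩ : K) - zA b i' ⟨0, hN⟩)⁻¹ ∈ A := fun a i b i' => by
    have := hyi a i b i'
    rwa [hy0, hy0] at this
  have hgood : ∀ a : ι, GoodPts (DA.map res) (tk a) (zk a) := fun a =>
    goodPts_residue A hN (t := tA a) (z := zA a) (R a).good (hΔi a) (fun i i' => hti a i a i')
      (fun i i' => hyz a i a i')
  have hvan : ∀ (a : ι) i, (DA.map res).Van (fun e : CIdx (DA.map res).m (N * M) => res (cA a e)) N
      (tk a i) (zk a i) := fun a i =>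
    (CurveData.Van.of_map A.subtype Subtype.val_injective (c := cA a) (t := tA a i) (z := zA a i)
      ((R a).van i)).map res
  have hcne : ∀ a : ι, (fun e : CIdx (DA.map res).m (N * M) => res (cA a e)) ≠ 0 := fun a h => by
    have h1 := congrFun h (R a).e
    have h2 : cA a (R a).e = 1 := Subtype.ext (R a).one
    exact one_ne_zero ((map_one res).symm.trans ((congrArg res h2).symm.trans h1))
  obtain ⟨Q₀⟩ := FF.exists_place (K := IsLocalRing.ResidueField A) (F := Fb)
  have hDk := hDA.map res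
  let cl : ι → Pic0.torsion (IsLocalRing.ResidueField A) Fb N := fun a =>
    ⟨ptsClass Q₀ xb θb M (tk a) (zk a),
      Hb.ptsClass_torsion hDk hN (hgood a) (Fintype.card_fin _) (hcne a) (hvan a) Q₀⟩
  have hinj : Function.Injective cl := by
    intro a b hab
    by_contra hne
    have hne' : (a : Pic0.torsion K F N) ≠ b := fun h => hne (Subtype.ext h)
    have hdis : ∀ i i', (tk a i, (zpoly (zk a i)).coeff 0) ≠ (tk b i', (zpoly (zk b i')).coeff 0) :=
      fun i i' => residue_pair_ne A hN (hti a i b i') (hyz a i b i')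
        fun h => hdisj a a.2 b b.2 hne' i i' (Prod.ext_iff.mp h).1
    obtain ⟨cb, hcb, hv1, hv2⟩ := (Hb.ptsClass_eq_iff hDk hN (hgood a) (hgood b) hdis
      (Fintype.card_fin _) (Fintype.card_fin _) (hcne b) (hvan b) Q₀).mp (congrArg Subtype.val hab)
    exact hcb (eq_zero_of_leftInverse A (t := tA a) (z := zA a) (t' := tA b) (z' := zA b)
      (fun e r => ⟨Li a b hne' e r, hLiA a b hne' e r⟩) (fun e e' => by convert hLi a b hne' e e' <;> rfl) hv1 hv2)
  have hfin : Finite (Pic0.torsion (IsLocalRing.ResidueField A) Fb N) :=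
    Nat.finite_of_card_ne_zero (by rw [hcard]; exact pow_ne_zero _ hl.out.ne_zero)
  have h := Nat.card_le_card_of_injective cl hinj
  rw [Nat.card_eq_finsetCard, hC', hcard] at h
  have hg : genusFF (IsLocalRing.ResidueField A) Fb = genusFF K F := by
    have h1 := Hb.sum_m
    have h2 := H.sum_m
    simp only [CurveData.map] at h1 h2
    omega
  rwa [hg] at h

end Fermat.Agent.CurveTorsion
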